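import Mathlib
import Fermat.Prelude.Def_FLTPrelim_FreyPackage
import Fermat.Prelude.Def_FLTPrelim_GaloisRep
import Fermat.Prelude.Def_FLTPrelim_Ramification
import Fermat.Prelude.Def_FLTPrelim_CofixedLine
import Fermat.Agent.S05.Kernel

/-!
# S13 (reducible Frey representation has a Galois-stable cofixed line): frozen interfaces

Architect: helper13.  Each `If*` below is the exact statement delivered by one work package;
`Fermat/Agent/S13/Assembly.lean` proves the frozen statement S13 from them (plus the landed S05).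

Notation: `Qbar = AlgebraicClosure ℚ`, `E = P.freyCurve` base-changed to `Qbar`,
`E[p] = Submodule.torsionBy ℤ E.Point p`, `E₁(A) = {Q | InE1 A Q}` (kernel of reduction at the
valuation subring `A`, in the coordinates of the Frey model itself).
-/

set_option autoImplicit false

namespace Fermat.Agent.S13

open WeierstrassCurve WeierstrassCurve.Affine WeierstrassCurve.Affine.Point

local notation "Qbar" => AlgebraicClosure ℚ

/-- The points of the Frey curve over `Qbar`. -/
abbrev FreyPt (P : FreyPackage) : Type := (P.freyCurve⁄Qbar).Point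

/-- The `p`-torsion of the Frey curve over `Qbar` (the module of the statement S13). -/
abbrev FreyTors (P : FreyPackage) : Type := Submodule.torsionBy ℤ (P.freyCurve⁄Qbar).Point P.p

/-- **WP-T (ladder / division polynomial).**  There is an integer polynomial `Z` of degree
`p² - 1` with leading coefficient `p²` whose roots in `Qbar` are exactly the `x`-coordinates of the
nonzero `p`-torsion points of the Frey curve. -/
def IfLadder (P : FreyPackage) : Prop :=
  ∃ Z : Polynomial ℤ, Z.natDegree = P.p ^ 2 - 1 ∧ Z.leadingCoeff = (P.p : ℤ) ^ 2 ∧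
    ∀ x : Qbar, (Z.map (Int.castRingHom Qbar)).IsRoot x ↔
      ∃ (y : Qbar) (h : (P.freyCurve⁄Qbar).Nonsingular x y),
        (P.p : ℤ) • (Point.some x y h : FreyPt P) = 0

/-- **WP-P2 (no "supersingular-like" case).**  At a place `A` over `p`, if `E[p]` has a
Galois-stable proper nonzero submodule, then not all of `E[p]` lies in the kernel of reduction. -/
def IfP2 (P : FreyPackage) : Prop :=
  ∀ A : ValuationSubring Qbar, A.LiesOverPrime P.p →
    ∀ N : Submodule (ZMod P.p) (FreyTors P), IsGaloisStable ℚ N → N ≠ ⊥ → N ≠ ⊤ →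
      ∃ x : FreyTors P, ¬ Fermat.Agent.S05.InE1 A (x : FreyPt P)

/-- **WP-LP (inertia at `p`).**  At a place `A` over `p`, inertia moves every `p`-torsion point by
an element of the kernel of reduction. -/
def IfRedP (P : FreyPackage) : Prop :=
  ∀ A : ValuationSubring Qbar, A.LiesOverPrime P.p →
    ∀ σ ∈ A.inertiaSubgroupIn ℚ, ∀ Q : FreyPt P, (P.p : ℤ) • Q = 0 →
      Fermat.Agent.S05.InE1 A (σ • Q - Q)

/-- **WP-L2 (inertia at `2`).**  At a place `A` over `2`, every inertia element `σ` satisfies
`(σ - 1)² = 0` on `E[p]`. -/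
def IfLoc2 (P : FreyPackage) : Prop :=
  ∀ A : ValuationSubring Qbar, A.LiesOverPrime 2 →
    ∀ σ ∈ A.inertiaSubgroupIn ℚ, ∀ Q : FreyPt P, (P.p : ℤ) • Q = 0 →
      σ • (σ • Q - Q) = σ • Q - Q

/-- **WP-R (no rational `p`-torsion).**  The only Galois-fixed `p`-torsion point is `0`. -/
def IfR (P : FreyPackage) : Prop :=
  ∀ Q : FreyPt P, (P.p : ℤ) • Q = 0 → (∀ σ : Qbar ≃ₐ[ℚ] Qbar, σ • Q = Q) → Q = 0

/-- **WP-M (Minkowski).**  A normal subgroup of `Gal(Qbar/ℚ)` which contains the pointwise
stabiliser of a finite set (i.e. is open) and, for every prime `q`, the inertia group of SOME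
place over `q`, is everything. -/
def IfM : Prop :=
  ∀ H : Subgroup (Qbar ≃ₐ[ℚ] Qbar), H.Normal →
    (∃ s : Finset Qbar, ∀ σ : Qbar ≃ₐ[ℚ] Qbar, (∀ a ∈ s, σ a = a) → σ ∈ H) →
    (∀ q : ℕ, q.Prime → ∃ A : ValuationSubring Qbar, A.LiesOverPrime q ∧
      A.inertiaSubgroupIn ℚ ≤ H) →
    H = ⊤

end Fermat.Agent.S13
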