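import Mathlib
import Fermat.Prelude.Def_FLTPrelim_FreyPackage
import Fermat.Prelude.Def_FLTPrelim_GaloisRep
import Fermat.Prelude.Def_FLTPrelim_Ramification
import Fermat.Prelude.Def_FLTPrelim_CofixedLine
import Fermat.Agent.S05.Kernel
import Fermat.Agent.S05.FreyArith

/-!
# Project S13 (architect: helper86): frozen interfaces

S13 : if the mod-`p` representation of the Frey curve is reducible, it has a Galois-stable
cofixed line.  This file only contains the *statements* of the work packages, as `Prop`-valued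
definitions.  `Fermat/Agent/S13/Assembly.lean` proves S13 from them.

Notation: `Qbar = AlgebraicClosure ℚ`, `E = W⁄Qbar`, `Tors W n = E[n]` (the Prelude module
`Submodule.torsionBy ℤ (W⁄Qbar).Point n` with its Galois action and `ZMod n`-structure).
-/

set_option autoImplicit false

namespace Fermat.Agent.S13

open WeierstrassCurve WeierstrassCurve.Affine.Point
open scoped WeierstrassCurve.Affine

/-- The `n`-torsion of `W` over `AlgebraicClosure ℚ`. -/
abbrev Tors (W : WeierstrassCurve ℚ) (n : ℕ) : Type :=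
  Submodule.torsionBy ℤ (W⁄(AlgebraicClosure ℚ)).Point n

/-- **(MINK)** an open normal subgroup of `Gal(Qbar/ℚ)` containing, for every prime `ℓ`, the
inertia group of *some* valuation subring over `ℓ`, is everything (Minkowski: `ℚ` has no
nontrivial extension unramified at all primes).  Openness is expressed by a finite set `S`
whose pointwise stabiliser lies in `H`. -/
def IfaceMink : Prop :=
  ∀ H : Subgroup (AlgebraicClosure ℚ ≃ₐ[ℚ] AlgebraicClosure ℚ), H.Normal →
    (∃ S : Finset (AlgebraicClosure ℚ),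
      ∀ σ : AlgebraicClosure ℚ ≃ₐ[ℚ] AlgebraicClosure ℚ, (∀ s ∈ S, σ s = s) → σ ∈ H) →
    (∀ ℓ : ℕ, ℓ.Prime → ∃ A : ValuationSubring (AlgebraicClosure ℚ),
      A.LiesOverPrime ℓ ∧ A.inertiaSubgroupIn ℚ ≤ H) →
    H = ⊤

/-- **(L2)** inertia at `2` acts unipotently on `E[p]` of the Frey curve: `(σ - 1)² = 0`. -/
def IfaceTwo : Prop :=
  ∀ (P : FreyPackage) (A : ValuationSubring (AlgebraicClosure ℚ)), A.LiesOverPrime 2 →
    ∀ σ ∈ A.inertiaSubgroupIn ℚ, ∀ Q : (P.freyCurve⁄(AlgebraicClosure ℚ)).Point,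
      (P.p : ℤ) • Q = 0 → σ • (σ • Q - Q) = σ • Q - Q

/-- **(L5)** the Frey curve has no nonzero rational `p`-torsion point. -/
def IfaceNoRat : Prop :=
  ∀ (P : FreyPackage) (Q : (P.freyCurve⁄(AlgebraicClosure ℚ)).Point),
    (P.p : ℤ) • Q = 0 →
      (∀ σ : AlgebraicClosure ℚ ≃ₐ[ℚ] AlgebraicClosure ℚ, σ • Q = Q) → Q = 0

/-- **(SS)** "supersingular-like" exclusion: for a model with integer coefficients and an odd
prime `p`, if all of `E[p]` lies in the kernel of reduction at `A` (over `p`), then `E[p]` has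
no Galois-stable line. -/
def IfaceSS : Prop :=
  ∀ (p : ℕ), p.Prime → p ≠ 2 →
    ∀ (W : WeierstrassCurve ℚ), (∃ a₁ a₂ a₃ a₄ a₆ : ℤ, W = ⟨a₁, a₂, a₃, a₄, a₆⟩) → W.Δ ≠ 0 →
    ∀ A : ValuationSubring (AlgebraicClosure ℚ), A.LiesOverPrime p →
      (∀ Q : (W⁄(AlgebraicClosure ℚ)).Point, (p : ℤ) • Q = 0 → Fermat.Agent.S05.InE1 A Q) →
      ∀ N : Submodule (ZMod p) (Tors W p), IsGaloisStable ℚ N → N ≠ ⊥ → N ≠ ⊤ → False

/-- **(AtP)** at `p`, on a short model `y² = x³ + A₂x² + A₄x` (`A₂ A₄ : ℤ`) which is good or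
short nodal at `A` (over `p`): for a Galois-stable line `N` of `E[p]`, the inertia group at `A`
acts trivially on `N` or trivially on `E[p] / N`. -/
def IfaceAtP : Prop :=
  ∀ (p : ℕ), p.Prime → p ≠ 2 →
    ∀ (W : WeierstrassCurve ℚ), (∃ A₂ A₄ : ℤ, W = ⟨0, A₂, 0, A₄, 0⟩) → W.Δ ≠ 0 →
    ∀ A : ValuationSubring (AlgebraicClosure ℚ), A.LiesOverPrime p →
      (Fermat.Agent.S05.IsGoodModel A W ∨ Fermat.Agent.S05.IsShortNodal A p W) →
      ∀ N : Submodule (ZMod p) (Tors W p), IsGaloisStable ℚ N → N ≠ ⊥ → N ≠ ⊤ →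
        (∀ σ ∈ A.inertiaSubgroupIn ℚ, ∀ x ∈ N, σ • x = x) ∨
          (∀ σ ∈ A.inertiaSubgroupIn ℚ, ∀ x : Tors W p, σ • x - x ∈ N)

end Fermat.Agent.S13
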