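import Fermat.Agent.S13.LadderDiv

/-!
# Interface of the ladder for the exact count `#E[n] = n²`

The four facts about `(Xₙ, Zₙ) = T_ladder E n` needed by the counting argument
(Wronskian + generic fibre): `Xₙ` monic of degree `n²`, `Zₙ` of degree `n² - 1` with leading
coefficient `n²`, `n • P = 0 ↔ Zₙ(x(P)) = 0`, and `x(nP) * Zₙ(x(P)) = Xₙ(x(P))`.
-/

set_option autoImplicit false

namespace Fermat.Agent.S13

open WeierstrassCurve WeierstrassCurve.Affine Polynomial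
open Fermat.Agent.S51

variable {F : Type*} [Field F] (E : Affine F)

theorem T_ladder_fst_monic (n : ℕ) (hn : 1 ≤ n) :
    (T_ladder E n).1.Monic ∧ (T_ladder E n).1.natDegree = n ^ 2 := by
  obtain ⟨d, hd, h1, -⟩ := T_ladder_top E n hn
  have hdeg : (T_ladder E n).1.natDegree = d + 1 := h1.natDegree_eq one_ne_zero
  refine ⟨?_, by rw [hdeg, hd]⟩
  rw [Monic, leadingCoeff, hdeg, h1.2]

theorem T_ladder_snd_leading [CharZero F] (n : ℕ) (hn : 1 ≤ n) :
    (T_ladder E n).2.natDegree = n ^ 2 - 1 ∧ (T_ladder E n).2.leadingCoeff = (n : F) ^ 2 := by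
  obtain ⟨d, hd, -, h2⟩ := T_ladder_top E n hn
  have hc : ((n : F) ^ 2) ≠ 0 := by
    apply pow_ne_zero
    exact_mod_cast (by omega : n ≠ 0)
  have hdeg : (T_ladder E n).2.natDegree = d := h2.natDegree_eq hc
  refine ⟨by rw [hdeg, ← hd]; rfl, ?_⟩
  rw [leadingCoeff, hdeg, h2.2]

variable [DecidableEq F]

theorem T_ladder_zero_iff (hΔ : E.Δ ≠ 0) (n : ℕ) (x y : F) (h : E.Nonsingular x y) :
    n • (Point.some x y h) = 0 ↔ (T_ladder E n).2.eval x = 0 :=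
  T_nsmul_eq_zero_iff E hΔ (Point.some_ne_zero h) n

theorem T_ladder_mul (hΔ : E.Δ ≠ 0) (n : ℕ) (x y : F) (h : E.Nonsingular x y) (x₂ y₂ : F)
    (h₂ : E.Nonsingular x₂ y₂) (hn : n • (Point.some x y h) = Point.some x₂ y₂ h₂) :
    x₂ * (T_ladder E n).2.eval x = (T_ladder E n).1.eval x := by
  rcases T_ladder_rep E hΔ (Point.some_ne_zero h) n with ⟨h0, -, -⟩ | ⟨-, -, hf⟩
  · rw [hn] at h0
    exact absurd h0 (Point.some_ne_zero h₂)
  · rw [hn] at hf
    exact hf.symm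

/-- Total form: if `n • P ≠ 0` then `x(nP) * Zₙ(x(P)) = Xₙ(x(P))` and `Zₙ(x(P)) ≠ 0`. -/
theorem T_ladder_x_nsmul (hΔ : E.Δ ≠ 0) {P : E.Point} (hP : P ≠ 0) (n : ℕ)
    (hn : n • P ≠ 0) :
    (T_ladder E n).2.eval (A_x P) ≠ 0 ∧
      A_x (n • P) * (T_ladder E n).2.eval (A_x P) = (T_ladder E n).1.eval (A_x P) := by
  rcases T_ladder_rep E hΔ hP n with ⟨h0, -, -⟩ | ⟨-, hg, hf⟩
  · exact absurd h0 hn
  · exact ⟨hg, hf.symm⟩

/-- The ladder polynomials never vanish simultaneously at the `x`-coordinate of a point. -/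
theorem T_ladder_coprime_at (hΔ : E.Δ ≠ 0) {P : E.Point} (hP : P ≠ 0) (n : ℕ) :
    (T_ladder E n).1.eval (A_x P) ≠ 0 ∨ (T_ladder E n).2.eval (A_x P) ≠ 0 := by
  rcases T_ladder_rep E hΔ hP n with ⟨-, -, hf⟩ | ⟨-, hg, -⟩
  · exact Or.inl hf
  · exact Or.inr hg

end Fermat.Agent.S13
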