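import Mathlib

/-!
# S13 assembly, part 1 (helper86): linear algebra on a two-dimensional `ZMod p`-module

`V` is a finite `ZMod p`-module with fewer than `p ^ 3` elements, `N` a proper nonzero submodule
(so `N` is a line and `V` a plane).
-/

set_option autoImplicit false

namespace Fermat.Agent.S13.Asm

open Module

variable {p : ℕ} [Fact p.Prime] {V : Type*} [AddCommGroup V] [Module (ZMod p) V] [Finite V]

/-- A finite `ZMod p`-module with fewer than `p ^ 3` elements has dimension at most `2`. -/
theorem finrank_le_two (hcard : Nat.card V < p ^ 3) : finrank (ZMod p) V ≤ 2 := by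
  let _ : Fintype V := Fintype.ofFinite V
  have h := Module.card_eq_pow_finrank (K := ZMod p) (V := V)
  rw [ZMod.card] at h
  rw [Nat.card_eq_fintype_card, h] at hcard
  have hp : 1 < p := (Fact.out : p.Prime).one_lt
  have := (Nat.pow_lt_pow_iff_right hp).1 hcard
  omega

/-- A proper nonzero submodule of such a module is a line, and the module is a plane. -/
theorem finrank_eq_of_proper (hcard : Nat.card V < p ^ 3) {N : Submodule (ZMod p) V}
    (h0 : N ≠ ⊥) (h1 : N ≠ ⊤) : finrank (ZMod p) N = 1 ∧ finrank (ZMod p) V = 2 := by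
  have hV := finrank_le_two (p := p) (V := V) hcard
  have hlt : finrank (ZMod p) N < finrank (ZMod p) V := Submodule.finrank_lt h1
  have hpos : 0 < finrank (ZMod p) N := by
    rw [Module.finrank_pos_iff_exists_ne_zero]
    obtain ⟨x, hx, hx0⟩ := (Submodule.ne_bot_iff N).1 h0
    exact ⟨⟨x, hx⟩, fun h => hx0 (congrArg Subtype.val h)⟩
  omega

/-- Two submodules of a plane, one a line contained in the other, which is proper, are equal. -/
theorem eq_of_le_of_ne_top (hcard : Nat.card V < p ^ 3) {N L : Submodule (ZMod p) V}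
    (h0 : N ≠ ⊥) (hNL : N ≤ L) (hL : L ≠ ⊤) : N = L := by
  have hN1 : N ≠ ⊤ := fun h => hL (top_le_iff.1 (h ▸ hNL))
  obtain ⟨hN, hV⟩ := finrank_eq_of_proper hcard h0 hN1
  have hlt : finrank (ZMod p) L < finrank (ZMod p) V := Submodule.finrank_lt hL
  apply Submodule.eq_of_le_of_finrank_le hNL
  omega

/-- **Unipotent endomorphisms.** If `T` is an additive endomorphism of the plane `V` with
`T ∘ T = 0` preserving the line `N`, then `T` kills `N` and maps `V` into `N`. -/
theorem unipotent_line (hcard : Nat.card V < p ^ 3) {N : Submodule (ZMod p) V}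
    (h0 : N ≠ ⊥) (h1 : N ≠ ⊤) (T : V →+ V) (hT : ∀ x, T (T x) = 0) (hN : ∀ x ∈ N, T x ∈ N) :
    (∀ x ∈ N, T x = 0) ∧ ∀ x, T x ∈ N := by
  obtain ⟨hN1, hV2⟩ := finrank_eq_of_proper hcard h0 h1
  set Tl : V →ₗ[ZMod p] V := T.toZModLinearMap p with hTl
  have hTl_apply : ∀ x, Tl x = T x := fun x => rfl
  -- `T` kills `N`
  have hkill : ∀ x ∈ N, T x = 0 := by
    obtain ⟨v, hv⟩ := finrank_eq_one_iff'.1 hN1
    obtain ⟨hv0, hvspan⟩ := hv
    -- `T v = c • v`
    obtain ⟨c, hc⟩ := hvspan ⟨T v.1, hN v.1 v.2⟩
    have hc' : c • (v : V) = T v.1 := by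
      have := congrArg Subtype.val hc
      simpa using this
    have hcc : (c * c) • (v : V) = 0 := by
      have h2 : T (T v.1) = 0 := hT _
      rw [← hc', ← hTl_apply, map_smul, hTl_apply, ← hc', smul_smul] at h2
      exact h2
    have hv0' : (v : V) ≠ 0 := fun h => hv0 (Subtype.ext h)
    have hc0 : c = 0 := by
      rcases smul_eq_zero.1 hcc with h | h
      · exact mul_self_eq_zero.1 h
      · exact absurd h hv0'
    have hTv : T v.1 = 0 := by rw [← hc', hc0, zero_smul]
    intro x hx
    obtain ⟨d, hd⟩ := hvspan ⟨x, hx⟩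
    have hd' : d • (v : V) = x := by
      have := congrArg Subtype.val hd
      simpa using this
    rw [← hd', ← hTl_apply, map_smul, hTl_apply, hTv, smul_zero]
  refine ⟨hkill, ?_⟩
  -- `N ≤ ker T`
  have hle : N ≤ LinearMap.ker Tl := fun x hx => by
    rw [LinearMap.mem_ker, hTl_apply]; exact hkill x hx
  by_cases hker : LinearMap.ker Tl = ⊤
  · intro x
    have : x ∈ LinearMap.ker Tl := by rw [hker]; trivial
    rw [LinearMap.mem_ker, hTl_apply] at this
    rw [this]; exact zero_mem N
  · have hEq : N = LinearMap.ker Tl := eq_of_le_of_ne_top hcard h0 hle hker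
    intro x
    rw [hEq, LinearMap.mem_ker, hTl_apply]
    exact hT x

end Fermat.Agent.S13.Asm
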