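import Fermat.Agent.S13.Skeleton
import Fermat.Agent.S13.AsmLinAlg

/-!
# S13 assembly, part 2 (helper86): the two normal subgroups attached to a stable line

For a Galois-stable submodule `N` of `E[p]`:
* `fixSub N` : the `σ` fixing `N` pointwise,
* `cofixSub N` : the `σ` with `(σ - 1) E[p] ⊆ N`.
Both are normal subgroups containing the pointwise stabiliser of a finite set of algebraic
numbers (the coordinates of the points of `E[p]`).
-/

set_option autoImplicit false

namespace Fermat.Agent.S13.Asm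

open WeierstrassCurve WeierstrassCurve.Affine.Point
open scoped WeierstrassCurve.Affine

local notation "Qbar" => AlgebraicClosure ℚ

variable {W : WeierstrassCurve ℚ} {p : ℕ}

lemma coe_smul_tors (σ : Qbar ≃ₐ[ℚ] Qbar) (x : Tors W p) :
    ((σ • x : Tors W p) : (W⁄Qbar).Point) = σ • (x : (W⁄Qbar).Point) := rfl

/-- The subgroup of `σ` fixing `N` pointwise. -/
def fixSub (N : Submodule (ZMod p) (Tors W p)) : Subgroup (Qbar ≃ₐ[ℚ] Qbar) where
  carrier := {σ | ∀ x ∈ N, σ • x = x}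
  one_mem' := fun x _ => one_smul _ x
  mul_mem' := fun {σ τ} hσ hτ x hx => by
    rw [mul_smul, hτ x hx, hσ x hx]
  inv_mem' := fun {σ} hσ x hx => by
    have := hσ x hx
    calc σ⁻¹ • x = σ⁻¹ • (σ • x) := by rw [this]
      _ = x := inv_smul_smul σ x

/-- The subgroup of `σ` acting trivially on `E[p] / N`. -/
def cofixSub (N : Submodule (ZMod p) (Tors W p)) : Subgroup (Qbar ≃ₐ[ℚ] Qbar) where
  carrier := {σ | ∀ x : Tors W p, σ • x - x ∈ N}
  one_mem' := fun x => by
    have e : (1 : AlgebraicClosure ℚ ≃ₐ[ℚ] AlgebraicClosure ℚ) • x - x = 0 := by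
      rw [one_smul, sub_self]
    rw [e]
    exact N.zero_mem
  mul_mem' := fun {σ τ} hσ hτ x => by
    have e : (σ * τ) • x - x = (σ • (τ • x) - τ • x) + (τ • x - x) := by
      rw [mul_smul]; abel
    rw [e]
    exact N.add_mem (hσ (τ • x)) (hτ x)
  inv_mem' := fun {σ} hσ x => by
    have e : σ⁻¹ • x - x = -(σ • (σ⁻¹ • x) - σ⁻¹ • x) := by
      rw [smul_inv_smul]; abel
    rw [e]
    exact N.neg_mem (hσ (σ⁻¹ • x))

lemma mem_fixSub {N : Submodule (ZMod p) (Tors W p)} {σ : Qbar ≃ₐ[ℚ] Qbar} :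
    σ ∈ fixSub N ↔ ∀ x ∈ N, σ • x = x := Iff.rfl

lemma mem_cofixSub {N : Submodule (ZMod p) (Tors W p)} {σ : Qbar ≃ₐ[ℚ] Qbar} :
    σ ∈ cofixSub N ↔ ∀ x : Tors W p, σ • x - x ∈ N := Iff.rfl

theorem fixSub_normal {N : Submodule (ZMod p) (Tors W p)} (hN : IsGaloisStable ℚ N) :
    (fixSub N).Normal := by
  constructor
  intro σ hσ τ x hx
  have h1 : τ⁻¹ • x ∈ N := hN τ⁻¹ x hx
  rw [mul_smul, mul_smul, hσ _ h1, smul_inv_smul]

theorem cofixSub_normal {N : Submodule (ZMod p) (Tors W p)} (hN : IsGaloisStable ℚ N) :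
    (cofixSub N).Normal := by
  constructor
  intro σ hσ τ x
  have e : (τ * σ * τ⁻¹) • x - x = τ • (σ • (τ⁻¹ • x) - τ⁻¹ • x) := by
    rw [mul_smul, mul_smul, smul_sub, smul_inv_smul]
  rw [e]
  exact hN τ _ (hσ (τ⁻¹ • x))

/-- The coordinates of a point. -/
noncomputable def coordsOf : (W⁄Qbar).Point → Finset Qbar
  | .zero => ∅
  | .some x y _ => {x, y}

lemma smul_eq_of_coords (σ : Qbar ≃ₐ[ℚ] Qbar) (P : (W⁄Qbar).Point)
    (h : ∀ s ∈ coordsOf P, σ s = s) : σ • P = P := by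
  rcases P with _ | ⟨x, y, hxy⟩
  · rfl
  · have hx : σ x = x := h x (by simp [coordsOf])
    have hy : σ y = y := h y (by simp [coordsOf])
    have hsmul : σ • (Affine.Point.some x y hxy : (W⁄Qbar).Point) =
        Affine.Point.map (W' := W) σ.toAlgHom (Affine.Point.some x y hxy) := rfl
    rw [hsmul, Affine.Point.map_some]
    have hx' : (σ.toAlgHom : Qbar →ₐ[ℚ] Qbar) x = x := hx
    have hy' : (σ.toAlgHom : Qbar →ₐ[ℚ] Qbar) y = y := hy
    simp only [hx', hy']

/-- Openness witness: a finite set of algebraic numbers whose pointwise stabiliser acts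
trivially on `E[p]`. -/
theorem exists_finset_fix [Finite (Tors W p)] :
    ∃ S : Finset Qbar, ∀ σ : Qbar ≃ₐ[ℚ] Qbar, (∀ s ∈ S, σ s = s) →
      ∀ x : Tors W p, σ • x = x := by
  classical
  let _ : Fintype (Tors W p) := Fintype.ofFinite _
  refine ⟨Finset.univ.biUnion (fun x : Tors W p => coordsOf (x : (W⁄Qbar).Point)), ?_⟩
  intro σ hσ x
  apply Subtype.ext
  rw [coe_smul_tors]
  apply smul_eq_of_coords
  intro s hs
  exact hσ s (Finset.mem_biUnion.2 ⟨x, Finset.mem_univ _, hs⟩)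

end Fermat.Agent.S13.Asm
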