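import Fermat.Agent.S13.LadderValid
import Fermat.Agent.S51.AGalois

/-!
# Torsion points of elliptic curves for all `n`

Over an algebraically closed field of characteristic zero, an elliptic curve has a nonzero
`n`-torsion point for every `n ≥ 2`, and at most `2 n² - 1 < n³` points of `n`-torsion.
Consequently a proper nonzero Galois-stable submodule of `E[p]` is a line.
-/

set_option autoImplicit false

namespace Fermat.Agent.S13

open WeierstrassCurve WeierstrassCurve.Affine Polynomial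
open Fermat.Agent.S51

section Generic

variable {F : Type*} [Field F] [DecidableEq F] (E : Affine F)

/-- A nonzero point `P` satisfies `n • P = 0` iff `Gₙ(x(P)) = 0`. -/
theorem T_nsmul_eq_zero_iff (hΔ : E.Δ ≠ 0) {P : E.Point} (hP : P ≠ 0) (n : ℕ) :
    n • P = 0 ↔ (T_ladder E n).2.eval (A_x P) = 0 := by
  rcases T_ladder_rep E hΔ hP n with ⟨h0, hg, -⟩ | ⟨h0, hg, -⟩
  · exact ⟨fun _ => hg, fun _ => h0⟩
  · exact ⟨fun h => absurd h h0, fun h => absurd h hg⟩

/-- **Finiteness of torsion**: `E[n]` has at most `2 n² - 1` elements. -/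
theorem T_card_torsion [CharZero F] (hΔ : E.Δ ≠ 0) (n : ℕ) (hn : 1 ≤ n) :
    Finite (Submodule.torsionBy ℤ E.Point n) ∧
      Nat.card (Submodule.torsionBy ℤ E.Point n) + 1 ≤ 2 * n ^ 2 := by
  obtain ⟨hne, hdeg⟩ := T_ladder_snd_natDegree E n hn
  have h := A_card_torsion_le E n (T_ladder E n).2.roots.toFinset (fun P hP hnP => by
    rw [Multiset.mem_toFinset, mem_roots hne, IsRoot.def]
    apply (T_nsmul_eq_zero_iff E hΔ hP n).mp
    rw [← natCast_zsmul]
    exact hnP)
  refine ⟨h.1, ?_⟩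
  have hc : (T_ladder E n).2.roots.toFinset.card ≤ (T_ladder E n).2.natDegree :=
    le_trans (Multiset.toFinset_card_le _) (card_roots' _)
  have := h.2
  omega

/-- `E[n]` has fewer than `n³` elements for `n ≥ 2`. -/
theorem T_card_torsion_lt [CharZero F] (hΔ : E.Δ ≠ 0) (n : ℕ) (hn : 2 ≤ n) :
    Finite (Submodule.torsionBy ℤ E.Point n) ∧
      Nat.card (Submodule.torsionBy ℤ E.Point n) < n ^ 3 := by
  obtain ⟨hfin, hcard⟩ := T_card_torsion E hΔ n (by omega)
  refine ⟨hfin, ?_⟩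
  have h3 : 2 * n ^ 2 ≤ n ^ 3 := by
    have : n ^ 3 = n * n ^ 2 := by ring
    rw [this]
    exact Nat.mul_le_mul_right _ hn
  omega

/-- **Existence of torsion**: over an algebraically closed field of characteristic zero there
is a nonzero `n`-torsion point for every `n ≥ 2`. -/
theorem T_exists_torsion [CharZero F] [IsAlgClosed F] (hΔ : E.Δ ≠ 0) (n : ℕ) (hn : 2 ≤ n) :
    ∃ P : E.Point, P ≠ 0 ∧ n • P = 0 := by
  obtain ⟨hne, hdeg⟩ := T_ladder_snd_natDegree E n (by omega)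
  obtain ⟨x, hx⟩ := IsAlgClosed.exists_root (T_ladder E n).2 (by
    intro h0
    have := natDegree_eq_of_degree_eq_some (n := 0) h0
    rw [this] at hdeg
    have : 4 ≤ n ^ 2 := by nlinarith
    omega)
  obtain ⟨P, hP, hPx⟩ := A_exists_point E hΔ x
  refine ⟨P, hP, (T_nsmul_eq_zero_iff E hΔ hP n).mpr ?_⟩
  rw [hPx]
  exact hx

end Generic

section Galois

variable (W : WeierstrassCurve ℚ)

/-- If the mod-`p` representation of `W` is reducible, there is a nonzero `p`-torsion point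
spanning a Galois-stable line. -/
theorem T_exists_stable_line (hΔ : W.Δ ≠ 0) (p : ℕ) [Fact p.Prime]
    (h : ¬ WeierstrassCurve.Affine.Point.GaloisRepIsIrreducible (K := AlgebraicClosure ℚ) ℚ W p) :
    ∃ P : (W⁄(AlgebraicClosure ℚ)).Point, P ≠ 0 ∧ p • P = 0 ∧
      ∀ σ : AlgebraicClosure ℚ ≃ₐ[ℚ] AlgebraicClosure ℚ, ∃ k : ℕ, σ • P = k • P := by
  have hΔ' : (W⁄(AlgebraicClosure ℚ)).Δ ≠ 0 := A_baseChange_Δ_ne_zero W hΔ
  have hp2 : 2 ≤ p := (Fact.out : p.Prime).two_le
  obtain ⟨hfin, hcard⟩ := T_card_torsion_lt (W⁄(AlgebraicClosure ℚ)) hΔ' p hp2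
  exact A_exists_stable_line W p (T_exists_torsion (W⁄(AlgebraicClosure ℚ)) hΔ' p hp2) hfin
    hcard h

/-- The mod-`p` torsion module of an elliptic curve over `ℚ` is nontrivial. -/
theorem T_nontrivial_torsion (hΔ : W.Δ ≠ 0) (p : ℕ) (hp : 2 ≤ p) :
    Nontrivial (Submodule.torsionBy ℤ (W⁄(AlgebraicClosure ℚ)).Point p) := by
  obtain ⟨P, hP, hpP⟩ := T_exists_torsion (W⁄(AlgebraicClosure ℚ))
    (A_baseChange_Δ_ne_zero W hΔ) p hp
  refine ⟨⟨⟨P, ?_⟩, 0, ?_⟩⟩
  · rw [Submodule.mem_torsionBy_iff, natCast_zsmul]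
    exact hpP
  · intro h
    exact hP (congrArg Subtype.val h)

end Galois

end Fermat.Agent.S13
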