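import Fermat.Agent.S13.L2Inertia
import Fermat.Agent.S05.H97Roots
import Fermat.Agent.S05.RealOrdExists

/-!
# S13 module L2, part 3 (helper76): the Frey curve at the prime 2

The Frey model `y² + xy = x³ + a₂x² + a₄x` is integral and nodal at `2`; hence inertia at `2`
acts unipotently on `E[p]` (`frey_inertia_two_unipotent`).
-/

set_option autoImplicit false
set_option linter.unusedSectionVars false

namespace Fermat.Agent.S13.L2

open WeierstrassCurve Fermat.Agent.S05 Fermat.Agent.S05.H76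
open scoped WeierstrassCurve.Affine

local notation "Qbar" => AlgebraicClosure ℚ

section Arith

variable (P : FreyPackage)

theorem frey_two_dvd_b : (2 : ℤ) ∣ P.b := (ZMod.intCast_zmod_eq_zero_iff_dvd P.b 2).1 P.hb2

theorem frey_a_modEq : P.a ≡ -1 [ZMOD 4] := by
  have h : ((P.a : ℤ) : ZMod 4) = ((-1 : ℤ) : ZMod 4) := by
    rw [P.ha4]; decide
  exact (ZMod.intCast_eq_intCast_iff P.a (-1) 4).mp h

theorem frey_not_two_dvd_a : ¬ (2 : ℤ) ∣ P.a := by
  intro h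
  have h1 := frey_a_modEq P
  have h2 : (P.a : ℤ) % 4 = 3 := by
    have := h1
    unfold Int.ModEq at this
    omega
  omega

theorem frey_apow_modEq : P.a ^ P.p ≡ -1 [ZMOD 4] := by
  have h := (frey_a_modEq P).pow P.p
  rwa [P.hp_odd.neg_one_pow] at h

/-- `32 ∣ b ^ p`. -/
theorem frey_bpow_dvd : (32 : ℤ) ∣ P.b ^ P.p := by
  obtain ⟨b', hb'⟩ := frey_two_dvd_b P
  rw [hb', mul_pow]
  have h5 : P.p = 5 + (P.p - 5) := by have := P.hp5; omega
  rw [h5, pow_add]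
  exact Dvd.dvd.mul_right (Dvd.dvd.mul_right (by norm_num) _) _

/-- `a₂` of the Frey curve is an integer. -/
theorem frey_a₂_int : ∃ n : ℤ, P.freyCurve.a₂ = (n : ℚ) ∧ 1 + 4 * n = P.b ^ P.p - P.a ^ P.p := by
  have h4 : (4 : ℤ) ∣ P.b ^ P.p - 1 - P.a ^ P.p := by
    have h1 := frey_apow_modEq P
    have h2 : (4 : ℤ) ∣ P.b ^ P.p := Dvd.dvd.trans (by norm_num) (frey_bpow_dvd P)
    have h3 : (4 : ℤ) ∣ P.a ^ P.p - (-1) := (Int.modEq_iff_dvd.mp h1.symm)
    have : P.b ^ P.p - 1 - P.a ^ P.p = P.b ^ P.p - (P.a ^ P.p - (-1)) := by ring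
    rw [this]
    exact dvd_sub h2 h3
  obtain ⟨n, hn⟩ := h4
  refine ⟨n, ?_, by linarith⟩
  simp only [FreyPackage.freyCurve]
  have : ((P.b : ℚ) ^ P.p - 1 - (P.a : ℚ) ^ P.p) = 4 * (n : ℚ) := by exact_mod_cast hn
  rw [this]; ring

/-- `a₄` of the Frey curve is an even nonzero integer. -/
theorem frey_a₄_int : ∃ n : ℤ, P.freyCurve.a₄ = (n : ℚ) ∧ (2 : ℤ) ∣ n ∧ n ≠ 0 ∧
    16 * n = -(P.a ^ P.p * P.b ^ P.p) := by
  obtain ⟨c, hc⟩ := frey_bpow_dvd P
  refine ⟨-(P.a ^ P.p * (2 * c)), ?_, ?_, ?_, ?_⟩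
  · simp only [FreyPackage.freyCurve]
    have : ((P.b : ℚ) ^ P.p) = 32 * (c : ℚ) := by exact_mod_cast hc
    rw [this]; push_cast; ring
  · exact Dvd.dvd.neg_right (Dvd.dvd.mul_left (dvd_mul_right 2 c) _)
  · have hc0 : c ≠ 0 := by
      rintro rfl
      rw [mul_zero] at hc
      exact pow_ne_zero _ P.hb0 hc
    exact neg_ne_zero.mpr (mul_ne_zero (pow_ne_zero _ P.ha0) (mul_ne_zero two_ne_zero hc0))
  · rw [hc]; ring

end Arith

section Valuation

/-- Inertia elements preserve the valuation (on `Qbar`, for `A` over a prime). -/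
theorem inertia_valuation_eq (A : ValuationSubring Qbar) {q : ℕ} (hq : q.Prime)
    (hA : A.LiesOverPrime q) {σ : Qbar ≃ₐ[ℚ] Qbar} (hσ : σ ∈ A.inertiaSubgroupIn ℚ)
    (z : Qbar) : A.valuation (σ z) = A.valuation z := by
  have hAq : ((q : ℕ) : Qbar) ∈ A.nonunits := hA
  obtain ⟨ord, h⟩ := @RO.exists_isOrd Qbar _ A _ RO.isAlgebraic_int_Qbar q hq hAq
  have hσ' : ∀ z : Qbar, σ z ∈ A ↔ z ∈ A := by
    intro z
    constructor
    · intro hz
      have hinv : σ⁻¹ ∈ A.inertiaSubgroupIn ℚ := inv_mem hσ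
      have := (H86.inertia_apply_mem A hinv hz).1
      simpa using this
    · intro hz
      exact (H86.inertia_apply_mem A hσ hz).1
  exact h.valuation_ringEquiv σ.toRingEquiv hσ' z

end Valuation

section Two

variable (P : FreyPackage) (A : ValuationSubring Qbar)

theorem frey_baseChange_a₁ : (P.freyCurve⁄Qbar).a₁ = 1 := by
  simp [WeierstrassCurve.baseChange, FreyPackage.freyCurve]

theorem frey_baseChange_a₃ : (P.freyCurve⁄Qbar).a₃ = 0 := by
  simp [WeierstrassCurve.baseChange, FreyPackage.freyCurve]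

theorem frey_baseChange_a₆ : (P.freyCurve⁄Qbar).a₆ = 0 := by
  simp [WeierstrassCurve.baseChange, FreyPackage.freyCurve]

theorem frey_baseChange_a₂ {n : ℤ} (hn : P.freyCurve.a₂ = (n : ℚ)) :
    (P.freyCurve⁄Qbar).a₂ = (n : Qbar) := by
  have h : (P.freyCurve⁄Qbar).a₂ = algebraMap ℚ Qbar P.freyCurve.a₂ := by
    simp [WeierstrassCurve.baseChange]
  rw [h, hn]; simp

theorem frey_baseChange_a₄ {n : ℤ} (hn : P.freyCurve.a₄ = (n : ℚ)) :
    (P.freyCurve⁄Qbar).a₄ = (n : Qbar) := by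
  have h : (P.freyCurve⁄Qbar).a₄ = algebraMap ℚ Qbar P.freyCurve.a₄ := by
    simp [WeierstrassCurve.baseChange]
  rw [h, hn]; simp

/-- The Frey model is nodal at `2`. -/
theorem frey_nodalVal_two (hA : A.LiesOverPrime 2) :
    ∃ r₁ r₂ : Qbar, NodalVal A.valuation (P.freyCurve⁄Qbar) r₁ r₂ := by
  have hA2 : ((2 : ℕ) : Qbar) ∈ A.nonunits := hA
  obtain ⟨n₂, hn₂, hb₂⟩ := frey_a₂_int P
  obtain ⟨n₄, hn₄, h2n₄, hn₄0, -⟩ := frey_a₄_int P
  have e₁ := frey_baseChange_a₁ P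
  have e₂ := frey_baseChange_a₂ P hn₂
  have e₃ := frey_baseChange_a₃ P
  have e₄ := frey_baseChange_a₄ P hn₄
  have e₆ := frey_baseChange_a₆ P
  have hunit : A.valuation ((1 : Qbar) ^ 2 + 4 * (n₂ : Qbar)) = 1 := by
    have h1 : (1 : Qbar) ^ 2 + 4 * (n₂ : Qbar) = ((P.b ^ P.p - P.a ^ P.p : ℤ) : Qbar) := by
      rw [← hb₂]; push_cast; ring
    rw [h1]
    apply intCast_isUnitOf_of_not_dvd Nat.prime_two hA2
    intro h
    have h2b : (2 : ℤ) ∣ P.b ^ P.p := dvd_pow (frey_two_dvd_b P) P.hp0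
    have h2a : (2 : ℤ) ∣ P.a ^ P.p := by
      have h3 := dvd_sub h2b (by exact_mod_cast h : (2 : ℤ) ∣ P.b ^ P.p - P.a ^ P.p)
      simpa using h3
    exact frey_not_two_dvd_a P (Int.prime_two.dvd_of_dvd_pow h2a)
  obtain ⟨r₁, r₂, hr₁, hr₂, ha₁, ha₂, hr⟩ :=
    H97.exists_nodal_roots A 1 (n₂ : Qbar) (one_mem A) (S05.intCast_mem A n₂) hunit
  refine ⟨r₁, r₂, ⟨⟨by rw [e₁, ha₁], by rw [e₂, ha₂], e₃, e₆⟩,
    (A.valuation_le_one_iff _).mpr hr₁, (A.valuation_le_one_iff _).mpr hr₂, hr, ?_, ?_⟩⟩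
  · rw [e₄]
    exact A.mem_nonunits_iff.mp
      (intCast_nonunit_of_dvd hA2 (by exact_mod_cast h2n₄))
  · rw [e₄]
    exact_mod_cast hn₄0

/-- `p` is a unit at `2`. -/
theorem frey_p_unit_two (hA : A.LiesOverPrime 2) : ((P.p : ℕ) : Qbar) ∉ A.nonunits := by
  have hA2 : ((2 : ℕ) : Qbar) ∈ A.nonunits := hA
  have hne : (2 : ℕ) ≠ P.p := by have := P.hp5; omega
  exact (prime_isUnitOf Nat.prime_two hA2 P.pp hne).not_nonunit A

/-- **(M2)** Inertia at `2` acts unipotently on the `p`-torsion of the Frey curve. -/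
theorem frey_inertia_two_unipotent (hA : A.LiesOverPrime 2) {σ : Qbar ≃ₐ[ℚ] Qbar}
    (hσ : σ ∈ A.inertiaSubgroupIn ℚ) (Q : (P.freyCurve⁄Qbar).Point)
    (hQ : (P.p : ℤ) • Q = 0) : σ • (σ • Q - Q) = σ • Q - Q := by
  obtain ⟨r₁, r₂, hV⟩ := frey_nodalVal_two P A hA
  have hσv := inertia_valuation_eq A Nat.prime_two hA hσ
  have hQ' : P.p • Q = 0 := by rwa [natCast_zsmul] at hQ
  exact inertia_unipotent P.freyCurve A hV hσ hσv (frey_p_unit_two P A hA) Q hQ'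

end Two

end Fermat.Agent.S13.L2
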