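import Fermat.Agent.S05.H4Nodal
import Fermat.Agent.S05.Kernel
import Fermat.Agent.S05.H76Comp

/-!
# S13, module (M3α): inertia acts trivially modulo the kernel of reduction (helper4)

Let `A` be a valuation subring of `K` (with `Algebra ℚ K`), `σ` in the inertia group of `A`, and
`W` a Weierstrass curve over `ℚ`.  We prove that `σ P - P` lies in the kernel of reduction
`E₁ = {O} ∪ {x ∉ A}`

* for every point `P`, if `W` is a good model at `A` (`h4_inertia_sub_inE1_of_good`);
* for every point `P` killed by an odd `n`, if `W` is a short nodal model at `A` with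
  `a₄ = u π ^ n` (`h4_inertia_sub_inE1_of_nodal`).

No hypothesis on the residue characteristic is made (apart from `2` being a unit in the nodal
case); in particular the results apply at the prime `p` itself.
-/

set_option autoImplicit false
set_option linter.unusedSectionVars false

namespace Fermat.Agent.S13

open WeierstrassCurve Fermat.Agent.S05

open scoped WeierstrassCurve.Affine

section Core

variable {K : Type*} [Field K] [DecidableEq K] [Algebra ℚ K]

/-- The inertia group preserves the complement of `A`. -/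
theorem h4_inertia_not_mem (A : ValuationSubring K) {σ : K ≃ₐ[ℚ] K}
    (hσ : σ ∈ A.inertiaSubgroupIn ℚ) {x : K} (hx : x ∉ A) : σ x ∉ A := by
  intro h
  have hσ' : σ⁻¹ ∈ A.inertiaSubgroupIn ℚ := Subgroup.inv_mem _ hσ
  have := (H86.inertia_apply_mem A hσ' h).1
  apply hx
  have e : σ⁻¹ (σ x) = x := by
    change σ.symm (σ x) = x
    exact σ.symm_apply_apply x
  rwa [e] at this

/-- The Galois action on an affine point. -/
theorem h4_smul_some (W' : WeierstrassCurve ℚ) (σ : K ≃ₐ[ℚ] K) {x y : K}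
    (h : (W'⁄K).Nonsingular x y) :
    ∃ hσ : (W'⁄K).Nonsingular (σ x) (σ y),
      σ • (Affine.Point.some x y h : (W'⁄K).Point) = Affine.Point.some (σ x) (σ y) hσ := by
  have hnsσ : (W'⁄K).Nonsingular (σ x) (σ y) := by
    have := (Affine.baseChange_nonsingular (W := W') σ.toAlgHom.injective x y).2 h
    simpa using this
  refine ⟨hnsσ, ?_⟩
  have hsmul : σ • (Affine.Point.some x y h : (W'⁄K).Point) =
      Affine.Point.map (W' := W') σ.toAlgHom (Affine.Point.some x y h) := rfl
  have hmap := Affine.Point.map_some (W' := W') (f := σ.toAlgHom) h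
  rw [hsmul, hmap]; rfl

/-- If both `P` and `σ P` are outside the integral locus, their difference is in `E₁`. -/
theorem h4_sub_inE1_of_not_mem (W' : WeierstrassCurve ℚ) (A : ValuationSubring K)
    (ha₁ : (W'⁄K).a₁ ∈ A) (ha₂ : (W'⁄K).a₂ ∈ A) (ha₃ : (W'⁄K).a₃ ∈ A) (ha₄ : (W'⁄K).a₄ ∈ A)
    (ha₆ : (W'⁄K).a₆ ∈ A) {σ : K ≃ₐ[ℚ] K} (hσ : σ ∈ A.inertiaSubgroupIn ℚ) {x y : K}
    (h : (W'⁄K).Nonsingular x y) (hx : x ∉ A) :
    InE1 A (σ • (Affine.Point.some x y h : (W'⁄K).Point) - Affine.Point.some x y h) := by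
  obtain ⟨hnsσ, hsm⟩ := h4_smul_some W' σ h
  rw [hsm]
  exact inE1_sub A ha₁ ha₂ ha₃ ha₄ ha₆ ((inE1_some A hnsσ).2 (h4_inertia_not_mem A hσ hx))
    ((inE1_some A h).2 hx)

/-- **(M3α), good reduction.**  If `W` has integral coefficients and unit discriminant at `A`,
then `σ P - P` is in the kernel of reduction for every point `P` and every `σ` in the inertia
group. -/
theorem h4_inertia_sub_inE1_of_good_core (W' : WeierstrassCurve ℚ) (A : ValuationSubring K)
    (ha₁ : (W'⁄K).a₁ ∈ A) (ha₂ : (W'⁄K).a₂ ∈ A) (ha₃ : (W'⁄K).a₃ ∈ A) (ha₄ : (W'⁄K).a₄ ∈ A)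
    (ha₆ : (W'⁄K).a₆ ∈ A) (hΔ : (W'⁄K).Δ ∉ A.nonunits)
    {σ : K ≃ₐ[ℚ] K} (hσ : σ ∈ A.inertiaSubgroupIn ℚ) (P : (W'⁄K).Point) :
    InE1 A (σ • P - P) := by
  rcases P with _ | ⟨x, y, h⟩
  · have : σ • (0 : (W'⁄K).Point) - 0 = 0 := by
      rw [smul_zero (A := (W'⁄K).Point) σ, sub_zero]
    exact Or.inl this
  · by_cases hx : x ∈ A
    · have hy : y ∈ A := H86.y_mem_of_x_mem ha₁ ha₂ ha₃ ha₄ ha₆ h.1 hx
      obtain ⟨hσx, hσx'⟩ := H86.inertia_apply_mem A hσ hx
      obtain ⟨hσy, hσy'⟩ := H86.inertia_apply_mem A hσ hy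
      obtain ⟨hnsσ, hsm⟩ := h4_smul_some W' σ h
      have hns := H86.partials_not_both_nonunits (A := A) (W := W'⁄K) ha₁ ha₂ hΔ h.1 hx
      have hxm : x - σ x ∈ A.nonunits := by
        have := neg_mem hσx'
        simpa using this
      have hym : y - σ y ∈ A.nonunits := by
        have := neg_mem hσy'
        simpa using this
      have hIII := H86.sub_inE1_of_same_reduction (A := A) (W := W'⁄K) ha₁ ha₂ ha₃ ha₄ h hnsσ
        hx hy hσx hσy hxm hym hns
      rw [hsm]
      have hI : InE1 A (Affine.Point.some x y h - Affine.Point.some (σ x) (σ y) hnsσ :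
          (W'⁄K).Point) := hIII
      have := inE1_neg A hI
      rwa [neg_sub] at this
    · exact h4_sub_inE1_of_not_mem W' A ha₁ ha₂ ha₃ ha₄ ha₆ hσ h hx

/-- **(M3α), multiplicative reduction.**  On a short nodal model `y² = x³ + a₂x² + a₄x` (`a₂` and
`2` units, `a₄` a non-unit of `A`), if the `n`-torsion points reducing to the node have
`x`-coordinates of rational valuation strictly inside the annulus (part (IV-cor) of S05), then
`σ P - P` is in the kernel of reduction for every point `P` killed by `n` and every `σ` in the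
inertia group. -/
theorem h4_inertia_sub_inE1_of_nodal_core (W' : WeierstrassCurve ℚ) (A : ValuationSubring K)
    (h₁ : W'.a₁ = 0) (h₃ : W'.a₃ = 0) (h₆ : W'.a₆ = 0)
    (ha₂ : A.valuation (algebraMap ℚ K W'.a₂) = 1)
    (ha₄ : algebraMap ℚ K W'.a₄ ∈ A.nonunits) (h2 : A.valuation (2 : K) = 1)
    (π₀ : ℚ) (n : ℕ)
    (hIV : h4_NodeTorsionValuation A (W'⁄K) (algebraMap ℚ K π₀) n)
    {σ : K ≃ₐ[ℚ] K} (hσ : σ ∈ A.inertiaSubgroupIn ℚ) (P : (W'⁄K).Point) (hP : n • P = 0) :
    InE1 A (σ • P - P) := by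
  -- coefficients of the base change
  have e₁ : (W'.baseChange K).a₁ = 0 := by
    simp [WeierstrassCurve.baseChange, h₁]
  have e₂ : (W'.baseChange K).a₂ = algebraMap ℚ K W'.a₂ := by
    simp [WeierstrassCurve.baseChange]
  have e₃ : (W'.baseChange K).a₃ = 0 := by
    simp [WeierstrassCurve.baseChange, h₃]
  have e₄ : (W'.baseChange K).a₄ = algebraMap ℚ K W'.a₄ := by
    simp [WeierstrassCurve.baseChange]
  have e₆ : (W'.baseChange K).a₆ = 0 := by
    simp [WeierstrassCurve.baseChange, h₆]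
  have hA₁ : (W'⁄K).a₁ ∈ A := by rw [e₁]; exact A.zero_mem
  have hA₂ : (W'⁄K).a₂ ∈ A := by rw [e₂]; exact (A.valuation_le_one_iff _).mp ha₂.le
  have hA₃ : (W'⁄K).a₃ ∈ A := by rw [e₃]; exact A.zero_mem
  have hA₄ : (W'⁄K).a₄ ∈ A := by rw [e₄]; exact A.nonunits_le ha₄
  have hA₆ : (W'⁄K).a₆ ∈ A := by rw [e₆]; exact A.zero_mem
  rcases P with _ | ⟨x, y, h⟩
  · have : σ • (0 : (W'⁄K).Point) - 0 = 0 := by
      rw [smul_zero (A := (W'⁄K).Point) σ, sub_zero]
    exact Or.inl this
  · by_cases hx : x ∈ A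
    · have hy : y ∈ A := H86.y_mem_of_x_mem hA₁ hA₂ hA₃ hA₄ hA₆ h.1 hx
      obtain ⟨hσx, hσx'⟩ := H86.inertia_apply_mem A hσ hx
      obtain ⟨hσy, hσy'⟩ := H86.inertia_apply_mem A hσ hy
      obtain ⟨hnsσ, hsm⟩ := h4_smul_some W' σ h
      rw [hsm]
      -- it suffices to show that `σ P = P` or `σ P - P` is an affine point with `x ∉ A`
      suffices H : Affine.Point.some (σ x) (σ y) hnsσ = Affine.Point.some x y h ∨
          ∃ (x₃ y₃ : K) (h₃' : (W'⁄K).Nonsingular x₃ y₃),
            Affine.Point.some (σ x) (σ y) hnsσ - Affine.Point.some x y h =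
              Affine.Point.some x₃ y₃ h₃' ∧ x₃ ∉ A by
        rcases H with H | H
        · exact Or.inl (sub_eq_zero.2 H)
        · exact Or.inr H
      by_cases hxm : x ∈ A.nonunits
      · -- `P` reduces to the node: use (IV-cor) and the refined reduction (V)
        obtain ⟨hx0, hwx, j, hj⟩ := hIV x y h hP hxm
        have hπ0 : algebraMap ℚ K π₀ ≠ 0 := by
          intro h0
          rw [h0, map_zero] at hj
          rcases eq_or_ne j 0 with rfl | hj0
          · rw [zpow_zero] at hj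
            rw [A.mem_nonunits_iff, hj] at hxm
            exact lt_irrefl _ hxm
          · rw [zero_zpow j hj0] at hj
            exact hx0 ((Valuation.zero_iff _).mp hj)
        have hc0 : (algebraMap ℚ K π₀) ^ j ≠ 0 := zpow_ne_zero j hπ0
        have hb₂ : A.valuation (W'.baseChange K).b₂ = 1 := by
          have : (W'.baseChange K).b₂ = 2 ^ 2 * algebraMap ℚ K W'.a₂ := by
            simp only [WeierstrassCurve.b₂, e₁, e₂]; ring
          rw [this, map_mul, map_pow, h2, ha₂, one_pow, one_mul]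
        have hε : A.valuation (x / (algebraMap ℚ K π₀) ^ j) = 1 := by
          rw [map_div₀, map_zpow₀, hj]
          exact div_self (by
            rw [← map_zpow₀]
            exact (Valuation.ne_zero_iff _).mpr hc0)
        have hσc : (σ : K ≃ₐ[ℚ] K).toRingEquiv.toRingHom ((algebraMap ℚ K π₀) ^ j) =
            (algebraMap ℚ K π₀) ^ j := by
          change σ ((algebraMap ℚ K π₀) ^ j) = _
          rw [map_zpow₀, AlgEquiv.commutes]
        have hxc : x = (algebraMap ℚ K π₀) ^ j * (x / (algebraMap ℚ K π₀) ^ j) := by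
          field_simp
        have hwx' : (W'.baseChange K).a₄ / x ∈ A.nonunits := hwx
        exact h4_refined_galois A (W'.baseChange K) e₃ e₆ hA₁ hb₂ h2
          ((σ : K ≃ₐ[ℚ] K).toRingEquiv.toRingHom)
          (fun a ha => (H86.inertia_apply_mem A hσ ha).2) h hnsσ hx0 hxm hwx' hxc hσc hε
      · -- `x` is a unit: `P` and `σ P` have the same nonsingular reduction
        have hxu : A.valuation x = 1 :=
          H86.valuation_eq_one_of_mem_of_not_mem_nonunits A hx hxm
        have hns := h4_partials_of_unit_x A (W'.baseChange K) e₁ e₃ e₆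
          (by rw [e₂]; exact ha₂) (by rw [e₄]; exact ha₄) h2 h.1 hxu hy
        have hxm' : x - σ x ∈ A.nonunits := by
          have := neg_mem hσx'
          simpa using this
        have hym' : y - σ y ∈ A.nonunits := by
          have := neg_mem hσy'
          simpa using this
        have hIII := H86.sub_inE1_of_same_reduction (A := A) (W := W'⁄K) hA₁ hA₂ hA₃ hA₄ h hnsσ
          hx hy hσx hσy hxm' hym' hns
        apply h4_refined_swap
        rcases hIII with h0 | h0
        · exact Or.inl (sub_eq_zero.1 h0)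
        · exact Or.inr h0
    · exact h4_sub_inE1_of_not_mem W' A hA₁ hA₂ hA₃ hA₄ hA₆ hσ h hx

end Core

section Glue

local notation "Qbar" => AlgebraicClosure ℚ

/-- **(M3α), good model.**  For a good model `W` at `A`, the inertia group at `A` acts trivially
on the group of points modulo the kernel of reduction. -/
theorem h4_inertia_sub_inE1_of_isGoodModel {A : ValuationSubring Qbar} {W : WeierstrassCurve ℚ}
    (hW : IsGoodModel A W) {σ : Qbar ≃ₐ[ℚ] Qbar} (hσ : σ ∈ A.inertiaSubgroupIn ℚ)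
    (P : (W.baseChange Qbar).toAffine.Point) : InE1 A (σ • P - P) := by
  have hΔ : ((W.baseChange Qbar).toAffine).Δ ∉ A.nonunits := by
    have h1 : ((W.baseChange Qbar).toAffine).Δ = algebraMap ℚ Qbar W.Δ := by
      simp [WeierstrassCurve.baseChange, WeierstrassCurve.map_Δ]
    rw [h1]
    exact hW.Δ_unit.not_nonunit A
  exact h4_inertia_sub_inE1_of_good_core W A hW.a₁ hW.a₂ hW.a₃ hW.a₄ hW.a₆ hΔ hσ P

/-- **(M3α), short nodal model.**  For a short nodal model `W` at `A` with `a₄ = u π ^ n`, `n` odd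
and `2` a unit of `A`, the inertia group at `A` acts trivially on the `n`-torsion modulo the
kernel of reduction.  (No hypothesis that `n` is a unit of `A`.) -/
theorem h4_inertia_sub_inE1_of_isShortNodal {A : ValuationSubring Qbar} {W : WeierstrassCurve ℚ}
    {n : ℕ} (hodd : Odd n) (h2 : IsUnitOf A (2 : Qbar)) (hW : IsShortNodal A n W)
    {σ : Qbar ≃ₐ[ℚ] Qbar} (hσ : σ ∈ A.inertiaSubgroupIn ℚ)
    (P : (W.baseChange Qbar).toAffine.Point) (hP : n • P = 0) : InE1 A (σ • P - P) := by
  have hn0 : n ≠ 0 := by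
    rintro rfl
    exact absurd hodd (by decide)
  obtain ⟨π₀, u₀, h4, hπ, hπ0, hu⟩ := hW.a₄
  have ha₄ : algebraMap ℚ Qbar W.a₄ ∈ A.nonunits := by
    rw [h4, map_mul, map_pow]
    exact mem_mul_nonunit A (hu.mem A) (nonunit_pow A hπ hn0)
  have HIV : h4_IVcorStatement A := by
    intro W h3 h6 r₁ r₂ hr₁ hr₂ ha₁ ha₂ hr π u hπ hπ0 hu n hn h4 x y h hP hx
    exact H76.torsion_node_valuation A W h3 h6 r₁ r₂ hr₁ hr₂ ha₁ ha₂ hr π u hπ hπ0 hu n hn h4
      h hP hx
  exact h4_inertia_sub_inE1_of_nodal_core W A hW.a₁ hW.a₃ hW.a₆ hW.a₂_unit ha₄ h2 π₀ n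
    (h4_nodeTorsionValuation_of_IVcor hodd h2 hW HIV π₀ u₀ h4 hπ hπ0 hu) hσ P hP

end Glue

end Fermat.Agent.S13
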