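import Mathlib
import Fermat.Prelude.Def_FLTPrelim_FreyPackage
import Fermat.Prelude.Def_FLTPrelim_GaloisRep

/-!
# S13 shared basics: integrality of the Frey model

`P.freyCurve = P.freyCurveInt.map (Int.castRingHom ℚ)`, the exact values of `4 a₂` and `16 a₄`,
membership of the coefficients in every valuation subring, and `Δ ≠ 0`.
-/

set_option autoImplicit false

namespace Fermat.Agent.S13

open WeierstrassCurve

local notation "Qbar" => AlgebraicClosure ℚ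

variable (P : FreyPackage)

theorem frey_two_dvd_b : (2 : ℤ) ∣ P.b :=
  (ZMod.intCast_zmod_eq_zero_iff_dvd P.b 2).1 P.hb2

theorem frey_a_mod_four : P.a % 4 = 3 := by
  have h := P.ha4
  have h3 : ((3 : ℤ) : ZMod 4) = 3 := by norm_num
  rw [← h3] at h
  have := (ZMod.intCast_eq_intCast_iff_dvd_sub P.a 3 4).1 h
  omega

theorem frey_four_dvd_a₂_num : (4 : ℤ) ∣ P.b ^ P.p - 1 - P.a ^ P.p := by
  obtain ⟨k, hk⟩ := P.hp_odd
  obtain ⟨m, hm⟩ := frey_two_dvd_b P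
  have hp5 := P.hp5
  have hb : (4 : ℤ) ∣ P.b ^ P.p := by
    have : P.b ^ P.p = P.b ^ 2 * P.b ^ (P.p - 2) := by
      rw [← pow_add]; congr 1; omega
    rw [this, hm]
    exact Dvd.dvd.mul_right ⟨m ^ 2, by ring⟩ _
  have ha : (4 : ℤ) ∣ P.a ^ P.p + 1 := by
    have h4 := frey_a_mod_four P
    have h1 : P.a ≡ -1 [ZMOD 4] := by
      rw [Int.ModEq]; omega
    have h2 : P.a ^ P.p ≡ (-1) ^ P.p [ZMOD 4] := h1.pow _
    rw [P.hp_odd.neg_one_pow] at h2
    have h3 : P.a ^ P.p + 1 ≡ -1 + 1 [ZMOD 4] := h2.add_right 1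
    have h4' : (4 : ℤ) ∣ (-1 + 1) - (P.a ^ P.p + 1) := h3.dvd
    have : P.a ^ P.p + 1 = -((-1 + 1) - (P.a ^ P.p + 1)) := by ring
    rw [this]
    exact (dvd_neg).mpr h4'
  have : P.b ^ P.p - 1 - P.a ^ P.p = P.b ^ P.p - (P.a ^ P.p + 1) := by ring
  rw [this]
  exact dvd_sub hb ha

theorem frey_sixteen_dvd_a₄_num : (16 : ℤ) ∣ -(P.a ^ P.p) * (P.b ^ P.p) := by
  obtain ⟨m, hm⟩ := frey_two_dvd_b P
  have hp5 := P.hp5
  have hb : (16 : ℤ) ∣ P.b ^ P.p := by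
    have : P.b ^ P.p = P.b ^ 4 * P.b ^ (P.p - 4) := by
      rw [← pow_add]; congr 1; omega
    rw [this, hm]
    exact Dvd.dvd.mul_right ⟨m ^ 4, by ring⟩ _
  exact Dvd.dvd.mul_left hb _

theorem frey_four_mul_a₂ : 4 * P.freyCurveInt.a₂ = P.b ^ P.p - 1 - P.a ^ P.p :=
  Int.mul_ediv_cancel' (frey_four_dvd_a₂_num P)

theorem frey_sixteen_mul_a₄ : 16 * P.freyCurveInt.a₄ = -(P.a ^ P.p) * (P.b ^ P.p) :=
  Int.mul_ediv_cancel' (frey_sixteen_dvd_a₄_num P)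

theorem freyCurve_a₂_eq : P.freyCurve.a₂ = (P.freyCurveInt.a₂ : ℚ) := by
  have h := frey_four_mul_a₂ P
  have h' : (4 : ℚ) * (P.freyCurveInt.a₂ : ℚ) = (P.b : ℚ) ^ P.p - 1 - (P.a : ℚ) ^ P.p := by
    exact_mod_cast h
  show ((P.b : ℚ) ^ P.p - 1 - (P.a : ℚ) ^ P.p) / 4 = _
  rw [← h']
  field_simp

theorem freyCurve_a₄_eq : P.freyCurve.a₄ = (P.freyCurveInt.a₄ : ℚ) := by
  have h := frey_sixteen_mul_a₄ P
  have h' : (16 : ℚ) * (P.freyCurveInt.a₄ : ℚ) = -((P.a : ℚ) ^ P.p) * ((P.b : ℚ) ^ P.p) := by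
    exact_mod_cast h
  show -((P.a : ℚ) ^ P.p) * ((P.b : ℚ) ^ P.p) / 16 = _
  rw [← h']
  field_simp

/-- The Frey curve is the base change of its integral model. -/
theorem freyCurve_eq_map : P.freyCurve = P.freyCurveInt.map (Int.castRingHom ℚ) := by
  ext
  · show (1 : ℚ) = Int.castRingHom ℚ 1
    simp
  · show P.freyCurve.a₂ = Int.castRingHom ℚ P.freyCurveInt.a₂
    rw [freyCurve_a₂_eq]; rfl
  · show (0 : ℚ) = Int.castRingHom ℚ 0
    simp
  · show P.freyCurve.a₄ = Int.castRingHom ℚ P.freyCurveInt.a₄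
    rw [freyCurve_a₄_eq]; rfl
  · show (0 : ℚ) = Int.castRingHom ℚ 0
    simp

/-- The Frey curve over `Qbar` is the base change of its integral model. -/
theorem freyCurve_baseChange_eq_map :
    (P.freyCurve.baseChange Qbar) = P.freyCurveInt.map (Int.castRingHom Qbar) := by
  rw [freyCurve_eq_map]
  show (P.freyCurveInt.map (Int.castRingHom ℚ)).map (algebraMap ℚ Qbar) = _
  rw [WeierstrassCurve.map_map]
  congr 1

section coeffs

variable {K : Type*} [Field K] [Algebra ℚ K]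

@[simp] theorem freyBC_a₁ : (P.freyCurve.baseChange K).a₁ = 1 := by
  show algebraMap ℚ K 1 = 1
  simp

@[simp] theorem freyBC_a₃ : (P.freyCurve.baseChange K).a₃ = 0 := by
  show algebraMap ℚ K 0 = 0
  simp

@[simp] theorem freyBC_a₆ : (P.freyCurve.baseChange K).a₆ = 0 := by
  show algebraMap ℚ K 0 = 0
  simp

theorem freyBC_a₂ : (P.freyCurve.baseChange K).a₂ = ((P.freyCurveInt.a₂ : ℤ) : K) := by
  show algebraMap ℚ K P.freyCurve.a₂ = _
  rw [freyCurve_a₂_eq]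
  simp

theorem freyBC_a₄ : (P.freyCurve.baseChange K).a₄ = ((P.freyCurveInt.a₄ : ℤ) : K) := by
  show algebraMap ℚ K P.freyCurve.a₄ = _
  rw [freyCurve_a₄_eq]
  simp

variable (A : ValuationSubring K)

omit [Algebra ℚ K] in
theorem S13_intCast_mem (n : ℤ) : (n : K) ∈ A := by
  exact intCast_mem A.toSubring n

theorem freyBC_a₁_mem : (P.freyCurve.baseChange K).a₁ ∈ A := by
  rw [freyBC_a₁]; exact A.one_mem

theorem freyBC_a₂_mem : (P.freyCurve.baseChange K).a₂ ∈ A := by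
  rw [freyBC_a₂]; exact S13_intCast_mem A _

theorem freyBC_a₃_mem : (P.freyCurve.baseChange K).a₃ ∈ A := by
  rw [freyBC_a₃]; exact A.zero_mem

theorem freyBC_a₄_mem : (P.freyCurve.baseChange K).a₄ ∈ A := by
  rw [freyBC_a₄]; exact S13_intCast_mem A _

theorem freyBC_a₆_mem : (P.freyCurve.baseChange K).a₆ ∈ A := by
  rw [freyBC_a₆]; exact A.zero_mem

end coeffs

/-- `2⁸ Δ = (abc)^{2p}` for the Frey curve. -/
theorem freyCurve_Δ : (2 : ℚ) ^ 8 * P.freyCurve.Δ =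
    (((P.a : ℚ) * P.b * P.c) ^ P.p) ^ 2 := by
  have hFLT : (P.a : ℚ) ^ P.p + (P.b : ℚ) ^ P.p = (P.c : ℚ) ^ P.p := by
    exact_mod_cast P.hFLT
  rw [mul_pow, mul_pow, ← hFLT]
  simp only [WeierstrassCurve.Δ, WeierstrassCurve.b₂, WeierstrassCurve.b₄, WeierstrassCurve.b₆,
    WeierstrassCurve.b₈, FreyPackage.freyCurve]
  ring

theorem freyCurve_Δ_ne_zero : P.freyCurve.Δ ≠ 0 := by
  intro h
  have h1 := freyCurve_Δ P
  rw [h, mul_zero] at h1
  have h2 : ((P.a : ℚ) * P.b * P.c) ≠ 0 := by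
    have := P.habc0
    exact_mod_cast this
  exact (pow_ne_zero 2 (pow_ne_zero P.p h2)) h1.symm

theorem freyBC_Δ_ne_zero {K : Type*} [Field K] [Algebra ℚ K] :
    (P.freyCurve.baseChange K).Δ ≠ 0 := by
  have h : (P.freyCurve.baseChange K).Δ = algebraMap ℚ K P.freyCurve.Δ :=
    WeierstrassCurve.map_Δ _ _
  rw [h]
  exact (_root_.map_ne_zero _).mpr (freyCurve_Δ_ne_zero P)

end Fermat.Agent.S13
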