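import Fermat.Agent.S13.Torsion

/-!
# The odd division polynomial from the ladder

For `n = 2 m + 1` the ladder denominator is a square: `Gₙ = Dₙ²` with
`Dₙ = Fₘ Gₘ₊₁ - Fₘ₊₁ Gₘ`.  The polynomial `Dₙ` has degree `(n² - 1) / 2 = 2 m² + 2 m`, top
coefficient `n`, coefficients in any subring containing `b₂, b₄, b₆, b₈`, and its roots are
exactly the `x`-coordinates of the nonzero `n`-torsion points.
-/

set_option autoImplicit false

namespace Fermat.Agent.S13

open WeierstrassCurve WeierstrassCurve.Affine Polynomial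
open Fermat.Agent.S51

section Div

variable {F : Type*} [Field F] (E : Affine F)

/-- The odd division polynomial `D_{2m+1} = Fₘ Gₘ₊₁ - Fₘ₊₁ Gₘ`. -/
noncomputable def T_div (m : ℕ) : F[X] :=
  (T_ladder E m).1 * (T_ladder E (m + 1)).2 - (T_ladder E (m + 1)).1 * (T_ladder E m).2

lemma T_ladder_odd_snd (m : ℕ) (hm : 1 ≤ m) :
    (T_ladder E (2 * m + 1)).2 = T_div E m ^ 2 := by
  rw [T_ladder_odd E m hm]
  rfl

/-- `D_{2m+1}` has degree at most `2 m² + 2 m` with coefficient `2 m + 1` in that degree. -/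
theorem T_div_top (m : ℕ) (hm : 1 ≤ m) :
    T_top (T_div E m) (2 * m ^ 2 + 2 * m) ((2 * m + 1 : ℕ) : F) := by
  obtain ⟨d, hd, h1, h2⟩ := T_ladder_top E m hm
  obtain ⟨e, he, h3, h4⟩ := T_ladder_top E (m + 1) (by omega)
  have P1 : T_top ((T_ladder E m).1 * (T_ladder E (m + 1)).2) (d + e + 1)
      (((m + 1 : ℕ) : F) ^ 2) := (h1.mul h4).cast (by ring) (by ring)
  have P2 : T_top ((T_ladder E (m + 1)).1 * (T_ladder E m).2) (d + e + 1) ((m : F) ^ 2) :=
    (h3.mul h2).cast (by ring) (by ring)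
  refine (P1.sub P2).cast (by nlinarith) ?_
  push_cast
  ring

/-- In characteristic zero `D_{2m+1}` is nonzero of degree exactly `2 m² + 2 m`. -/
theorem T_div_natDegree [CharZero F] (m : ℕ) (hm : 1 ≤ m) :
    T_div E m ≠ 0 ∧ (T_div E m).natDegree = 2 * m ^ 2 + 2 * m ∧
      (T_div E m).leadingCoeff = ((2 * m + 1 : ℕ) : F) := by
  have h := T_div_top E m hm
  have hc : ((2 * m + 1 : ℕ) : F) ≠ 0 := by exact_mod_cast (by omega : 2 * m + 1 ≠ 0)
  have hd := h.natDegree_eq hc
  refine ⟨h.ne_zero hc, hd, ?_⟩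
  rw [leadingCoeff, hd, h.2]

/-- The polynomials with coefficients in a subring `A`, as a subring of `F[X]`. -/
lemma T_mem_lifts_iff (A : Subring F) (p : F[X]) :
    p ∈ Polynomial.lifts A.subtype ↔ ∀ i, p.coeff i ∈ A := by
  rw [lifts_iff_coeff_lifts]
  constructor
  · intro h i
    obtain ⟨a, ha⟩ := h i
    rw [← ha]
    exact a.2
  · intro h i
    exact ⟨⟨_, h i⟩, rfl⟩

lemma T_C_mem_lifts (A : Subring F) {a : F} (ha : a ∈ A) :
    Polynomial.C a ∈ Polynomial.liftsRing A.subtype := by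
  change Polynomial.C a ∈ Polynomial.lifts A.subtype
  rw [T_mem_lifts_iff]
  intro i
  rw [coeff_C]
  split_ifs
  · exact ha
  · exact A.zero_mem

lemma T_X_mem_lifts (A : Subring F) : (X : F[X]) ∈ Polynomial.liftsRing A.subtype := by
  change (X : F[X]) ∈ Polynomial.lifts A.subtype
  exact X_mem_lifts _

/-- The ladder polynomials have coefficients in every subring containing the `b`-invariants. -/
theorem T_ladder_mem_lifts (A : Subring F) (h2 : E.b₂ ∈ A) (h4 : E.b₄ ∈ A) (h6 : E.b₆ ∈ A)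
    (h8 : E.b₈ ∈ A) (n : ℕ) :
    (T_ladder E n).1 ∈ Polynomial.liftsRing A.subtype ∧
      (T_ladder E n).2 ∈ Polynomial.liftsRing A.subtype := by
  have hC : ∀ {a : F}, a ∈ A → Polynomial.C a ∈ Polynomial.liftsRing A.subtype :=
    fun ha => T_C_mem_lifts A ha
  have hX := T_X_mem_lifts A
  have two : (2 : F) ∈ A := by
    have : (2 : F) = 1 + 1 := by norm_num
    rw [this]
    exact A.add_mem A.one_mem A.one_mem
  have four : (4 : F) ∈ A := by
    have : (4 : F) = 2 * 2 := by norm_num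
    rw [this]
    exact A.mul_mem two two
  induction n using Nat.strong_induction_on with
  | _ n ih =>
    rcases Nat.even_or_odd' n with ⟨m, rfl | rfl⟩
    · rcases Nat.eq_zero_or_pos m with rfl | hm
      · rw [show 2 * 0 = 0 from rfl, T_ladder_zero]
        exact ⟨Subring.one_mem _, Subring.zero_mem _⟩
      · obtain ⟨hf, hg⟩ := ih m (by omega)
        rw [T_ladder_even E m hm]
        refine ⟨?_, ?_⟩
        · simp only [T_dbl]
          exact Subring.sub_mem _ (Subring.sub_mem _ (Subring.sub_mem _ (Subring.pow_mem _ hf 4)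
            (Subring.mul_mem _ (hC h4) (Subring.mul_mem _ (Subring.pow_mem _ hf 2)
              (Subring.pow_mem _ hg 2))))
            (Subring.mul_mem _ (hC (A.mul_mem two h6))
              (Subring.mul_mem _ hf (Subring.pow_mem _ hg 3))))
            (Subring.mul_mem _ (hC h8) (Subring.pow_mem _ hg 4))
        · simp only [T_dbl]
          refine Subring.mul_mem _ hg (Subring.add_mem _ (Subring.add_mem _ (Subring.add_mem _
            (Subring.mul_mem _ (hC four) (Subring.pow_mem _ hf 3))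
            (Subring.mul_mem _ (hC h2) (Subring.mul_mem _ (Subring.pow_mem _ hf 2) hg)))
            (Subring.mul_mem _ (hC (A.mul_mem two h4))
              (Subring.mul_mem _ hf (Subring.pow_mem _ hg 2))))
            (Subring.mul_mem _ (hC h6) (Subring.pow_mem _ hg 3)))
    · rcases Nat.eq_zero_or_pos m with rfl | hm
      · rw [show 2 * 0 + 1 = 1 from rfl, T_ladder_one]
        exact ⟨hX, Subring.one_mem _⟩
      · obtain ⟨hf, hg⟩ := ih m (by omega)
        obtain ⟨hf', hg'⟩ := ih (m + 1) (by omega)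
        rw [T_ladder_odd E m hm]
        have hD : (T_ladder E m).1 * (T_ladder E (m + 1)).2
            - (T_ladder E (m + 1)).1 * (T_ladder E m).2 ∈ Polynomial.liftsRing A.subtype :=
          Subring.sub_mem _ (Subring.mul_mem _ hf hg') (Subring.mul_mem _ hf' hg)
        have hS : (T_ladder E m).1 * (T_ladder E (m + 1)).2
            + (T_ladder E (m + 1)).1 * (T_ladder E m).2 ∈ Polynomial.liftsRing A.subtype :=
          Subring.add_mem _ (Subring.mul_mem _ hf hg') (Subring.mul_mem _ hf' hg)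
        refine ⟨?_, ?_⟩
        · simp only [T_dadd]
          exact Subring.sub_mem _ (Subring.add_mem _ (Subring.add_mem _ (Subring.add_mem _
            (Subring.mul_mem _ (hC two) (Subring.mul_mem _ (Subring.mul_mem _ hf hf') hS))
            (Subring.mul_mem _ (hC h2) (Subring.mul_mem _ (Subring.mul_mem _ hf hf')
              (Subring.mul_mem _ hg hg'))))
            (Subring.mul_mem _ (hC h4) (Subring.mul_mem _ hS (Subring.mul_mem _ hg hg'))))
            (Subring.mul_mem _ (hC h6) (Subring.mul_mem _ (Subring.pow_mem _ hg 2)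
              (Subring.pow_mem _ hg' 2))))
            (Subring.mul_mem _ hX (Subring.pow_mem _ hD 2))
        · simp only [T_dadd]
          exact Subring.pow_mem _ hD 2

/-- The coefficients of `D_{2m+1}` lie in every subring containing the `b`-invariants. -/
theorem T_div_coeff_mem (A : Subring F) (h2 : E.b₂ ∈ A) (h4 : E.b₄ ∈ A) (h6 : E.b₆ ∈ A)
    (h8 : E.b₈ ∈ A) (m : ℕ) (i : ℕ) : (T_div E m).coeff i ∈ A := by
  have hm := T_ladder_mem_lifts E A h2 h4 h6 h8 m
  have hm' := T_ladder_mem_lifts E A h2 h4 h6 h8 (m + 1)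
  have : T_div E m ∈ Polynomial.liftsRing A.subtype :=
    Subring.sub_mem _ (Subring.mul_mem _ hm.1 hm'.2) (Subring.mul_mem _ hm'.1 hm.2)
  exact (T_mem_lifts_iff A _).mp this i

/-- The coefficients of the ladder polynomials lie in every subring containing the
`b`-invariants. -/
theorem T_ladder_coeff_mem (A : Subring F) (h2 : E.b₂ ∈ A) (h4 : E.b₄ ∈ A) (h6 : E.b₆ ∈ A)
    (h8 : E.b₈ ∈ A) (n : ℕ) (i : ℕ) :
    (T_ladder E n).1.coeff i ∈ A ∧ (T_ladder E n).2.coeff i ∈ A :=
  ⟨(T_mem_lifts_iff A _).mp (T_ladder_mem_lifts E A h2 h4 h6 h8 n).1 i,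
    (T_mem_lifts_iff A _).mp (T_ladder_mem_lifts E A h2 h4 h6 h8 n).2 i⟩

variable [DecidableEq F]

/-- A nonzero point is killed by `2 m + 1` iff its `x`-coordinate is a root of `D_{2m+1}`. -/
theorem T_div_eval_eq_zero_iff (hΔ : E.Δ ≠ 0) {P : E.Point} (hP : P ≠ 0) (m : ℕ) (hm : 1 ≤ m) :
    (2 * m + 1) • P = 0 ↔ (T_div E m).eval (A_x P) = 0 := by
  rw [T_nsmul_eq_zero_iff E hΔ hP, T_ladder_odd_snd E m hm, eval_pow, sq_eq_zero_iff]

/-- `#E[2m+1] ≤ (2m+1)²` in characteristic zero. -/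
theorem T_card_torsion_odd [CharZero F] (hΔ : E.Δ ≠ 0) (m : ℕ) (hm : 1 ≤ m) :
    Finite (Submodule.torsionBy ℤ E.Point (2 * m + 1 : ℕ)) ∧
      Nat.card (Submodule.torsionBy ℤ E.Point (2 * m + 1 : ℕ)) ≤ (2 * m + 1) ^ 2 := by
  obtain ⟨hne, hdeg, -⟩ := T_div_natDegree E m hm
  have h := A_card_torsion_le E (2 * m + 1) (T_div E m).roots.toFinset (fun P hP hnP => by
    rw [Multiset.mem_toFinset, mem_roots hne, IsRoot.def]
    apply (T_div_eval_eq_zero_iff E hΔ hP m hm).mp
    rw [← natCast_zsmul]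
    exact hnP)
  refine ⟨h.1, le_trans h.2 ?_⟩
  have hc : (T_div E m).roots.toFinset.card ≤ 2 * m ^ 2 + 2 * m := by
    rw [← hdeg]
    exact le_trans (Multiset.toFinset_card_le _) (card_roots' _)
  nlinarith

/-- **Packaged interface (D-a)–(D-d)**: for an odd prime `p` there is a polynomial `D` of degree
`(p² - 1) / 2` with leading coefficient `p`, coefficients in every subring containing the
`b`-invariants, whose roots are exactly the `x`-coordinates of the nonzero `p`-torsion points. -/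
theorem T_exists_divPoly [CharZero F] (hΔ : E.Δ ≠ 0) (p : ℕ) (hp : p.Prime) (hp2 : p ≠ 2) :
    ∃ D : F[X], D ≠ 0 ∧ 2 * D.natDegree + 1 = p ^ 2 ∧ D.leadingCoeff = (p : F) ∧
      (∀ A : Subring F, E.b₂ ∈ A → E.b₄ ∈ A → E.b₆ ∈ A → E.b₈ ∈ A → ∀ i, D.coeff i ∈ A) ∧
      (∀ P : E.Point, P ≠ 0 → (p • P = 0 ↔ D.eval (A_x P) = 0)) ∧
      (Finite (Submodule.torsionBy ℤ E.Point p) ∧
        Nat.card (Submodule.torsionBy ℤ E.Point p) ≤ p ^ 2) := by
  obtain ⟨m, hm⟩ : ∃ m, p = 2 * m + 1 := by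
    rcases hp.eq_two_or_odd with h | h
    · exact absurd h hp2
    · exact ⟨p / 2, by omega⟩
  have hm1 : 1 ≤ m := by
    rcases Nat.eq_zero_or_pos m with rfl | h
    · exact absurd (by simpa using hm) hp.ne_one
    · exact h
  subst hm
  obtain ⟨hne, hdeg, hlc⟩ := T_div_natDegree E m hm1
  refine ⟨T_div E m, hne, ?_, hlc, fun A h2 h4 h6 h8 i => T_div_coeff_mem E A h2 h4 h6 h8 m i,
    fun P hP => T_div_eval_eq_zero_iff E hΔ hP m hm1, T_card_torsion_odd E hΔ m hm1⟩
  rw [hdeg]
  ring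

end Div

end Fermat.Agent.S13
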