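import Mathlib.RingTheory.Valuation.ValuationSubring
import Mathlib.Algebra.Polynomial.Div
import Mathlib.Algebra.Polynomial.Roots
import Mathlib.Tactic

/-!
# S13 helper (helper97), module (3.1): the big-root bound

For a polynomial `D` with coefficients of valuation `≤ B` and distinct roots `x₁, …, x_k` with
`v(x_i) > 1`:  `v(lc D) · ∏ v(x_i) ≤ B`.
-/

set_option linter.unusedSectionVars false

namespace Fermat.Agent.S13

open Polynomial

variable {K : Type*} [Field K] [DecidableEq K] {Γ : Type*} [LinearOrderedCommGroupWithZero Γ]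

/-- Peeling off a big root divides the Gauss norm by `v(r)`. -/
theorem coeff_le_of_mul_X_sub_C (v : Valuation K Γ) {D D₁ : K[X]} {r : K} {B : Γ}
    (hr : 1 < v r) (hD : D = (X - C r) * D₁) (hB : ∀ i, v (D.coeff i) ≤ B) :
    ∀ i, v (D₁.coeff i) * v r ≤ B := by
  have hr0 : v r ≠ 0 := ne_of_gt (lt_trans zero_lt_one hr)
  intro i
  induction i with
  | zero =>
    have h0 : D.coeff 0 = -(r * D₁.coeff 0) := by
      rw [hD, mul_coeff_zero]; simp
    have := hB 0
    rw [h0, Valuation.map_neg, map_mul, mul_comm] at this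
    exact this
  | succ j ih =>
    have hj : D.coeff (j + 1) = D₁.coeff j - D₁.coeff (j + 1) * r := by
      rw [hD, coeff_X_sub_C_mul, mul_comm]
    have e : D₁.coeff (j + 1) * r = D₁.coeff j - D.coeff (j + 1) := by rw [hj]; ring
    rw [← map_mul, e]
    refine Valuation.map_sub_le v ?_ (hB (j + 1))
    calc v (D₁.coeff j) = v (D₁.coeff j) * 1 := (mul_one _).symm
      _ ≤ v (D₁.coeff j) * v r := by gcongr
      _ ≤ B := ih

/-- **Big-root bound.** -/
theorem bigRoot_bound_aux (v : Valuation K Γ) (s : Finset K) :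
    ∀ (D : K[X]) (B : Γ), D ≠ 0 → (∀ i, v (D.coeff i) ≤ B) →
      (∀ x ∈ s, D.IsRoot x ∧ 1 < v x) → v D.leadingCoeff * ∏ x ∈ s, v x ≤ B := by
  induction s using Finset.induction_on with
  | empty =>
    intro D B _ hB _
    rw [Finset.prod_empty, mul_one]
    exact hB _
  | insert r s hrs ih =>
    intro D B hD0 hB hroots
    obtain ⟨hrroot, hr⟩ := hroots r (Finset.mem_insert_self r s)
    obtain ⟨D₁, hD₁⟩ := (dvd_iff_isRoot.mpr hrroot)
    have hD₁0 : D₁ ≠ 0 := by
      rintro rfl; rw [mul_zero] at hD₁; exact hD0 hD₁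
    have hr0 : v r ≠ 0 := ne_of_gt (lt_trans zero_lt_one hr)
    have hlc : D.leadingCoeff = D₁.leadingCoeff := by
      rw [hD₁, leadingCoeff_mul, leadingCoeff_X_sub_C, one_mul]
    have hroots₁ : ∀ x ∈ s, D₁.IsRoot x ∧ 1 < v x := by
      intro x hx
      obtain ⟨hxroot, hxv⟩ := hroots x (Finset.mem_insert_of_mem hx)
      refine ⟨?_, hxv⟩
      have hxr : x ≠ r := fun h => hrs (h ▸ hx)
      rw [IsRoot, hD₁, eval_mul, eval_sub, eval_X, eval_C] at hxroot
      rcases mul_eq_zero.mp hxroot with h | h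
      · exact absurd (sub_eq_zero.mp h) hxr
      · exact h
    have hB₁ : ∀ i, v (D₁.coeff i) ≤ B / v r := by
      intro i
      rw [le_div_iff₀ (lt_trans zero_lt_one hr)]
      exact coeff_le_of_mul_X_sub_C v hr hD₁ hB i
    have := ih D₁ (B / v r) hD₁0 hB₁ hroots₁
    rw [Finset.prod_insert hrs, hlc]
    rw [le_div_iff₀ (lt_trans zero_lt_one hr)] at this
    calc v D₁.leadingCoeff * (v r * ∏ x ∈ s, v x)
        = v D₁.leadingCoeff * (∏ x ∈ s, v x) * v r := by
          rw [mul_comm (v r), mul_assoc]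
      _ ≤ B := this

/-- **Big-root bound** for a polynomial with coefficients in a valuation subring `A`:
distinct roots outside `A` satisfy `v(lc) · ∏ v(x_i) ≤ 1`. -/
theorem bigRoot_bound (A : ValuationSubring K) (D : K[X]) (hD0 : D ≠ 0)
    (hD : ∀ i, D.coeff i ∈ A) (s : Finset K) (hs : ∀ x ∈ s, D.IsRoot x ∧ x ∉ A) :
    A.valuation D.leadingCoeff * ∏ x ∈ s, A.valuation x ≤ 1 := by
  refine bigRoot_bound_aux A.valuation s D 1 hD0
    (fun i => (A.valuation_le_one_iff _).mpr (hD i)) ?_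
  intro x hx
  obtain ⟨h1, h2⟩ := hs x hx
  exact ⟨h1, not_le.mp (fun h => h2 ((A.valuation_le_one_iff x).mp h))⟩

end Fermat.Agent.S13
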