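import Fermat.Agent.S05.H97Kernel

/-!
# S13 helper (helper97), module (3.2): multiples of a point of `E₁` have the same `v(x)`
-/

set_option linter.unusedSectionVars false

namespace Fermat.Agent.S13

open WeierstrassCurve WeierstrassCurve.Affine
open Fermat.Agent.S05.H97 Fermat.Agent.S05.NF

variable {K : Type*} [Field K] [DecidableEq K] (A : ValuationSubring K)

/-- On the short model, for a point with `x ∉ A`: `v(x) · v(x/y)² = 1`. -/
theorem val_x_mul_val_z_sq (W : WeierstrassCurve K) (h1 : W.a₁ = 0) (h3 : W.a₃ = 0)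
    (h6 : W.a₆ = 0) (h2 : W.a₂ ∈ A) (h4 : W.a₄ ∈ A) {x y : K}
    (hE : W.toAffine.Equation x y) (hx : x ∉ A) :
    A.valuation x * A.valuation (x / y) ^ 2 = 1 := by
  set v := A.valuation
  have hx' := one_lt_val_of_not_mem A hx
  have eq₁ : y ^ 2 = x ^ 3 + W.a₂ * x ^ 2 + W.a₄ * x := by
    have := (equation_iff_nf W h3 h6 x y).mp hE
    rw [h1] at this; linear_combination this
  have hσ : v (y / x) ^ 2 = v x := val_s_sq A eq₁ h2 h4 hx'
  have hz : x / y = (y / x)⁻¹ := by rw [inv_div]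
  rw [hz, map_inv₀, inv_pow, hσ]
  exact mul_inv_cancel₀ (ne_of_gt (lt_trans zero_lt_one hx'))

/-- **(3.2)** For `P ∈ E₁` on the short model and `k` a unit of `A`: `kP` is an affine point of
`E₁` with `v(x(kP)) = v(x(P))`. -/
theorem val_x_nsmul (W : WeierstrassCurve K) (h1 : W.a₁ = 0) (h3 : W.a₃ = 0) (h6 : W.a₆ = 0)
    (h2 : W.a₂ ∈ A) (h4 : W.a₄ ∈ A) {x y : K} (h : W.toAffine.Nonsingular x y) (hx : x ∉ A)
    (k : ℕ) (hk : A.valuation (k : K) = 1) :
    ∃ (x' y' : K) (h' : W.toAffine.Nonsingular x' y'),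
      k • Affine.Point.some x y h = Affine.Point.some x' y' h' ∧ x' ∉ A ∧
        A.valuation x' = A.valuation x := by
  set v := A.valuation
  have hx' := one_lt_val_of_not_mem A hx
  obtain ⟨hr0, hr1⟩ := val_z A W h1 h3 h6 h2 h4 h.1 hx'
  obtain ⟨hE, hz⟩ := nsmul_E1 A W h1 h3 h6 h2 h4 h hx k
  have hlt : v (x / y) ^ 3 < v (x / y) := by
    calc v (x / y) ^ 3 = v (x / y) * v (x / y) ^ 2 := by rw [pow_succ' _ 2]
      _ < v (x / y) * 1 := by
          apply mul_lt_mul_of_pos_left _ hr0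
          exact pow_lt_one₀ zero_le hr1 two_ne_zero
      _ = v (x / y) := mul_one _
  have hkz : v ((k : K) * (x / y)) = v (x / y) := by rw [map_mul, hk, one_mul]
  have hzk : v (zOf W (k • Affine.Point.some x y h)) = v (x / y) := by
    have : zOf W (k • Affine.Point.some x y h) =
        (k : K) * (x / y) + (zOf W (k • Affine.Point.some x y h) - (k : K) * (x / y)) := by ring
    rw [this, Valuation.map_add_eq_of_lt_left v, hkz]
    rw [hkz]
    exact lt_of_le_of_lt hz hlt
  rcases hE with h0 | ⟨x', y', h', hP', hx''⟩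
  · exfalso
    rw [h0, zOf_zero, map_zero] at hzk
    exact (ne_of_gt hr0) hzk.symm
  · refine ⟨x', y', h', hP', hx'', ?_⟩
    rw [hP', zOf_some] at hzk
    have e1 := val_x_mul_val_z_sq A W h1 h3 h6 h2 h4 h'.1 hx''
    have e2 := val_x_mul_val_z_sq A W h1 h3 h6 h2 h4 h.1 hx
    rw [hzk] at e1
    have hne : v (x / y) ^ 2 ≠ 0 := pow_ne_zero 2 (ne_of_gt hr0)
    exact mul_right_cancel₀ hne (e1.trans e2.symm)

end Fermat.Agent.S13
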