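import Mathlib
import Fermat.Agent.S13.Defs
import Fermat.Agent.S13.FreyInt
import Fermat.Agent.S13.Torsion
import Fermat.Agent.S13.H4AtP
import Fermat.Agent.S05
import Fermat.Agent.S54.Frobenius

/-!
# S13: assembly

`s13_of_interfaces`: the frozen statement S13 follows from the interfaces
`IfM` (Minkowski), `IfLoc2` (inertia at 2), `IfR` (no rational `p`-torsion), `IfP2`
(no supersingular-like case), `IfRedP` (inertia at `p`), together with the landed S05
(unramified at odd `q ≠ p`) and the landed torsion module (`E[p] ≠ 0`, `#E[p] < p³`).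
-/

set_option autoImplicit false

namespace Fermat.Agent.S13

open WeierstrassCurve WeierstrassCurve.Affine WeierstrassCurve.Affine.Point

local notation "Qbar" => AlgebraicClosure ℚ
local notation "GalQ" => (AlgebraicClosure ℚ ≃ₐ[ℚ] AlgebraicClosure ℚ)

section Basics

variable (P : FreyPackage)

/-- The Galois action commutes with natural multiples. -/
theorem asm_smul_nsmul (σ : GalQ) (n : ℕ) (x : FreyTors P) : σ • (n • x) = n • (σ • x) :=
  map_nsmul (DistribSMul.toAddMonoidHom (FreyTors P) σ) n x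

/-- The `ZMod p`-scalar multiplication is given by natural multiples. -/
theorem asm_zmod_smul (c : ZMod P.p) (x : FreyTors P) : c • x = c.val • x := by
  have : NeZero P.p := ⟨P.hp0⟩
  conv_lhs => rw [← ZMod.natCast_zmod_val c]
  exact Nat.cast_smul_eq_nsmul (ZMod P.p) c.val x

/-- The Galois action is `ZMod p`-linear. -/
theorem asm_smul_zmod (σ : GalQ) (c : ZMod P.p) (x : FreyTors P) :
    σ • (c • x) = c • (σ • x) := by
  rw [asm_zmod_smul, asm_zmod_smul, asm_smul_nsmul]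

theorem asm_smul_sub (σ : GalQ) (x y : FreyTors P) : σ • (x - y) = σ • x - σ • y :=
  smul_sub σ x y

theorem asm_coe_smul (σ : GalQ) (x : FreyTors P) :
    ((σ • x : FreyTors P) : FreyPt P) = σ • (x : FreyPt P) := rfl

theorem asm_torsion (x : FreyTors P) : (P.p : ℤ) • (x : FreyPt P) = 0 := by
  have := x.2
  rwa [Submodule.mem_torsionBy_iff] at this

/-- Kernel of reduction is closed under the `ZMod p`-module operations. -/
theorem asm_inE1_zmod_smul (A : ValuationSubring Qbar) (c : ZMod P.p) {x : FreyTors P}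
    (hx : Fermat.Agent.S05.InE1 A (x : FreyPt P)) :
    Fermat.Agent.S05.InE1 A ((c • x : FreyTors P) : FreyPt P) := by
  rw [asm_zmod_smul]
  have h : ((c.val • x : FreyTors P) : FreyPt P) = c.val • (x : FreyPt P) := by
    simp
  rw [h]
  exact Fermat.Agent.S05.inE1_nsmul A (freyBC_a₁_mem P A) (freyBC_a₂_mem P A)
    (freyBC_a₃_mem P A) (freyBC_a₄_mem P A) (freyBC_a₆_mem P A) hx c.val

theorem asm_inE1_add (A : ValuationSubring Qbar) {x y : FreyTors P}
    (hx : Fermat.Agent.S05.InE1 A (x : FreyPt P))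
    (hy : Fermat.Agent.S05.InE1 A (y : FreyPt P)) :
    Fermat.Agent.S05.InE1 A ((x + y : FreyTors P) : FreyPt P) := by
  have h : ((x + y : FreyTors P) : FreyPt P) = (x : FreyPt P) + (y : FreyPt P) := rfl
  rw [h]
  exact Fermat.Agent.S05.inE1_add A (freyBC_a₁_mem P A) (freyBC_a₂_mem P A)
    (freyBC_a₃_mem P A) (freyBC_a₄_mem P A) (freyBC_a₆_mem P A) hx hy

end Basics

section LinAlg

variable {p : ℕ} [Fact p.Prime] {V : Type*} [AddCommGroup V] [Module (ZMod p) V] [Finite V]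

/-- In a `ZMod p`-space with fewer than `p³` elements, a proper nonzero subspace `N` is a line
and so is the quotient by it. -/
theorem asm_line_data (hcard : Nat.card V < p ^ 3) (N : Submodule (ZMod p) V) (h0 : N ≠ ⊥)
    (h1 : N ≠ ⊤) :
    (∃ v ∈ N, v ≠ 0 ∧ ∀ w ∈ N, ∃ c : ZMod p, w = c • v) ∧
      (∀ u : V, u ∉ N → ∀ w : V, ∃ c : ZMod p, w - c • u ∈ N) := by
  classical
  let _ : Fintype V := Fintype.ofFinite V
  have hV : Module.finrank (ZMod p) V < 3 := by
    have h := Module.card_eq_pow_finrank (K := ZMod p) (V := V)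
    rw [Nat.card_eq_fintype_card, h, ZMod.card] at hcard
    exact (Nat.pow_lt_pow_iff_right (Fact.out : p.Prime).one_lt).mp hcard
  have hN : Module.finrank (ZMod p) N < Module.finrank (ZMod p) V := Submodule.finrank_lt h1
  have hN0 : 0 < Module.finrank (ZMod p) N := by
    rw [Module.finrank_pos_iff]
    exact (Submodule.nontrivial_iff_ne_bot).mpr h0
  have hN1 : Module.finrank (ZMod p) N = 1 := by omega
  have hV2 : Module.finrank (ZMod p) V = 2 := by omega
  refine ⟨?_, ?_⟩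
  · obtain ⟨v, hv0, hv⟩ := finrank_eq_one_iff'.mp hN1
    refine ⟨v.1, v.2, fun h => hv0 (Subtype.ext h), fun w hw => ?_⟩
    obtain ⟨c, hc⟩ := hv ⟨w, hw⟩
    exact ⟨c, by rw [← Submodule.coe_smul, hc]⟩
  · intro u hu w
    have hlt : N < N ⊔ Submodule.span (ZMod p) {u} := by
      refine lt_of_le_of_ne le_sup_left (fun h => hu ?_)
      rw [h]
      exact Submodule.mem_sup_right (Submodule.mem_span_singleton_self u)
    have h2 : Module.finrank (ZMod p) (N ⊔ Submodule.span (ZMod p) {u} : Submodule (ZMod p) V)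
        = Module.finrank (ZMod p) V := by
      have h3 := Submodule.finrank_lt_finrank_of_lt hlt
      have h4 := Submodule.finrank_le (N ⊔ Submodule.span (ZMod p) {u})
      omega
    have htop : N ⊔ Submodule.span (ZMod p) {u} = ⊤ := Submodule.eq_top_of_finrank_eq h2
    have hw : w ∈ N ⊔ Submodule.span (ZMod p) {u} := by rw [htop]; exact Submodule.mem_top
    obtain ⟨n, hn, z, hz, hnz⟩ := Submodule.mem_sup.mp hw
    obtain ⟨c, rfl⟩ := Submodule.mem_span_singleton.mp hz
    refine ⟨c, ?_⟩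
    have : w - c • u = n := by rw [← hnz]; abel
    rw [this]
    exact hn

end LinAlg

section Groups

variable (P : FreyPackage) (N : Submodule (ZMod P.p) (FreyTors P))

/-- `H₁`: the automorphisms acting trivially on `N`. -/
def asmH1 : Subgroup GalQ where
  carrier := {σ | ∀ x ∈ N, σ • x = x}
  mul_mem' := by
    intro a b ha hb x hx
    rw [mul_smul, hb x hx, ha x hx]
  one_mem' := fun x _ => one_smul _ x
  inv_mem' := by
    intro a ha x hx
    have h := ha x hx
    calc a⁻¹ • x = a⁻¹ • (a • x) := by rw [h]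
      _ = x := inv_smul_smul a x

theorem asm_mem_H1 (σ : GalQ) : σ ∈ asmH1 P N ↔ ∀ x ∈ N, σ • x = x := Iff.rfl

/-- `H₂`: the automorphisms acting trivially on `E[p] / N`. -/
def asmH2 (hN : IsGaloisStable ℚ N) : Subgroup GalQ where
  carrier := {σ | ∀ x, σ • x - x ∈ N}
  mul_mem' := by
    intro a b ha hb x
    have : (a * b) • x - x = a • (b • x - x) + (a • x - x) := by
      rw [mul_smul, smul_sub]; abel
    rw [this]
    exact N.add_mem (hN a _ (hb x)) (ha x)
  one_mem' := fun x => by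
    show (1 : GalQ) • x - x ∈ N
    rw [one_smul, sub_self]; exact N.zero_mem
  inv_mem' := by
    intro a ha x
    have : a⁻¹ • x - x = -(a⁻¹ • (a • x - x)) := by
      rw [smul_sub, inv_smul_smul]; abel
    rw [this]
    exact N.neg_mem (hN a⁻¹ _ (ha x))

theorem asm_mem_H2 (hN : IsGaloisStable ℚ N) (σ : GalQ) :
    σ ∈ asmH2 P N hN ↔ ∀ x, σ • x - x ∈ N := Iff.rfl

theorem asmH1_normal (hN : IsGaloisStable ℚ N) : (asmH1 P N).Normal := by
  refine ⟨fun σ hσ τ x hx => ?_⟩
  have h1 : τ⁻¹ • x ∈ N := hN τ⁻¹ x hx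
  rw [mul_smul, mul_smul, hσ _ h1, smul_inv_smul]

theorem asmH2_normal (hN : IsGaloisStable ℚ N) : (asmH2 P N hN).Normal := by
  refine ⟨fun σ hσ τ x => ?_⟩
  have : (τ * σ * τ⁻¹) • x - x = τ • (σ • (τ⁻¹ • x) - τ⁻¹ • x) := by
    rw [mul_smul, mul_smul, smul_sub, smul_inv_smul]
  rw [this]
  exact hN τ _ (hσ _)

/-- The coordinates of a point. -/
noncomputable def asmCoords : FreyPt P → Finset Qbar
  | .zero => ∅
  | .some x y _ => {x, y}

theorem asm_smul_eq_of_fix (σ : GalQ) (Q : FreyPt P) (h : ∀ a ∈ asmCoords P Q, σ a = a) :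
    σ • Q = Q := by
  match Q, h with
  | .zero, _ => rfl
  | .some x y hxy, h =>
    obtain ⟨hσ, hsm⟩ := h4_smul_some P.freyCurve σ hxy
    rw [hsm, Point.some.injEq]
    exact ⟨h x (by simp [asmCoords]), h y (by simp [asmCoords])⟩

/-- The pointwise stabiliser of `E[p]` contains the stabiliser of a finite set. -/
theorem asm_exists_finset [Finite (FreyTors P)] :
    ∃ s : Finset Qbar, ∀ σ : GalQ, (∀ a ∈ s, σ a = a) → ∀ x : FreyTors P, σ • x = x := by
  classical
  let _ : Fintype (FreyTors P) := Fintype.ofFinite _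
  refine ⟨Finset.univ.biUnion (fun x : FreyTors P => asmCoords P x.1), fun σ hσ x => ?_⟩
  apply Subtype.ext
  rw [asm_coe_smul]
  refine asm_smul_eq_of_fix P σ x.1 (fun a ha => hσ a ?_)
  exact Finset.mem_biUnion.mpr ⟨x, Finset.mem_univ _, ha⟩

end Groups

section Main

variable (P : FreyPackage)

/-- Unipotent inertia at `2` lies in `H₁` and `H₂`. -/
theorem asm_unipotent_mem (N : Submodule (ZMod P.p) (FreyTors P)) (hN : IsGaloisStable ℚ N)
    {v : FreyTors P} (hvN : v ∈ N) (hv0 : v ≠ 0) (hv : ∀ w ∈ N, ∃ c : ZMod P.p, w = c • v)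
    (hquot : ∀ u : FreyTors P, u ∉ N → ∀ w : FreyTors P, ∃ c : ZMod P.p, w - c • u ∈ N)
    (h1 : N ≠ ⊤) (σ : GalQ) (hσ : ∀ x : FreyTors P, σ • (σ • x - x) = σ • x - x) :
    σ ∈ asmH1 P N ∧ σ ∈ asmH2 P N hN := by
  have : Fact P.p.Prime := ⟨P.pp⟩
  -- σ fixes the generator of `N`
  have hσv : σ • v = v := by
    obtain ⟨c, hc⟩ := hv (σ • v) (hN σ v hvN)
    have h2 := hσ v
    rw [hc] at h2
    have e1 : c • v - v = (c - 1) • v := by rw [sub_smul, one_smul]
    rw [e1, asm_smul_zmod, hc, smul_smul] at h2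
    have h3 : ((c - 1) * c - (c - 1)) • v = 0 := by rw [sub_smul, h2, sub_self]
    have h4 : (c - 1) * c - (c - 1) = (c - 1) ^ 2 := by ring
    rw [h4] at h3
    rcases smul_eq_zero.mp h3 with h5 | h5
    · have hc1 : c = 1 := by
        have := pow_eq_zero_iff (two_ne_zero) |>.mp h5
        exact sub_eq_zero.mp this
      rw [hc, hc1, one_smul]
    · exact absurd h5 hv0
  have hσN : ∀ x ∈ N, σ • x = x := by
    intro x hx
    obtain ⟨c, rfl⟩ := hv x hx
    rw [asm_smul_zmod, hσv]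
  refine ⟨hσN, ?_⟩
  -- choose `u ∉ N`
  obtain ⟨u, hu⟩ : ∃ u : FreyTors P, u ∉ N := by
    by_contra hall
    push Not at hall
    exact h1 (eq_top_iff.mpr fun x _ => hall x)
  have hσu : σ • u - u ∈ N := by
    obtain ⟨c, hc⟩ := hquot u hu (σ • u)
    set n := σ • u - c • u with hn
    have hσn : σ • n = n := hσN n hc
    have e0 : σ • u = c • u + n := by rw [hn]; abel
    have h2 := hσ u
    have e1 : σ • u - u = (c - 1) • u + n := by rw [e0, sub_smul, one_smul]; abel
    rw [e1, smul_add, asm_smul_zmod, hσn, e0, smul_add, smul_smul] at h2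
    -- h2 : ((c-1)*c) • u + (c-1) • n + n = (c-1) • u + n
    have h3 : ((c - 1) ^ 2) • u = -((c - 1) • n) := by
      have h4 : ((c - 1) ^ 2) • u = ((c - 1) * c) • u - (c - 1) • u := by
        rw [← sub_smul]; congr 1; ring
      rw [h4]
      have h5 : ((c - 1) * c) • u = (c - 1) • u + n - ((c - 1) • n + n) := by
        rw [← h2]; abel
      rw [h5]; abel
    by_cases hc1 : c = 1
    · rw [e1, hc1, sub_self, zero_smul, zero_add]; exact hc
    · exfalso
      have hne : (c - 1) ^ 2 ≠ 0 := pow_ne_zero 2 (sub_ne_zero.mpr hc1)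
      have h6 : ((c - 1) ^ 2) • u ∈ N := by
        rw [h3]; exact N.neg_mem (N.smul_mem _ hc)
      have h7 : u = ((c - 1) ^ 2)⁻¹ • (((c - 1) ^ 2) • u) := by
        rw [smul_smul, inv_mul_cancel₀ hne, one_smul]
      exact hu (h7 ▸ N.smul_mem _ h6)
  intro w
  obtain ⟨c', hc'⟩ := hquot u hu w
  obtain ⟨n', hn'N, e⟩ : ∃ n' ∈ N, w = c' • u + n' := ⟨w - c' • u, hc', by abel⟩
  have : σ • w - w = c' • (σ • u - u) + (σ • n' - n') := by
    rw [e, smul_add, asm_smul_zmod, smul_sub]; abel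
  rw [this, hσN n' hn'N, sub_self, add_zero]
  exact N.smul_mem _ hσu

/-- At `p`: the inertia group at `A` lies in `H₁` or in `H₂`. -/
theorem asm_at_p (hRedP : IfRedP P) (hP2 : IfP2 P) (N : Submodule (ZMod P.p) (FreyTors P))
    (hN : IsGaloisStable ℚ N) (h0 : N ≠ ⊥) (h1 : N ≠ ⊤)
    {v : FreyTors P} (hvN : v ∈ N) (hv : ∀ w ∈ N, ∃ c : ZMod P.p, w = c • v)
    (hquot : ∀ u : FreyTors P, u ∉ N → ∀ w : FreyTors P, ∃ c : ZMod P.p, w - c • u ∈ N)
    (A : ValuationSubring Qbar) (hA : A.LiesOverPrime P.p) :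
    A.inertiaSubgroupIn ℚ ≤ asmH1 P N ∨ A.inertiaSubgroupIn ℚ ≤ asmH2 P N hN := by
  have : Fact P.p.Prime := ⟨P.pp⟩
  have hred : ∀ σ ∈ A.inertiaSubgroupIn ℚ, ∀ x : FreyTors P,
      Fermat.Agent.S05.InE1 A ((σ • x - x : FreyTors P) : FreyPt P) :=
    fun σ hσ x => hRedP A hA σ hσ x.1 (asm_torsion P x)
  by_cases hv1 : Fermat.Agent.S05.InE1 A (v : FreyPt P)
  · right
    obtain ⟨x₀, hx₀⟩ := hP2 A hA N hN h0 h1
    have hV1 : ∀ w : FreyTors P, Fermat.Agent.S05.InE1 A (w : FreyPt P) → w ∈ N := by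
      intro w hw
      by_contra hwN
      obtain ⟨c, hc⟩ := hquot w hwN x₀
      obtain ⟨c', hc'⟩ := hv _ hc
      apply hx₀
      have e : x₀ = c' • v + c • w := by rw [← hc']; abel
      rw [e]
      exact asm_inE1_add P A (asm_inE1_zmod_smul P A c' hv1) (asm_inE1_zmod_smul P A c hw)
    intro σ hσ x
    exact hV1 _ (hred σ hσ x)
  · left
    intro σ hσ x hx
    have hσv : σ • v = v := by
      obtain ⟨c, hc⟩ := hv (σ • v - v) (N.sub_mem (hN σ v hvN) hvN)
      have h2 := hred σ hσ v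
      rw [hc] at h2
      by_cases hc0 : c = 0
      · rw [hc0, zero_smul] at hc
        exact sub_eq_zero.mp hc
      · exfalso
        apply hv1
        have e : v = c⁻¹ • (c • v) := by rw [smul_smul, inv_mul_cancel₀ hc0, one_smul]
        rw [e]
        exact asm_inE1_zmod_smul P A c⁻¹ h2
    obtain ⟨c, rfl⟩ := hv x hx
    rw [asm_smul_zmod, hσv]

/-- **S13 from the interfaces.** -/
theorem s13_of_interfaces (hM : IfM) (hLoc2 : IfLoc2 P) (hR : IfR P) (hP2 : IfP2 P)
    (hRedP : IfRedP P)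
    (hred : ¬ GaloisRepIsIrreducible (K := AlgebraicClosure ℚ) ℚ P.freyCurve P.p) :
    HasGaloisStableCofixedLine (K := AlgebraicClosure ℚ) ℚ P.freyCurve P.p := by
  have : Fact P.p.Prime := ⟨P.pp⟩
  have hp2 : 2 ≤ P.p := P.pp.two_le
  have hΔ := freyCurve_Δ_ne_zero P
  have hnt : Nontrivial (FreyTors P) := T_nontrivial_torsion P.freyCurve hΔ P.p hp2
  obtain ⟨hfin, hcard⟩ := T_card_torsion_lt (P.freyCurve⁄Qbar)
    (Fermat.Agent.S51.A_baseChange_Δ_ne_zero _ hΔ) P.p hp2
  unfold GaloisRepIsIrreducible at hred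
  push Not at hred
  obtain ⟨N, hN, h0, h1⟩ := hred hnt
  obtain ⟨⟨v, hvN, hv0, hv⟩, hquot⟩ := asm_line_data hcard N h0 h1
  obtain ⟨Ap, hAp⟩ := Fermat.Agent.S54.exists_liesOverPrime P.pp
  obtain ⟨s, hs⟩ := asm_exists_finset P
  have hother : ∀ q : ℕ, q.Prime → q ≠ P.p → ∃ A : ValuationSubring Qbar,
      A.LiesOverPrime q ∧ A.inertiaSubgroupIn ℚ ≤ asmH1 P N ∧
        A.inertiaSubgroupIn ℚ ≤ asmH2 P N hN := by
    intro q hq hqp
    obtain ⟨A, hA⟩ := Fermat.Agent.S54.exists_liesOverPrime hq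
    refine ⟨A, hA, ?_⟩
    by_cases hq2 : q = 2
    · subst hq2
      have key : ∀ σ ∈ A.inertiaSubgroupIn ℚ, σ ∈ asmH1 P N ∧ σ ∈ asmH2 P N hN :=
        fun σ hσ => asm_unipotent_mem P N hN hvN hv0 hv hquot h1 σ
          (fun x => Subtype.ext (hLoc2 A hA σ hσ x.1 (asm_torsion P x)))
      exact ⟨fun σ hσ => (key σ hσ).1, fun σ hσ => (key σ hσ).2⟩
    · have hunr := Fermat.Agent.S05.result P hq hq2 hqp
      have key : ∀ σ ∈ A.inertiaSubgroupIn ℚ, ∀ x : FreyTors P, σ • x = x :=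
        fun σ hσ x => hunr A hA σ hσ x
      refine ⟨fun σ hσ x _ => key σ hσ x, fun σ hσ x => ?_⟩
      rw [key σ hσ x, sub_self]
      exact N.zero_mem
  rcases asm_at_p P hRedP hP2 N hN h0 h1 hvN hv hquot Ap hAp with hp1 | hp1
  · have htop : asmH1 P N = ⊤ := by
      refine hM _ (asmH1_normal P N hN) ⟨s, fun σ hσ x _ => hs σ hσ x⟩ (fun q hq => ?_)
      by_cases hqp : q = P.p
      · rw [hqp]; exact ⟨Ap, hAp, hp1⟩
      · obtain ⟨A, hA, h1', -⟩ := hother q hq hqp
        exact ⟨A, hA, h1'⟩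
    exfalso
    have hfix : ∀ σ : GalQ, σ • (v : FreyPt P) = v := fun σ => by
      have hmem : σ ∈ asmH1 P N := htop ▸ Subgroup.mem_top σ
      exact congrArg Subtype.val (hmem v hvN)
    exact hv0 (Subtype.ext (hR v.1 (asm_torsion P v) hfix))
  · have htop : asmH2 P N hN = ⊤ := by
      refine hM _ (asmH2_normal P N hN) ⟨s, fun σ hσ x => ?_⟩ (fun q hq => ?_)
      · rw [hs σ hσ x, sub_self]
        exact N.zero_mem
      · by_cases hqp : q = P.p
        · rw [hqp]; exact ⟨Ap, hAp, hp1⟩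
        · obtain ⟨A, hA, -, h2'⟩ := hother q hq hqp
          exact ⟨A, hA, h2'⟩
    refine ⟨N, hN, h0, h1, fun σ x => ?_⟩
    have hmem : σ ∈ asmH2 P N hN := htop ▸ Subgroup.mem_top σ
    exact hmem x

end Main

end Fermat.Agent.S13
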