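import Mathlib
import Fermat.Agent.S13.Defs
import Fermat.Agent.S13.H4AtP
import Fermat.Agent.S05.Bridge81

/-!
# S13, work packages L3 + L4: inertia at `p` moves `E[p]` into the kernel of reduction (helper4)

`ifRedP : IfRedP P` for every Frey package `P`: at a place `A` over `p`, for `σ` in the inertia
group and `Q` a `p`-torsion point of the Frey curve, `σ Q - Q` lies in the kernel of reduction
(in the coordinates of the Frey model itself).

The proof is the case split of `S05/Bridge81` (`p ∣ a`, `p ∣ b`, `p ∣ c`, `p ∤ abc`) applied to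
the local statements of `S13/H4AtP` (which do not need the torsion order to be a unit) and a
transfer along the variable changes `freyVC`, `freyVCC`, which have integral `u` and `r`.
-/

set_option autoImplicit false
set_option linter.unusedSectionVars false

namespace Fermat.Agent.S13

open WeierstrassCurve WeierstrassCurve.Affine.Point Fermat.Agent.S05

local notation "Qbar" => AlgebraicClosure ℚ

/-- Membership in the kernel of reduction descends along a variable change with integral
`u` and `r`: if the image point has non-integral `x`-coordinate, so has the point. -/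
theorem h4_inE1_of_vcPointBC (A : ValuationSubring Qbar) (W'' : WeierstrassCurve ℚ)
    (C' : VariableChange ℚ) (hu : algebraMap ℚ Qbar (C'.u : ℚ) ∈ A)
    (hr : algebraMap ℚ Qbar C'.r ∈ A)
    (R : ((C' • W'').baseChange Qbar).toAffine.Point)
    (h : InE1 A (vcPointBC (K := Qbar) W'' C' R)) : InE1 A R := by
  rcases R with _ | ⟨x, y, hxy⟩
  · exact Or.inl rfl
  · obtain ⟨h', e⟩ := vcPointBC_some W'' C' hxy
    rw [e, inE1_some] at h
    refine (inE1_some A hxy).2 ?_
    intro hx
    apply h
    have e2 : vcX (C'.baseChange Qbar) x =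
        (algebraMap ℚ Qbar (C'.u : ℚ)) ^ 2 * x + algebraMap ℚ Qbar C'.r := by
      simp only [vcX, VariableChange.baseChange, VariableChange.map, Units.coe_map,
        MonoidHom.coe_coe]
    rw [e2]
    exact A.add_mem _ _ (A.mul_mem _ _ (pow_mem hu 2) hx) hr

/-- Transfer of "`σ Q - Q` lies in the kernel of reduction for all `n`-torsion points `Q`" from
a model `W''` to `W = C' • W''`, for a variable change with integral `u` and `r`. -/
theorem h4_inertia_sub_inE1_of_model {A : ValuationSubring Qbar} {W W'' : WeierstrassCurve ℚ}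
    (C' : VariableChange ℚ) (hW : W = C' • W'') (hu : algebraMap ℚ Qbar (C'.u : ℚ) ∈ A)
    (hr : algebraMap ℚ Qbar C'.r ∈ A) {n : ℤ} {σ : Qbar ≃ₐ[ℚ] Qbar}
    (h : ∀ Q'' : (W''.baseChange Qbar).toAffine.Point, n • Q'' = 0 → InE1 A (σ • Q'' - Q''))
    (Q : (W.baseChange Qbar).toAffine.Point) (hQ : n • Q = 0) : InE1 A (σ • Q - Q) := by
  subst hW
  apply h4_inE1_of_vcPointBC A W'' C' hu hr
  rw [map_sub]
  have e : vcPointBC W'' C' (σ • Q) = σ • vcPointBC W'' C' Q :=
    vcPointBC_map W'' C' σ.toAlgHom Q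
  rw [e]
  apply h
  rw [← map_zsmul, hQ]
  exact vcPointBC_zero W'' C'

/-- **S13, work packages L3 + L4.**  At a place `A` over `p`, inertia moves every `p`-torsion
point of the Frey curve by an element of the kernel of reduction. -/
theorem ifRedP (P : FreyPackage) : IfRedP P := by
  intro A hA σ hσ Q hQ
  have hAq : ((P.p : ℕ) : Qbar) ∈ A.nonunits := hA
  have hq : P.p.Prime := P.pp
  have hq2 : P.p ≠ 2 := by have := P.hp5; omega
  have h2 : IsUnitOf A (2 : Qbar) := two_isUnitOf hq hAq hq2
  have hu : algebraMap ℚ Qbar ((freyVC.u : ℚˣ) : ℚ) ∈ A := by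
    have : ((freyVC.u : ℚˣ) : ℚ) = 2 := rfl
    rw [this, map_ofNat]
    exact h2.mem A
  have huC : algebraMap ℚ Qbar (((freyVCC P).u : ℚˣ) : ℚ) ∈ A := by
    have : (((freyVCC P).u : ℚˣ) : ℚ) = 2 := rfl
    rw [this, map_ofNat]
    exact h2.mem A
  have hr : algebraMap ℚ Qbar freyVC.r ∈ A := by
    have : freyVC.r = 0 := rfl
    rw [this, _root_.map_zero]
    exact A.zero_mem
  have hrC : algebraMap ℚ Qbar (freyVCC P).r ∈ A := by
    have : (freyVCC P).r = -(P.a : ℚ) ^ P.p := rfl
    rw [this, map_neg, map_pow, algebraMap_intCast]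
    exact A.neg_mem _ (pow_mem (_root_.intCast_mem A P.a) _)
  have hnodal : ∀ W'' : WeierstrassCurve ℚ, IsShortNodal A P.p W'' →
      ∀ Q'' : (W''.baseChange Qbar).toAffine.Point, (P.p : ℤ) • Q'' = 0 →
        InE1 A (σ • Q'' - Q'') := by
    intro W'' hW'' Q'' hQ''
    refine h4_inertia_sub_inE1_of_isShortNodal P.hp_odd h2 hW'' hσ Q'' ?_
    rwa [natCast_zsmul] at hQ''
  by_cases ha : (P.p : ℤ) ∣ P.a
  · exact h4_inertia_sub_inE1_of_model freyVC (freyCurve_eq_smul_short P) hu hr
      (hnodal _ (freyShort_isShortNodal_of_dvd_a P hq hAq ha)) Q hQ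
  by_cases hb : (P.p : ℤ) ∣ P.b
  · exact h4_inertia_sub_inE1_of_model freyVC (freyCurve_eq_smul_short P) hu hr
      (hnodal _ (freyShort_isShortNodal_of_dvd_b P hq hAq hb)) Q hQ
  by_cases hc : (P.p : ℤ) ∣ P.c
  · exact h4_inertia_sub_inE1_of_model (freyVCC P) (freyCurve_eq_smul_shortC P) huC hrC
      (hnodal _ (freyShortC_isShortNodal_of_dvd_c P hq hAq hc)) Q hQ
  · exact h4_inertia_sub_inE1_of_model freyVC (freyCurve_eq_smul_short P) hu hr
      (fun Q'' _ => h4_inertia_sub_inE1_of_isGoodModel
        (freyShort_isGoodModel P hq hAq hq2 ha hb hc) hσ Q'') Q hQ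

end Fermat.Agent.S13
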