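import Fermat.Agent.S13.Defs
import Fermat.Agent.S13.Skeleton
import Fermat.Agent.S13.L2Frey
import Fermat.Agent.S05.H86SameRed
import Fermat.Agent.S54.FrobValuation

/-!
# S13 module L2, part 4 (helper76): the Frey curve has no rational `p`-torsion

Work at a place `A` of `Qbar` over `2`, where the Frey model is nodal with
`v(a₄) = v(2) ^ (p · v₂(b) - 4)`.

* a rational point has `v(x) ∈ v(2)^ℤ`, so the component map `ht` (additive modulo
  `v(a₄)^(2ℤ)`) forces a rational `p`-torsion point into the identity component;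
* the kernel of reduction has no `p`-torsion, so the point has a unit `x`-coordinate;
* the nonsingular part of the reduction has at most `2` rational affine points with unit
  `x`-coordinate (`x ≡ 1`, `y ≡ 0, 1`), which are exchanged by negation; hence `2Q ≡ ±Q`,
  i.e. `Q` or `3Q` lies in the kernel of reduction.
-/

set_option autoImplicit false
set_option linter.unusedSectionVars false

namespace Fermat.Agent.S13.L2

open WeierstrassCurve Fermat.Agent.S05 Fermat.Agent.S05.H76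
open scoped WeierstrassCurve.Affine

local notation "Qbar" => AlgebraicClosure ℚ

section TwoAdic

variable {K : Type*} [Field K] [CharZero K] (A : ValuationSubring K)

/-- The valuation of a nonzero integer is a power of the valuation of `2`. -/
theorem val_intCast_two_pow (hA2 : ((2 : ℕ) : K) ∈ A.nonunits) {n : ℤ} (hn : n ≠ 0) :
    ∃ e : ℕ, ∃ c : ℤ, n = 2 ^ e * c ∧ ¬ (2 : ℤ) ∣ c ∧
      A.valuation (n : K) = A.valuation 2 ^ e := by
  have hfin : FiniteMultiplicity (2 : ℤ) n := Int.finiteMultiplicity_iff.mpr ⟨by decide, hn⟩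
  obtain ⟨c, hc, hndvd⟩ := hfin.exists_eq_pow_mul_and_not_dvd
  refine ⟨multiplicity 2 n, c, hc, hndvd, ?_⟩
  have hu : A.valuation (c : K) = 1 :=
    intCast_isUnitOf_of_not_dvd Nat.prime_two hA2 (by exact_mod_cast hndvd)
  have h1 : (n : K) = (2 : K) ^ (multiplicity 2 n) * (c : K) := by
    conv_lhs => rw [hc]
    push_cast; ring
  rw [h1, map_mul, map_pow, hu, mul_one]

theorem val_two_ne_zero : A.valuation (2 : K) ≠ 0 :=
  (A.valuation.ne_zero_iff).mpr two_ne_zero

theorem val_two_lt_one (hA2 : ((2 : ℕ) : K) ∈ A.nonunits) : A.valuation (2 : K) < 1 := by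
  have := A.mem_nonunits_iff.mp hA2
  simpa using this

/-- The valuation of a nonzero rational number is an integral power of the valuation of `2`. -/
theorem val_ratCast_two_zpow (hA2 : ((2 : ℕ) : K) ∈ A.nonunits) {z : ℚ} (hz : z ≠ 0) :
    ∃ k : ℤ, A.valuation (z : K) = A.valuation 2 ^ k := by
  obtain ⟨e₁, -, -, -, h₁⟩ := val_intCast_two_pow A hA2 (Rat.num_ne_zero.mpr hz)
  obtain ⟨e₂, -, -, -, h₂⟩ := val_intCast_two_pow A hA2
    (show (z.den : ℤ) ≠ 0 from by exact_mod_cast z.den_ne_zero)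
  refine ⟨(e₁ : ℤ) - e₂, ?_⟩
  have h2 : ((z.den : ℤ) : K) = (z.den : K) := by push_cast; rfl
  rw [Rat.cast_def, map_div₀, h₁, ← h2, h₂, zpow_sub₀ (val_two_ne_zero A), zpow_natCast,
    zpow_natCast]

/-- A rational number in `A` (over `2`) is congruent to `0` or to `1` modulo the maximal
ideal. -/
theorem rat_nonunit_or (hA2 : ((2 : ℕ) : K) ∈ A.nonunits) (z : ℚ) (hz : (z : K) ∈ A) :
    (z : K) ∈ A.nonunits ∨ (z : K) - 1 ∈ A.nonunits := by
  have hden0 : ((z.den : ℤ) : K) ≠ 0 := by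
    have := z.den_ne_zero
    exact_mod_cast this
  have hzv := (A.valuation_le_one_iff _).mpr hz
  have hcast : (z : K) = ((z.num : ℤ) : K) / ((z.den : ℤ) : K) := by
    rw [Rat.cast_def]; push_cast; rfl
  by_cases hd : (2 : ℤ) ∣ (z.den : ℤ)
  · exfalso
    have hn : ¬ (2 : ℤ) ∣ z.num := by
      intro hn
      have h1 : (2 : ℕ) ∣ z.num.natAbs := by
        have := Int.natAbs_dvd_natAbs.mpr hn
        simpa using this
      have h2 : (2 : ℕ) ∣ z.den := by exact_mod_cast hd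
      have h3 := Nat.dvd_gcd h1 h2
      rw [z.reduced] at h3
      omega
    have hnu : A.valuation ((z.num : ℤ) : K) = 1 :=
      intCast_isUnitOf_of_not_dvd Nat.prime_two hA2 (by exact_mod_cast hn)
    have hdn : A.valuation ((z.den : ℤ) : K) < 1 :=
      A.mem_nonunits_iff.mp (intCast_nonunit_of_dvd hA2 (by exact_mod_cast hd))
    have hd0 : A.valuation ((z.den : ℤ) : K) ≠ 0 := (A.valuation.ne_zero_iff).mpr hden0
    rw [hcast, map_div₀, hnu, div_le_iff₀ (zero_lt_iff.mpr hd0), one_mul] at hzv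
    exact absurd hdn (not_lt.mpr hzv)
  · have hdu : A.valuation ((z.den : ℤ) : K) = 1 :=
      intCast_isUnitOf_of_not_dvd Nat.prime_two hA2 (by exact_mod_cast hd)
    by_cases hn : (2 : ℤ) ∣ z.num
    · left
      rw [A.mem_nonunits_iff, hcast, map_div₀, hdu, div_one]
      exact A.mem_nonunits_iff.mp (intCast_nonunit_of_dvd hA2 (by exact_mod_cast hn))
    · right
      have h1 : (z : K) - 1 = ((z.num - z.den : ℤ) : K) / ((z.den : ℤ) : K) := by
        rw [hcast]; push_cast; field_simp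
      have h2 : (2 : ℤ) ∣ z.num - z.den := by omega
      rw [A.mem_nonunits_iff, h1, map_div₀, hdu, div_one]
      exact A.mem_nonunits_iff.mp (intCast_nonunit_of_dvd hA2 (by exact_mod_cast h2))

end TwoAdic

section Arith

/-- The arithmetic behind "the component group at `2` has order prime to `p`". -/
theorem no_component_sol {p : ℕ} (hp : p.Prime) (hp2 : p ≠ 2) {m k j : ℤ}
    (hpm : ¬ (p : ℤ) ∣ m) (hk0 : 0 < k) (hkm : k < m)
    (h : k * p + 2 * m * j = 0 ∨ -k * p + 2 * m * j = 0) : False := by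
  have hpI : Prime (p : ℤ) := Nat.prime_iff_prime_int.mp hp
  have hp0 : (p : ℤ) ≠ 0 := by exact_mod_cast hp.ne_zero
  have hdvd : (p : ℤ) ∣ 2 * m * j := by
    rcases h with h | h
    · exact ⟨-k, by linear_combination h⟩
    · exact ⟨k, by linear_combination h⟩
  have hp2' : ¬ (p : ℤ) ∣ 2 := by
    intro h2
    have h3 : p ∣ 2 := by exact_mod_cast h2
    rcases (Nat.dvd_prime Nat.prime_two).mp h3 with h4 | h4
    · exact hp.one_lt.ne' h4
    · exact hp2 h4
  have hj : (p : ℤ) ∣ j := by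
    rcases hpI.dvd_or_dvd hdvd with h1 | h1
    · rcases hpI.dvd_or_dvd h1 with h2 | h2
      · exact absurd h2 hp2'
      · exact absurd h2 hpm
    · exact h1
  obtain ⟨j', rfl⟩ := hj
  have hm0 : 0 < m := lt_trans hk0 hkm
  rcases h with h | h
  · have h1 : k = -(2 * m * j') := by
      apply mul_right_cancel₀ hp0
      linear_combination h
    rcases lt_trichotomy j' 0 with hj' | hj' | hj'
    · nlinarith
    · subst hj'; omega
    · nlinarith
  · have h1 : k = 2 * m * j' := by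
      apply mul_right_cancel₀ hp0
      linear_combination -h
    rcases lt_trichotomy j' 0 with hj' | hj' | hj'
    · nlinarith
    · subst hj'; omega
    · nlinarith

end Arith

section Component

variable {K : Type*} [Field K] [DecidableEq K] {Γ₀ : Type*} [LinearOrderedCommGroupWithZero Γ₀]
  {v : Valuation K Γ₀} {W : WeierstrassCurve K} {r₁ r₂ : K}

/-- If `v(a₄) = π ^ m` with `p ∤ m` and `v(x) ∈ π ^ ℤ ∪ {0}`, then a `p`-torsion point
`(x, y)` lies in the identity component: `1 ≤ v(x)`. -/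
theorem torsion_typeZ_of_zpow (hV : NodalVal v W r₁ r₂) {π : Γ₀} (hπ0 : π ≠ 0) (hπ1 : π < 1)
    {m : ℤ} (hgm : v W.a₄ = π ^ m) {p : ℕ} (hp : p.Prime) (hp2 : p ≠ 2)
    (hpm : ¬ (p : ℤ) ∣ m) {x y : K} (h : W.toAffine.Nonsingular x y)
    (hx : x = 0 ∨ ∃ k : ℤ, v x = π ^ k)
    (hQ : p • (Affine.Point.some x y h : W.toAffine.Point) = 0) : 1 ≤ v x := by
  by_contra hx1
  push Not at hx1
  have hg : v W.a₄ ≠ 0 := (v.ne_zero_iff).mpr hV.hw0
  obtain ⟨j, hj⟩ := ht_nsmul hV (Affine.Point.some x y h) p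
  rw [hQ, ht_zero] at hj
  have hodd : Odd p := hp.odd_of_ne_two hp2
  by_cases h2 : v x ≤ v W.a₄
  · rw [ht_M v W r₁ h hV.hw h2, ← zpow_natCast, ← zpow_natCast, ← zpow_mul,
      ← zpow_add₀ hg] at hj
    have h5 := (zpow_eq_one_iff_right₀ zero_le (ne_of_lt hV.hw)).mp hj.symm
    obtain ⟨k, hk⟩ := hodd
    omega
  · push Not at h2
    have hx0 : x ≠ 0 := by
      rintro rfl
      rw [map_zero] at h2
      exact not_lt_zero h2
    obtain ⟨k, hk⟩ := hx.resolve_left hx0
    have hinj := zpow_right_injective₀ (zero_lt_iff.mpr hπ0) (ne_of_lt hπ1)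
    have hk0 : 0 < k := by
      by_contra hk0
      push Not at hk0
      have : (1 : Γ₀) ≤ π ^ k := by
        rcases hk0.lt_or_eq with hlt | heq
        · exact (one_lt_zpow_of_neg₀ (zero_lt_iff.mpr hπ0) hπ1 hlt).le
        · rw [heq, zpow_zero]
      rw [← hk] at this
      exact absurd hx1 (not_lt.mpr this)
    have hkm : k < m := by
      by_contra hkm
      push Not at hkm
      have : π ^ k ≤ π ^ m := by
        rcases hkm.lt_or_eq with hlt | heq
        · exact (zpow_lt_zpow_right_of_lt_one₀ (zero_lt_iff.mpr hπ0) hπ1 hlt).le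
        · rw [heq]
      rw [← hk, ← hgm] at this
      exact absurd h2 (not_lt.mpr this)
    apply no_component_sol hp hp2 hpm hk0 hkm (j := j)
    by_cases h3 : v (y - r₁ * x) < v x
    · left
      rw [ht_plus v W r₁ h hx1 h2 h3, hgm, hk, ← zpow_natCast, ← zpow_natCast, ← zpow_mul,
        ← zpow_mul, ← zpow_mul, ← zpow_add₀ hπ0] at hj
      have := hinj (a₁ := 0) (a₂ := k * (p : ℤ) + m * (2 * j))
        (by simpa using hj)
      linear_combination -this
    · right
      have hht : ht v W r₁ (.some x y h) = (v x)⁻¹ := by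
        simp only [ht, if_neg (not_le.mpr hx1), if_neg (not_le.mpr h2), if_neg h3]
      rw [hht, hgm, hk, ← zpow_neg, ← zpow_natCast, ← zpow_natCast, ← zpow_mul,
        ← zpow_mul, ← zpow_mul, ← zpow_add₀ hπ0] at hj
      have := hinj (a₁ := 0) (a₂ := -(k * (p : ℤ)) + m * (2 * j))
        (by simpa using hj)
      linear_combination -this

end Component

section Group

theorem eq_zero_of_coprime_nsmul {G : Type*} [AddGroup G] {Q : G} {m n : ℕ}
    (h : Nat.Coprime m n) (hm : m • Q = 0) (hn : n • Q = 0) : Q = 0 := by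
  have h1 := addOrderOf_dvd_of_nsmul_eq_zero hm
  have h2 := addOrderOf_dvd_of_nsmul_eq_zero hn
  have h3 := Nat.dvd_gcd h1 h2
  rw [h] at h3
  exact AddMonoid.addOrderOf_eq_one_iff.mp (Nat.dvd_one.mp h3)

end Group

section Rational

/-- A Galois-fixed affine point has rational coordinates. -/
theorem fixed_point_rational (W : WeierstrassCurve ℚ) {x y : Qbar}
    (h : (W⁄Qbar).Nonsingular x y)
    (hfix : ∀ σ : Qbar ≃ₐ[ℚ] Qbar,
      σ • (Affine.Point.some x y h : (W⁄Qbar).Point) = Affine.Point.some x y h) :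
    (∃ a : ℚ, x = (a : Qbar)) ∧ ∃ b : ℚ, y = (b : Qbar) := by
  have : IsAlgClosure ℚ Qbar := ⟨inferInstance, AlgebraicClosure.isAlgebraic ℚ⟩
  have : IsGalois ℚ Qbar := IsAlgClosure.isGalois ℚ Qbar
  have hxy : ∀ σ : Qbar ≃ₐ[ℚ] Qbar, σ x = x ∧ σ y = y := by
    intro σ
    obtain ⟨h', hs⟩ := smul_some (S := ℚ) W σ h
    have := hfix σ
    rw [hs] at this
    simpa using this
  obtain ⟨a, ha⟩ := (InfiniteGalois.mem_range_algebraMap_iff_fixed (k := ℚ) (K := Qbar) x).mpr
    (fun σ => (hxy σ).1)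
  obtain ⟨b, hb⟩ := (InfiniteGalois.mem_range_algebraMap_iff_fixed (k := ℚ) (K := Qbar) y).mpr
    (fun σ => (hxy σ).2)
  exact ⟨⟨a, by rw [← ha, eq_ratCast]⟩, ⟨b, by rw [← hb, eq_ratCast]⟩⟩

theorem galois_smul_nsmul (W : WeierstrassCurve ℚ) (σ : Qbar ≃ₐ[ℚ] Qbar) (n : ℕ)
    (Q : (W⁄Qbar).Point) : σ • (n • Q) = n • (σ • Q) := by
  have := WeierstrassCurve.Affine.Point.algEquiv_smul_zsmul (W' := W) σ (n : ℤ) Q
  rwa [natCast_zsmul, natCast_zsmul] at this

end Rational

section FreyTwo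

variable (P : FreyPackage) (A : ValuationSubring Qbar)

/-- `v(a₄) = v(2) ^ m` with `m = p · v₂(b) - 4` prime to `p`. -/
theorem frey_val_a₄_two (hA : A.LiesOverPrime 2) :
    ∃ m : ℤ, A.valuation (P.freyCurve⁄Qbar).a₄ = A.valuation (2 : Qbar) ^ m ∧
      ¬ (P.p : ℤ) ∣ m := by
  have hA2 : ((2 : ℕ) : Qbar) ∈ A.nonunits := hA
  obtain ⟨n₄, hn₄, -, hn₄0, h16⟩ := frey_a₄_int P
  have e₄ := frey_baseChange_a₄ P hn₄
  obtain ⟨e, b₁, hb, hb₁, -⟩ := val_intCast_two_pow A hA2 P.hb0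
  have hau : A.valuation ((P.a : ℤ) : Qbar) = 1 :=
    intCast_isUnitOf_of_not_dvd Nat.prime_two hA2 (by exact_mod_cast frey_not_two_dvd_a P)
  have hbu : A.valuation ((b₁ : ℤ) : Qbar) = 1 :=
    intCast_isUnitOf_of_not_dvd Nat.prime_two hA2 (by exact_mod_cast hb₁)
  have h2 := val_two_ne_zero A
  refine ⟨(e : ℤ) * P.p - 4, ?_, ?_⟩
  · have hcast : (16 : Qbar) * (n₄ : Qbar) =
        -((P.a : Qbar) ^ P.p * ((2 : Qbar) ^ e * (b₁ : Qbar)) ^ P.p) := by
      have h1 : (16 : ℤ) * n₄ = -(P.a ^ P.p * (2 ^ e * b₁) ^ P.p) := by rw [h16, ← hb]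
      exact_mod_cast h1
    have hv := congrArg A.valuation hcast
    have h16' : A.valuation (16 : Qbar) = A.valuation 2 ^ 4 := by
      rw [← map_pow]; norm_num
    rw [map_mul, Valuation.map_neg, map_mul, map_pow, map_pow, map_mul, map_pow, hau, hbu,
      one_pow, one_mul, mul_one, h16'] at hv
    rw [e₄, zpow_sub₀ h2, zpow_mul, zpow_natCast, zpow_natCast]
    apply eq_div_of_mul_eq (pow_ne_zero 4 h2)
    rw [mul_comm]
    exact hv
  · intro hdvd
    have h1 : (P.p : ℤ) ∣ (e : ℤ) * P.p := dvd_mul_left _ _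
    have h4 : (P.p : ℤ) ∣ 4 := by
      have := dvd_sub h1 hdvd
      simpa using this
    have h5 := Int.le_of_dvd (by norm_num) h4
    have := P.hp5
    omega

/-- The coefficients of a nodal model are integral. -/
theorem nodalVal_coeff_mem {W : WeierstrassCurve Qbar} {r₁ r₂ : Qbar}
    (hV : NodalVal A.valuation W r₁ r₂) :
    W.a₁ ∈ A ∧ W.a₂ ∈ A ∧ W.a₃ ∈ A ∧ W.a₄ ∈ A ∧ W.a₆ ∈ A := by
  have hr₁A : r₁ ∈ A := (A.valuation_le_one_iff _).mp hV.hr₁
  have hr₂A : r₂ ∈ A := (A.valuation_le_one_iff _).mp hV.hr₂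
  refine ⟨?_, ?_, ?_, (A.valuation_le_one_iff _).mp hV.hw.le, ?_⟩
  · rw [hV.model.a₁]; exact neg_mem (add_mem hr₁A hr₂A)
  · rw [hV.model.a₂]; exact neg_mem (mul_mem hr₁A hr₂A)
  · rw [hV.model.a₃]; exact zero_mem A
  · rw [hV.model.a₆]; exact zero_mem A

/-- The kernel of reduction at `2` contains no nonzero `p`-torsion point of the Frey curve. -/
theorem frey_kernel_two (hA : A.LiesOverPrime 2) {r₁ r₂ : Qbar}
    (hV : NodalVal A.valuation (P.freyCurve⁄Qbar) r₁ r₂)
    (R : (P.freyCurve⁄Qbar).Point)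
    (hR1 : R = 0 ∨ ∃ (x y : Qbar) (h : (P.freyCurve⁄Qbar).toAffine.Nonsingular x y),
      R = Affine.Point.some x y h ∧ x ∉ A)
    (hR : P.p • R = 0) : R = 0 := by
  obtain ⟨ha₁, ha₂, ha₃, ha₄, ha₆⟩ := nodalVal_coeff_mem A hV
  exact kernelTorsionFree A (W := (P.freyCurve⁄Qbar)) ha₁ ha₂ ha₃ ha₄ ha₆
    (frey_p_unit_two P A hA) R hR1 hR

/-- A nonzero rational `p`-torsion point of the Frey curve has, at a place over `2`, rational
coordinates `(a, b)` with `a` a unit and `b` integral. -/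
theorem frey_rational_torsion_unit (hA : A.LiesOverPrime 2) {r₁ r₂ : Qbar}
    (hV : NodalVal A.valuation (P.freyCurve⁄Qbar) r₁ r₂)
    (R : (P.freyCurve⁄Qbar).Point) (hR : P.p • R = 0)
    (hfix : ∀ σ : Qbar ≃ₐ[ℚ] Qbar, σ • R = R) (hR0 : R ≠ 0) :
    ∃ (a b : ℚ) (h : (P.freyCurve⁄Qbar).toAffine.Nonsingular (a : Qbar) (b : Qbar)),
      R = Affine.Point.some (a : Qbar) (b : Qbar) h ∧ A.valuation (a : Qbar) = 1 ∧
        (b : Qbar) ∈ A := by
  have hA2 : ((2 : ℕ) : Qbar) ∈ A.nonunits := hA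
  rcases R with _ | ⟨x, y, h⟩
  · exact absurd rfl hR0
  · obtain ⟨⟨a, rfl⟩, ⟨b, rfl⟩⟩ := fixed_point_rational P.freyCurve h hfix
    obtain ⟨m, hgm, hpm⟩ := frey_val_a₄_two P A hA
    have hp2 : P.p ≠ 2 := by have := P.hp5; omega
    have hx : (a : Qbar) = 0 ∨ ∃ k : ℤ, A.valuation (a : Qbar) = A.valuation (2 : Qbar) ^ k := by
      by_cases ha : a = 0
      · left; rw [ha, Rat.cast_zero]
      · right; exact val_ratCast_two_zpow A hA2 ha
    have h1 : 1 ≤ A.valuation (a : Qbar) :=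
      torsion_typeZ_of_zpow hV (val_two_ne_zero A) (val_two_lt_one A hA2) hgm P.pp hp2 hpm h hx hR
    have h2 : A.valuation (a : Qbar) ≤ 1 := by
      by_contra hcon
      have hxA : (a : Qbar) ∉ A := fun hx' => hcon ((A.valuation_le_one_iff _).mpr hx')
      exact Affine.Point.some_ne_zero h
        (frey_kernel_two P A hA hV _ (Or.inr ⟨_, _, h, rfl, hxA⟩) hR)
    have hav : A.valuation (a : Qbar) = 1 := le_antisymm h2 h1
    exact ⟨a, b, h, rfl, hav, (A.valuation_le_one_iff _).mp (v_y_le_one hV h.1 hav)⟩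

/-- **(M5)** The Frey curve has no nonzero rational `p`-torsion point. -/
theorem frey_no_rational_torsion (Q : (P.freyCurve⁄Qbar).Point) (hQ : (P.p : ℤ) • Q = 0)
    (hfix : ∀ σ : Qbar ≃ₐ[ℚ] Qbar, σ • Q = Q) : Q = 0 := by
  obtain ⟨A, hA2⟩ :=
    Fermat.Agent.S54.exists_valuationSubring_natCast_mem_nonunits (L := Qbar) Nat.prime_two
  have hA : A.LiesOverPrime 2 := hA2
  obtain ⟨r₁, r₂, hV⟩ := frey_nodalVal_two P A hA
  obtain ⟨ha₁, ha₂, ha₃, ha₄, ha₆⟩ := nodalVal_coeff_mem A hV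
  have hQ' : P.p • Q = 0 := by rwa [natCast_zsmul] at hQ
  have hp5 := P.hp5
  by_contra hQ0
  have h2Q0 : (2 : ℕ) • Q ≠ 0 := fun h0 =>
    hQ0 (eq_zero_of_coprime_nsmul (m := 2) (n := P.p)
      ((Nat.coprime_primes Nat.prime_two P.pp).mpr (by omega)) h0 hQ')
  have h2Qp : P.p • ((2 : ℕ) • Q) = 0 := by rw [smul_comm, hQ', nsmul_zero]
  have h2Qfix : ∀ σ : Qbar ≃ₐ[ℚ] Qbar, σ • ((2 : ℕ) • Q) = (2 : ℕ) • Q := fun σ => by
    rw [galois_smul_nsmul, hfix σ]
  obtain ⟨a, b, h, hQe, hav, hbA⟩ := frey_rational_torsion_unit P A hA hV Q hQ' hfix hQ0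
  obtain ⟨a', b', h', hQe', hav', hbA'⟩ :=
    frey_rational_torsion_unit P A hA hV _ h2Qp h2Qfix h2Q0
  have haA : (a : Qbar) ∈ A := (A.valuation_le_one_iff _).mp hav.le
  have haA' : (a' : Qbar) ∈ A := (A.valuation_le_one_iff _).mp hav'.le
  have h2lt := val_two_lt_one A hA2
  have ha1 : A.valuation ((a : Qbar) - 1) < 1 := by
    rcases rat_nonunit_or A hA2 a haA with h0 | h0
    · exact absurd (A.mem_nonunits_iff.mp h0) (by rw [hav]; exact lt_irrefl _)
    · exact A.mem_nonunits_iff.mp h0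
  have ha1' : A.valuation ((a' : Qbar) - 1) < 1 := by
    rcases rat_nonunit_or A hA2 a' haA' with h0 | h0
    · exact absurd (A.mem_nonunits_iff.mp h0) (by rw [hav']; exact lt_irrefl _)
    · exact A.mem_nonunits_iff.mp h0
  have hxx : (a' : Qbar) - a ∈ A.nonunits := by
    rw [A.mem_nonunits_iff]
    have e : (a' : Qbar) - a = ((a' : Qbar) - 1) - ((a : Qbar) - 1) := by ring
    rw [e]
    exact A.valuation.map_sub_lt ha1' ha1
  have hns := nodal_unit_nonsingular hV h'.1 hav'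
  have hns' : (P.freyCurve⁄Qbar).a₁ * (b' : Qbar) -
        (3 * (a' : Qbar) ^ 2 + 2 * (P.freyCurve⁄Qbar).a₂ * a' + (P.freyCurve⁄Qbar).a₄)
          ∉ A.nonunits ∨
      2 * (b' : Qbar) + (P.freyCurve⁄Qbar).a₁ * a' + (P.freyCurve⁄Qbar).a₃ ∉ A.nonunits := by
    by_contra hcon
    push Not at hcon
    exact hns ⟨A.mem_nonunits_iff.mp hcon.1, A.mem_nonunits_iff.mp hcon.2⟩
  have hbb : ((b' - b : ℚ) : Qbar) ∈ A := by rw [Rat.cast_sub]; exact sub_mem hbA' hbA
  rcases rat_nonunit_or A hA2 (b' - b) hbb with hy | hy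
  · -- `2Q` and `Q` have the same reduction
    rw [Rat.cast_sub] at hy
    have hsub := H86.sub_inE1_of_same_reduction (A := A) (W := (P.freyCurve⁄Qbar))
      ha₁ ha₂ ha₃ ha₄ h' h haA' hbA' haA hbA hxx hy hns'
    rw [← hQe', ← hQe] at hsub
    have h3 : (2 : ℕ) • Q - Q = Q := by rw [two_nsmul, add_sub_cancel_right]
    rw [h3] at hsub
    exact hQ0 (frey_kernel_two P A hA hV Q hsub hQ')
  · -- `2Q` and `-Q` have the same reduction
    rw [Rat.cast_sub] at hy
    have hnegns : (P.freyCurve⁄Qbar).toAffine.Nonsingular (a : Qbar)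
        ((P.freyCurve⁄Qbar).toAffine.negY a b) := (Affine.nonsingular_neg ..).mpr h
    have hnegY : (P.freyCurve⁄Qbar).toAffine.negY (a : Qbar) b = -(b : Qbar) - a := by
      rw [Affine.negY, frey_baseChange_a₁, frey_baseChange_a₃]; ring
    have hnegA : (P.freyCurve⁄Qbar).toAffine.negY (a : Qbar) b ∈ A := by
      rw [hnegY]; exact sub_mem (neg_mem hbA) haA
    have hyy : (b' : Qbar) - (P.freyCurve⁄Qbar).toAffine.negY (a : Qbar) b ∈ A.nonunits := by
      rw [A.mem_nonunits_iff, hnegY]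
      have e : (b' : Qbar) - (-(b : Qbar) - a) =
          (((b' : Qbar) - b - 1) + 2 * b) + (((a : Qbar) - 1) + 2) := by ring
      rw [e]
      have hy' := A.mem_nonunits_iff.mp hy
      have h2b : A.valuation (2 * (b : Qbar)) < 1 := by
        rw [map_mul]
        exact mul_lt_one_of_lt_of_le h2lt ((A.valuation_le_one_iff _).mpr hbA)
      exact A.valuation.map_add_lt (A.valuation.map_add_lt hy' h2b)
        (A.valuation.map_add_lt ha1 h2lt)
    have hsub := H86.sub_inE1_of_same_reduction (A := A) (W := (P.freyCurve⁄Qbar))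
      ha₁ ha₂ ha₃ ha₄ h' hnegns haA' hbA' haA hnegA hxx hyy hns'
    have hneg : Affine.Point.some (a : Qbar) _ hnegns = -Q := by rw [hQe]; rfl
    rw [← hQe', hneg] at hsub
    have h3 : (2 : ℕ) • Q - -Q = (3 : ℕ) • Q := by rw [sub_neg_eq_add, ← succ_nsmul]
    rw [h3] at hsub
    have h3Qp : P.p • ((3 : ℕ) • Q) = 0 := by rw [smul_comm, hQ', nsmul_zero]
    have h3Q := frey_kernel_two P A hA hV _ hsub h3Qp
    exact hQ0 (eq_zero_of_coprime_nsmul (m := 3) (n := P.p)
      ((Nat.coprime_primes Nat.prime_three P.pp).mpr (by omega)) h3Q hQ')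

end FreyTwo

end Fermat.Agent.S13.L2

namespace Fermat.Agent.S13

/-- **WP-R / task R1.**  The only Galois-fixed `p`-torsion point of the Frey curve is `0`. -/
theorem L2.ifR (P : FreyPackage) : IfR P :=
  fun Q hQ hfix => L2.frey_no_rational_torsion P Q hQ hfix

/-- **(L5)** of the skeleton: the Frey curve has no nonzero rational `p`-torsion point. -/
theorem L2.ifaceNoRat : IfaceNoRat :=
  fun P Q hQ hfix => L2.frey_no_rational_torsion P Q hQ hfix

end Fermat.Agent.S13
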