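import Fermat.Agent.S13.Defs
import Fermat.Agent.S13.Skeleton
import Fermat.Agent.S13.L2Frey

/-!
# S13, work package L5 / (L2): inertia at `2` is unipotent on `E[p]` of the Frey curve

Interface wrappers around `Fermat.Agent.S13.L2.frey_inertia_two_unipotent`:
* `Fermat.Agent.S13.ifLoc2 P : IfLoc2 P`      (interface of `Defs.lean`)
* `Fermat.Agent.S13.L2.ifaceTwo : IfaceTwo`   (interface of `Skeleton.lean`)
-/

set_option autoImplicit false

namespace Fermat.Agent.S13

/-- **WP-L2 / task L5.**  At a place over `2`, every inertia element `σ` satisfies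
`(σ - 1)² = 0` on the `p`-torsion of the Frey curve. -/
theorem ifLoc2 (P : FreyPackage) : IfLoc2 P :=
  fun A hA _ hσ Q hQ => L2.frey_inertia_two_unipotent P A hA hσ Q hQ

namespace L2

/-- **(L2)** of the skeleton: inertia at `2` acts unipotently on `E[p]` of the Frey curve. -/
theorem ifaceTwo : IfaceTwo :=
  fun P A hA _ hσ Q hQ => frey_inertia_two_unipotent P A hA hσ Q hQ

end L2

end Fermat.Agent.S13
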