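import Mathlib
import Fermat.Agent.S13.Defs
import Fermat.Agent.S13.LadderDiv

/-!
# S13, work package P2: no "supersingular-like" case at `p`

If `E[p]` of the Frey curve has a Galois-stable proper nonzero submodule `N`, then at every
place `A` over `p` not all of `E[p]` lies in the kernel of reduction.

Proof (pure counting of valuations).  Let `D` be the division polynomial of degree `(p²-1)/2`
with leading coefficient `p` and `A`-integral coefficients whose roots are the `x`-coordinates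
of the nonzero `p`-torsion points.  If all roots lie outside `A`, then from `D(0) ∈ A` we get
`v(p) ≤ ∏ v(1/x)` (product over the roots).  The `x`-coordinates of `N \ 0` and of `E[p] \ N`
form two disjoint nonempty Galois-stable sets of roots; the products of their inverses are
rational numbers in the maximal ideal, hence of valuation `≤ v(p)` each.  So
`v(p) ≤ v(p)²`, a contradiction.
-/

set_option autoImplicit false

namespace Fermat.Agent.S13

open WeierstrassCurve WeierstrassCurve.Affine WeierstrassCurve.Affine.Point Polynomial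
open Fermat.Agent.S51 Fermat.Agent.S05

section Val

variable {K : Type*} [Field K] {Γ₀ : Type*} [LinearOrderedCommGroupWithZero Γ₀]
variable (v : Valuation K Γ₀)

lemma P2_val_natCast_le_one (n : ℕ) : v (n : K) ≤ 1 := by
  induction n with
  | zero => simp
  | succ n ih =>
    rw [Nat.cast_succ]
    exact le_trans (v.map_add _ _) (max_le ih (by simp))

lemma P2_val_intCast_le_one (n : ℤ) : v (n : K) ≤ 1 := by
  rcases Int.natAbs_eq n with h | h
  · rw [h]; simpa using P2_val_natCast_le_one v n.natAbs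
  · rw [h]; simpa using P2_val_natCast_le_one v n.natAbs

variable {v} {p : ℕ}

lemma P2_val_natCast_eq_one_of_not_dvd (hp : p.Prime) (hvp : v (p : K) < 1) {n : ℕ}
    (hn : ¬ p ∣ n) : v (n : K) = 1 := by
  have hcop : IsCoprime (p : ℤ) (n : ℤ) := by
    rw [Int.isCoprime_iff_gcd_eq_one]
    exact_mod_cast (Nat.Prime.coprime_iff_not_dvd hp).2 hn
  obtain ⟨a, b, hab⟩ := hcop
  have habK : (a : K) * (p : K) + (b : K) * (n : K) = 1 := by
    exact_mod_cast congrArg (Int.cast : ℤ → K) hab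
  have h1 : v ((a : K) * (p : K)) < 1 := by
    rw [map_mul]
    calc v (a : K) * v (p : K) ≤ 1 * v (p : K) := by
          gcongr
          exact P2_val_intCast_le_one v a
      _ < 1 := by rwa [one_mul]
  have h2 : v ((b : K) * (n : K)) = 1 := by
    have h3 : v ((a : K) * (p : K) + (b : K) * (n : K)) = 1 := by rw [habK, map_one]
    by_contra hne
    have hlt : v ((b : K) * (n : K)) < 1 := by
      refine lt_of_le_of_ne ?_ hne
      rw [map_mul]
      calc v (b : K) * v (n : K) ≤ 1 * 1 :=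
            mul_le_mul' (P2_val_intCast_le_one v b) (P2_val_natCast_le_one v n)
        _ = 1 := one_mul 1
    have : v ((a : K) * (p : K) + (b : K) * (n : K)) < 1 :=
      lt_of_le_of_lt (v.map_add _ _) (max_lt h1 hlt)
    rw [h3] at this
    exact lt_irrefl _ this
  rw [map_mul] at h2
  refine le_antisymm (P2_val_natCast_le_one v n) ?_
  by_contra hlt
  rw [not_le] at hlt
  have : v (b : K) * v (n : K) < 1 := by
    calc v (b : K) * v (n : K) ≤ 1 * v (n : K) := by
          gcongr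
          exact P2_val_intCast_le_one v b
      _ < 1 := by rwa [one_mul]
  rw [h2] at this
  exact lt_irrefl _ this

lemma P2_exists_val_natCast_eq_pow (hp : p.Prime) (hvp : v (p : K) < 1) {n : ℕ} (hn : n ≠ 0) :
    ∃ e : ℕ, v (n : K) = v (p : K) ^ e := by
  obtain ⟨e, n', hn', rfl⟩ := Nat.exists_eq_pow_mul_and_not_dvd hn p hp.ne_one
  refine ⟨e, ?_⟩
  rw [Nat.cast_mul, Nat.cast_pow, map_mul, map_pow,
    P2_val_natCast_eq_one_of_not_dvd hp hvp hn', mul_one]

lemma P2_exists_val_ratCast_eq_zpow [CharZero K] (hp : p.Prime) (hvp : v (p : K) < 1) {r : ℚ}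
    (hr : r ≠ 0) : ∃ j : ℤ, v (r : K) = v (p : K) ^ j := by
  have hp0 : v (p : K) ≠ 0 := by
    rw [Valuation.ne_zero_iff]
    exact_mod_cast hp.ne_zero
  obtain ⟨e₁, h₁⟩ := P2_exists_val_natCast_eq_pow (K := K) hp hvp
    (n := r.num.natAbs) (by simpa using Rat.num_ne_zero.2 hr)
  obtain ⟨e₂, h₂⟩ := P2_exists_val_natCast_eq_pow (K := K) hp hvp (n := r.den) r.den_ne_zero
  refine ⟨(e₁ : ℤ) - e₂, ?_⟩
  have hnum : v ((r.num : ℤ) : K) = v ((r.num.natAbs : ℕ) : K) := by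
    rcases Int.natAbs_eq r.num with h | h
    · conv_lhs => rw [h]
      simp
    · conv_lhs => rw [h]
      simp
  rw [Rat.cast_def, map_div₀, hnum, h₁, h₂, zpow_sub₀ hp0, zpow_natCast, zpow_natCast]

/-- A rational number in the maximal ideal has valuation at most `v p`. -/
lemma P2_val_ratCast_le_of_lt_one [CharZero K] (hp : p.Prime) (hvp : v (p : K) < 1) {r : ℚ}
    (hr : v (r : K) < 1) : v (r : K) ≤ v (p : K) := by
  rcases eq_or_ne r 0 with rfl | hr0
  · simp
  have hp0 : v (p : K) ≠ 0 := by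
    rw [Valuation.ne_zero_iff]
    exact_mod_cast hp.ne_zero
  have hp0' : 0 < v (p : K) := zero_lt_iff.2 hp0
  obtain ⟨j, hj⟩ := P2_exists_val_ratCast_eq_zpow (K := K) hp hvp hr0
  rw [hj] at hr ⊢
  have hj1 : 1 ≤ j := by
    by_contra hcon
    rw [not_le] at hcon
    have hj0 : j ≤ 0 := by omega
    have : (1 : Γ₀) ≤ v (p : K) ^ j := by
      obtain ⟨k, rfl⟩ : ∃ k : ℕ, j = -(k : ℤ) := ⟨(-j).toNat, by omega⟩
      rw [zpow_neg, zpow_natCast]
      rw [one_le_inv₀ (pow_pos hp0' k)]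
      exact pow_le_one₀ (le_of_lt hp0') (le_of_lt hvp)
    exact absurd hr (not_lt.2 this)
  obtain ⟨k, rfl⟩ : ∃ k : ℕ, j = (k : ℤ) + 1 := ⟨(j - 1).toNat, by omega⟩
  rw [zpow_add₀ hp0, zpow_one, zpow_natCast]
  calc v (p : K) ^ k * v (p : K) ≤ 1 * v (p : K) := by
        gcongr
        exact pow_le_one₀ (le_of_lt hp0') (le_of_lt hvp)
    _ = v (p : K) := one_mul _

/-- The valuation of the product of the inverses of a nonempty finite set of elements outside the
valuation ring is `< 1`. -/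
lemma P2_val_prod_inv_lt_one {S : Finset K} (hS : ∀ x ∈ S, 1 < v x) (hne : S.Nonempty) :
    v (∏ x ∈ S, x⁻¹) < 1 := by
  rw [map_prod]
  have h1 : ∀ x ∈ S, v x⁻¹ < 1 := by
    intro x hx
    rw [map_inv₀, inv_lt_one₀ (lt_trans zero_lt_one (hS x hx))]
    exact hS x hx
  have h0 : ∀ x ∈ S, 0 < v x⁻¹ := by
    intro x hx
    rw [map_inv₀]
    exact inv_pos.2 (lt_trans zero_lt_one (hS x hx))
  obtain ⟨x₀, hx₀⟩ := hne
  calc ∏ x ∈ S, v x⁻¹ < ∏ _x ∈ S, (1 : Γ₀) :=
        Finset.prod_lt_prod h0 (fun x hx => le_of_lt (h1 x hx)) ⟨x₀, hx₀, h1 x₀ hx₀⟩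
    _ = 1 := by simp

/-- **Counting core.**  Let `D` be a polynomial over an algebraically closed field with leading
coefficient `p`, integral constant coefficient and all roots outside the valuation ring.  Then
there are no two disjoint nonempty sets of roots such that the products of the inverses of their
elements are both rational. -/
theorem P2_count_core [CharZero K] [IsAlgClosed K] [DecidableEq K] (hp : p.Prime)
    (hvp : v (p : K) < 1) (D : K[X]) (hlc : D.leadingCoeff = (p : K)) (hc0 : v (D.coeff 0) ≤ 1)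
    (hroots : ∀ x, D.IsRoot x → 1 < v x)
    (S T : Finset K) (hS : ∀ x ∈ S, D.IsRoot x) (hT : ∀ x ∈ T, D.IsRoot x) (hST : Disjoint S T)
    (hSne : S.Nonempty) (hTne : T.Nonempty)
    (rS rT : ℚ) (hrS : (rS : K) = ∏ x ∈ S, x⁻¹) (hrT : (rT : K) = ∏ x ∈ T, x⁻¹) : False := by
  have hp0 : v (p : K) ≠ 0 := by
    rw [Valuation.ne_zero_iff]
    exact_mod_cast hp.ne_zero
  have hp0' : 0 < v (p : K) := zero_lt_iff.2 hp0
  have hD0 : D ≠ 0 := by
    intro h
    rw [h, leadingCoeff_zero] at hlc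
    exact (Nat.cast_ne_zero.2 hp.ne_zero) hlc.symm
  set M := D.roots with hM
  have hMroot : ∀ x ∈ M, 1 < v x := fun x hx => hroots x ((mem_roots hD0).1 hx)
  have hw1 : ∀ x ∈ M, v x⁻¹ ≤ 1 := by
    intro x hx
    rw [map_inv₀]
    exact le_of_lt ((inv_lt_one₀ (lt_trans zero_lt_one (hMroot x hx))).2 (hMroot x hx))
  have hw0 : ∀ x ∈ M, 0 < v x⁻¹ := by
    intro x hx
    rw [map_inv₀]
    exact inv_pos.2 (lt_trans zero_lt_one (hMroot x hx))
  -- factorisation of `D`
  have hfac : C D.leadingCoeff * (M.map (fun a => X - C a)).prod = D :=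
    C_leadingCoeff_mul_prod_multiset_X_sub_C (splits_iff_card_roots.1 (IsAlgClosed.splits D))
  have hc0' : D.coeff 0 = (p : K) * (M.map (fun a => -a)).prod := by
    conv_lhs => rw [← hfac]
    rw [coeff_zero_eq_eval_zero, eval_mul, eval_C, hlc, eval_multiset_prod, Multiset.map_map]
    congr 2
    refine Multiset.map_congr rfl fun x _ => ?_
    simp
  have hvc0 : v (D.coeff 0) = v (p : K) * (M.map (fun a => v a)).prod := by
    rw [hc0', map_mul, map_multiset_prod, Multiset.map_map]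
    congr 2
    refine Multiset.map_congr rfl fun x _ => ?_
    simp
  have hone : (M.map (fun a => v a)).prod * (M.map (fun a => v a⁻¹)).prod = 1 := by
    rw [← Multiset.prod_map_mul]
    refine Multiset.prod_eq_one fun y hy => ?_
    obtain ⟨x, hx, rfl⟩ := Multiset.mem_map.1 hy
    rw [map_inv₀]
    exact mul_inv_cancel₀ (ne_of_gt (lt_trans zero_lt_one (hMroot x hx)))
  -- step 1: `v p ≤ ∏_M v(1/x)`
  have step1 : v (p : K) ≤ (M.map (fun a => v a⁻¹)).prod := by
    calc v (p : K) = v (p : K) * ((M.map (fun a => v a)).prod * (M.map (fun a => v a⁻¹)).prod) := by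
          rw [hone, mul_one]
      _ = v (D.coeff 0) * (M.map (fun a => v a⁻¹)).prod := by rw [hvc0, mul_assoc]
      _ ≤ 1 * (M.map (fun a => v a⁻¹)).prod := by
          gcongr
      _ = (M.map (fun a => v a⁻¹)).prod := one_mul _
  -- step 2: `∏_M ≤ ∏_{M.toFinset}`
  have step2 : (M.map (fun a => v a⁻¹)).prod ≤ ∏ x ∈ M.toFinset, v x⁻¹ := by
    rw [Finset.prod_multiset_map_count]
    refine Finset.prod_le_prod (fun x _ => zero_le) fun x hx => ?_
    have hxM : x ∈ M := Multiset.mem_toFinset.1 hx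
    exact pow_le_of_le_one zero_le (hw1 x hxM) (ne_of_gt (Multiset.count_pos.2 hxM))
  -- step 3: `∏_{M.toFinset} ≤ ∏_{S ∪ T}`
  have hSM : ∀ x ∈ S, x ∈ M := fun x hx => (mem_roots hD0).2 (hS x hx)
  have hTM : ∀ x ∈ T, x ∈ M := fun x hx => (mem_roots hD0).2 (hT x hx)
  have hsub : S ∪ T ⊆ M.toFinset := by
    intro x hx
    rw [Multiset.mem_toFinset]
    rcases Finset.mem_union.1 hx with h | h
    · exact hSM x h
    · exact hTM x h
  have step3 : ∏ x ∈ M.toFinset, v x⁻¹ ≤ ∏ x ∈ S ∪ T, v x⁻¹ := by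
    rw [← Finset.prod_sdiff hsub]
    calc (∏ x ∈ M.toFinset \ (S ∪ T), v x⁻¹) * ∏ x ∈ S ∪ T, v x⁻¹
        ≤ 1 * ∏ x ∈ S ∪ T, v x⁻¹ := by
          gcongr
          refine Finset.prod_le_one (fun x _ => zero_le) fun x hx => ?_
          exact hw1 x (Multiset.mem_toFinset.1 (Finset.mem_sdiff.1 hx).1)
      _ = ∏ x ∈ S ∪ T, v x⁻¹ := one_mul _
  -- step 4: the two rational products
  have hSv : ∏ x ∈ S, v x⁻¹ ≤ v (p : K) := by
    have h1 := P2_val_prod_inv_lt_one (v := v) (fun x hx => hMroot x (hSM x hx)) hSne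
    rw [← hrS] at h1
    have h2 := P2_val_ratCast_le_of_lt_one hp hvp h1
    rwa [hrS, map_prod] at h2
  have hTv : ∏ x ∈ T, v x⁻¹ ≤ v (p : K) := by
    have h1 := P2_val_prod_inv_lt_one (v := v) (fun x hx => hMroot x (hTM x hx)) hTne
    rw [← hrT] at h1
    have h2 := P2_val_ratCast_le_of_lt_one hp hvp h1
    rwa [hrT, map_prod] at h2
  have step4 : ∏ x ∈ S ∪ T, v x⁻¹ ≤ v (p : K) * v (p : K) := by
    rw [Finset.prod_union hST]
    exact mul_le_mul' hSv hTv
  have hfinal : v (p : K) ≤ v (p : K) * v (p : K) :=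
    le_trans step1 (le_trans step2 (le_trans step3 step4))
  have hlt : v (p : K) * v (p : K) < v (p : K) := by
    calc v (p : K) * v (p : K) < v (p : K) * 1 := mul_lt_mul_of_pos_left hvp hp0'
      _ = v (p : K) := mul_one _
  exact lt_irrefl _ (lt_of_le_of_lt hfinal hlt)

end Val

section Frey

local notation "Qbar" => AlgebraicClosure ℚ

/-- The product of the inverses of a Galois-stable finite subset of `Qbar` is rational. -/
lemma P2_rational_prod (S : Finset Qbar)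
    (hS : ∀ σ : Qbar ≃ₐ[ℚ] Qbar, ∀ x ∈ S, σ x ∈ S) :
    ∃ r : ℚ, (r : Qbar) = ∏ x ∈ S, x⁻¹ := by
  obtain ⟨r, hr⟩ := A_rational_of_fixed (∏ x ∈ S, x⁻¹) (fun σ => by
    rw [map_prod]
    have himg : S.image σ = S :=
      Finset.eq_of_subset_of_card_le
        (by
          intro y hy
          obtain ⟨x, hx, rfl⟩ := Finset.mem_image.1 hy
          exact hS σ x hx)
        (by rw [Finset.card_image_of_injective _ σ.injective])
    conv_rhs => rw [← himg]
    rw [Finset.prod_image (fun a _ b _ h => σ.injective h)]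
    exact Finset.prod_congr rfl fun x _ => map_inv₀ σ x)
  exact ⟨r, by rw [← hr, eq_ratCast]⟩

variable (P : FreyPackage)

lemma P2_frey_Δ : P.freyCurve.Δ =
    ((P.a : ℚ) ^ P.p * (P.b : ℚ) ^ P.p * ((P.a : ℚ) ^ P.p + (P.b : ℚ) ^ P.p)) ^ 2 / 256 := by
  simp only [FreyPackage.freyCurve, WeierstrassCurve.Δ, WeierstrassCurve.b₂, WeierstrassCurve.b₄,
    WeierstrassCurve.b₆, WeierstrassCurve.b₈]
  ring

lemma P2_frey_Δ_ne_zero : (P.freyCurve⁄Qbar).Δ ≠ 0 := by
  have h1 : (P.freyCurve⁄Qbar).Δ = algebraMap ℚ Qbar P.freyCurve.Δ :=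
    WeierstrassCurve.map_Δ _ _
  rw [h1, Ne, map_eq_zero_iff _ (algebraMap ℚ Qbar).injective, P2_frey_Δ]
  have ha : (P.a : ℚ) ^ P.p ≠ 0 := pow_ne_zero _ (Int.cast_ne_zero.2 P.ha0)
  have hb : (P.b : ℚ) ^ P.p ≠ 0 := pow_ne_zero _ (Int.cast_ne_zero.2 P.hb0)
  have hc : (P.a : ℚ) ^ P.p + (P.b : ℚ) ^ P.p ≠ 0 := by
    have : (P.a : ℚ) ^ P.p + (P.b : ℚ) ^ P.p = (P.c : ℚ) ^ P.p := by exact_mod_cast P.hFLT
    rw [this]
    exact pow_ne_zero _ (Int.cast_ne_zero.2 P.hc0)
  exact div_ne_zero (pow_ne_zero _ (mul_ne_zero (mul_ne_zero ha hb) hc)) (by norm_num)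

/-- An integer divided by a power of two is integral at a place over an odd prime. -/
lemma P2_int_div_two_pow_mem (A : ValuationSubring Qbar) {p : ℕ} (hp : p.Prime) (hp2 : p ≠ 2)
    (hA : A.LiesOverPrime p) (n : ℤ) (k : ℕ) : (n : Qbar) / (2 : Qbar) ^ k ∈ A := by
  have hvp : A.valuation (p : Qbar) < 1 := (A.mem_nonunits_iff).1 hA
  have h2 : A.valuation ((2 ^ k : ℕ) : Qbar) = 1 := by
    refine P2_val_natCast_eq_one_of_not_dvd hp hvp ?_
    intro hdvd
    have := (Nat.prime_dvd_prime_iff_eq hp Nat.prime_two).1 (hp.dvd_of_dvd_pow hdvd)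
    exact hp2 this
  rw [← A.valuation_le_one_iff, map_div₀]
  have h2' : A.valuation ((2 : Qbar) ^ k) = 1 := by
    have : ((2 ^ k : ℕ) : Qbar) = (2 : Qbar) ^ k := by push_cast; rfl
    rw [← this]; exact h2
  rw [h2', div_one]
  exact P2_val_intCast_le_one _ n

lemma P2_frey_b_mem (A : ValuationSubring Qbar) (hA : A.LiesOverPrime P.p) :
    (P.freyCurve⁄Qbar).b₂ ∈ A.toSubring ∧ (P.freyCurve⁄Qbar).b₄ ∈ A.toSubring ∧
      (P.freyCurve⁄Qbar).b₆ ∈ A.toSubring ∧ (P.freyCurve⁄Qbar).b₈ ∈ A.toSubring := by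
  have hp2 : P.p ≠ 2 := by have := P.hp5; omega
  have key := P2_int_div_two_pow_mem A P.pp hp2 hA
  have e2 : (P.freyCurve⁄Qbar).b₂ = algebraMap ℚ Qbar P.freyCurve.b₂ :=
    WeierstrassCurve.map_b₂ _ _
  have e4 : (P.freyCurve⁄Qbar).b₄ = algebraMap ℚ Qbar P.freyCurve.b₄ :=
    WeierstrassCurve.map_b₄ _ _
  have e6 : (P.freyCurve⁄Qbar).b₆ = algebraMap ℚ Qbar P.freyCurve.b₆ :=
    WeierstrassCurve.map_b₆ _ _
  have e8 : (P.freyCurve⁄Qbar).b₈ = algebraMap ℚ Qbar P.freyCurve.b₈ :=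
    WeierstrassCurve.map_b₈ _ _
  have f2 : P.freyCurve.b₂ = ((P.b ^ P.p - P.a ^ P.p : ℤ) : ℚ) / 2 ^ 0 := by
    simp only [FreyPackage.freyCurve, WeierstrassCurve.b₂]
    push_cast
    ring
  have f4 : P.freyCurve.b₄ = ((-(P.a ^ P.p * P.b ^ P.p) : ℤ) : ℚ) / 2 ^ 3 := by
    simp only [FreyPackage.freyCurve, WeierstrassCurve.b₄]
    push_cast
    ring
  have f6 : P.freyCurve.b₆ = ((0 : ℤ) : ℚ) / 2 ^ 0 := by
    simp only [FreyPackage.freyCurve, WeierstrassCurve.b₆]
    push_cast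
    ring
  have f8 : P.freyCurve.b₈ = ((-(P.a ^ P.p * P.b ^ P.p) ^ 2 : ℤ) : ℚ) / 2 ^ 8 := by
    simp only [FreyPackage.freyCurve, WeierstrassCurve.b₈]
    push_cast
    ring
  have cast : ∀ (n : ℤ) (k : ℕ), algebraMap ℚ Qbar ((n : ℚ) / 2 ^ k) = (n : Qbar) / (2 : Qbar) ^ k := by
    intro n k
    rw [map_div₀, map_pow, map_intCast, map_ofNat]
  refine ⟨?_, ?_, ?_, ?_⟩
  · rw [e2, f2, cast]; exact key _ _
  · rw [e4, f4, cast]; exact key _ _
  · rw [e6, f6, cast]; exact key _ _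
  · rw [e8, f8, cast]; exact key _ _

/-- **WP-P2.**  At a place over `p`, if `E[p]` has a Galois-stable proper nonzero submodule, then
not all of `E[p]` lies in the kernel of reduction. -/
theorem ifP2 : IfP2 P := by
  intro A hA N hN hbot htop
  by_contra hcon
  push Not at hcon
  have hΔ : (P.freyCurve⁄Qbar).Δ ≠ 0 := P2_frey_Δ_ne_zero P
  have hp2 : P.p ≠ 2 := by have := P.hp5; omega
  obtain ⟨D, hD0, -, hlc, hcoef, hroot, -, -⟩ :=
    T_exists_divPoly (P.freyCurve⁄Qbar) hΔ P.p P.pp hp2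
  have hvp : A.valuation (P.p : Qbar) < 1 := (A.mem_nonunits_iff).1 hA
  obtain ⟨hb2, hb4, hb6, hb8⟩ := P2_frey_b_mem P A hA
  have hc0 : A.valuation (D.coeff 0) ≤ 1 :=
    (A.valuation_le_one_iff _).2 (hcoef A.toSubring hb2 hb4 hb6 hb8 0)
  -- torsion points and roots
  have hmem : ∀ Q : FreyPt P, P.p • Q = 0 →
      Q ∈ Submodule.torsionBy ℤ (P.freyCurve⁄Qbar).Point P.p := by
    intro Q hQ
    rw [Submodule.mem_torsionBy_iff, natCast_zsmul]
    exact hQ
  have htors : ∀ Q : FreyTors P, P.p • (Q : FreyPt P) = 0 := by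
    intro Q
    have := Q.2
    rw [Submodule.mem_torsionBy_iff, natCast_zsmul] at this
    exact this
  have hne0 : ∀ Q : FreyTors P, Q ≠ 0 → (Q : FreyPt P) ≠ 0 := by
    intro Q hQ h0
    exact hQ (Subtype.ext h0)
  have hrootQ : ∀ Q : FreyTors P, Q ≠ 0 → D.IsRoot (A_x (Q : FreyPt P)) := by
    intro Q hQ
    exact (hroot Q (hne0 Q hQ)).1 (htors Q)
  have hexQ : ∀ x, D.IsRoot x → ∃ Q : FreyTors P, Q ≠ 0 ∧ A_x (Q : FreyPt P) = x := by
    intro x hx
    obtain ⟨Q, hQ0, hQx⟩ := A_exists_point (P.freyCurve⁄Qbar) hΔ x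
    have hpQ : P.p • Q = 0 := (hroot Q hQ0).2 (by rw [hQx]; exact hx)
    refine ⟨⟨Q, hmem Q hpQ⟩, ?_, hQx⟩
    intro h0
    exact hQ0 (congrArg Subtype.val h0)
  have hroots : ∀ x, D.IsRoot x → 1 < A.valuation x := by
    intro x hx
    obtain ⟨Q, hQ0, hQx⟩ := hexQ x hx
    rcases hcon Q with h0 | ⟨x', y', h', hQ, hx'⟩
    · exact absurd h0 (hne0 Q hQ0)
    · have : x = x' := by
        rw [← hQx, hQ]
        rfl
      rw [this]
      exact not_le.1 (fun hle => hx' ((A.valuation_le_one_iff x').1 hle))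
  -- Galois action
  have hsmul_ne : ∀ (σ : Qbar ≃ₐ[ℚ] Qbar) (Q : FreyTors P), Q ≠ 0 → σ • Q ≠ 0 := by
    intro σ Q hQ h0
    apply hQ
    have : σ⁻¹ • (σ • Q) = σ⁻¹ • (0 : FreyTors P) := by rw [h0]
    rwa [inv_smul_smul, smul_zero] at this
  have hsmul_x : ∀ (σ : Qbar ≃ₐ[ℚ] Qbar) (Q : FreyTors P),
      A_x ((σ • Q : FreyTors P) : FreyPt P) = σ (A_x (Q : FreyPt P)) := by
    intro σ Q
    exact A_x_smul P.freyCurve σ (Q : FreyPt P)
  -- the two sets of roots
  let pN : Qbar → Prop := fun x => ∃ Q : FreyTors P, Q ∈ N ∧ Q ≠ 0 ∧ A_x (Q : FreyPt P) = x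
  have : DecidablePred pN := Classical.decPred _
  have hpN_stable : ∀ (σ : Qbar ≃ₐ[ℚ] Qbar) (x : Qbar), pN x → pN (σ x) := by
    rintro σ x ⟨Q, hQN, hQ0, hQx⟩
    exact ⟨σ • Q, hN σ Q hQN, hsmul_ne σ Q hQ0, by rw [hsmul_x, hQx]⟩
  have hR_stable : ∀ (σ : Qbar ≃ₐ[ℚ] Qbar) (x : Qbar), D.IsRoot x → D.IsRoot (σ x) := by
    intro σ x hx
    obtain ⟨Q, hQ0, hQx⟩ := hexQ x hx
    have := hrootQ (σ • Q) (hsmul_ne σ Q hQ0)
    rwa [hsmul_x, hQx] at this
  set S : Finset Qbar := D.roots.toFinset.filter pN with hSdef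
  set T : Finset Qbar := D.roots.toFinset.filter (fun x => ¬ pN x) with hTdef
  have hS : ∀ x ∈ S, D.IsRoot x := by
    intro x hx
    exact (mem_roots hD0).1 (Multiset.mem_toFinset.1 (Finset.mem_filter.1 hx).1)
  have hT : ∀ x ∈ T, D.IsRoot x := by
    intro x hx
    exact (mem_roots hD0).1 (Multiset.mem_toFinset.1 (Finset.mem_filter.1 hx).1)
  have hST : Disjoint S T := Finset.disjoint_filter_filter_not _ _ _
  have hmemR : ∀ x, D.IsRoot x → x ∈ D.roots.toFinset := fun x hx =>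
    Multiset.mem_toFinset.2 ((mem_roots hD0).2 hx)
  have hSne : S.Nonempty := by
    obtain ⟨Q, hQN, hQ0⟩ := Submodule.exists_mem_ne_zero_of_ne_bot hbot
    exact ⟨A_x (Q : FreyPt P), Finset.mem_filter.2 ⟨hmemR _ (hrootQ Q hQ0), Q, hQN, hQ0, rfl⟩⟩
  have hTne : T.Nonempty := by
    obtain ⟨Q, hQN⟩ : ∃ Q : FreyTors P, Q ∉ N := by
      by_contra h
      push Not at h
      exact htop (Submodule.eq_top_iff'.2 h)
    have hQ0 : Q ≠ 0 := by
      rintro rfl
      exact hQN N.zero_mem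
    refine ⟨A_x (Q : FreyPt P), Finset.mem_filter.2 ⟨hmemR _ (hrootQ Q hQ0), ?_⟩⟩
    rintro ⟨Q', hQ'N, hQ'0, hQ'x⟩
    rcases (A_x_eq_iff (P.freyCurve⁄Qbar) (hne0 Q' hQ'0) (hne0 Q hQ0)).1 hQ'x with h | h
    · exact hQN (by rw [← Subtype.ext h]; exact hQ'N)
    · have : Q = -Q' := by
        apply Subtype.ext
        have h2 : ((-Q' : FreyTors P) : FreyPt P) = -(Q' : FreyPt P) := rfl
        rw [h2, h, neg_neg]
      rw [this] at hQN
      exact hQN (N.neg_mem hQ'N)
  have hS_stable : ∀ σ : Qbar ≃ₐ[ℚ] Qbar, ∀ x ∈ S, σ x ∈ S := by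
    intro σ x hx
    have hx' := Finset.mem_filter.1 hx
    exact Finset.mem_filter.2 ⟨hmemR _ (hR_stable σ x (hS x hx)), hpN_stable σ x hx'.2⟩
  have hT_stable : ∀ σ : Qbar ≃ₐ[ℚ] Qbar, ∀ x ∈ T, σ x ∈ T := by
    intro σ x hx
    have hx' := Finset.mem_filter.1 hx
    refine Finset.mem_filter.2 ⟨hmemR _ (hR_stable σ x (hT x hx)), fun hcontra => hx'.2 ?_⟩
    have := hpN_stable σ⁻¹ (σ x) hcontra
    have e : σ⁻¹ (σ x) = x := by
      change σ.symm (σ x) = x
      exact σ.symm_apply_apply x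
    rwa [e] at this
  obtain ⟨rS, hrS⟩ := P2_rational_prod S hS_stable
  obtain ⟨rT, hrT⟩ := P2_rational_prod T hT_stable
  exact P2_count_core (v := A.valuation) P.pp hvp D hlc hc0 hroots S T hS hT hST hSne hTne
    rS rT hrS hrT

/-- The interface of the blueprint: `IfLadder P → IfP2 P` (the hypothesis is not needed). -/
theorem ifP2_of_ifLadder (_h : IfLadder P) : IfP2 P := ifP2 P

end Frey

end Fermat.Agent.S13
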