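import Mathlib
import Fermat.Agent.S13.Defs
import Fermat.Agent.S13.Skeleton
import Fermat.Agent.S13.FreyInt

/-!
# S13: adapters between the two interface files

`Skeleton.lean` (helper86) and `Defs.lean` (helper13) describe the same work packages.
The assembly consumes the `Defs.lean` shapes; these adapters convert the `Skeleton.lean` shapes.
-/

set_option autoImplicit false

namespace Fermat.Agent.S13

open WeierstrassCurve WeierstrassCurve.Affine WeierstrassCurve.Affine.Point

local notation "Qbar" => AlgebraicClosure ℚ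

theorem ifM_of_ifaceMink (h : IfaceMink) : IfM := h

theorem ifaceMink_of_ifM (h : IfM) : IfaceMink := h

theorem ifLoc2_of_ifaceTwo (h : IfaceTwo) (P : FreyPackage) : IfLoc2 P := h P

theorem ifR_of_ifaceNoRat (h : IfaceNoRat) (P : FreyPackage) : IfR P := h P

/-- The Frey curve has integer coefficients. -/
theorem freyCurve_int_coeffs (P : FreyPackage) :
    ∃ a₁ a₂ a₃ a₄ a₆ : ℤ, P.freyCurve = ⟨a₁, a₂, a₃, a₄, a₆⟩ := by
  refine ⟨1, P.freyCurveInt.a₂, 0, P.freyCurveInt.a₄, 0, ?_⟩
  ext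
  · show (1 : ℚ) = ((1 : ℤ) : ℚ)
    simp
  · exact freyCurve_a₂_eq P
  · show (0 : ℚ) = ((0 : ℤ) : ℚ)
    simp
  · exact freyCurve_a₄_eq P
  · show (0 : ℚ) = ((0 : ℤ) : ℚ)
    simp

theorem ifP2_of_ifaceSS (h : IfaceSS) (P : FreyPackage) : IfP2 P := by
  intro A hA N hN h0 h1
  by_contra hall
  push Not at hall
  have hp2 : P.p ≠ 2 := by
    have := P.hp5
    omega
  refine h P.p P.pp hp2 P.freyCurve (freyCurve_int_coeffs P) (freyCurve_Δ_ne_zero P) A hA
    (fun Q hQ => ?_) N hN h0 h1
  exact hall ⟨Q, (Submodule.mem_torsionBy_iff _ _).mpr hQ⟩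

end Fermat.Agent.S13
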