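import Fermat.Agent.S13.Defs
import Fermat.Agent.S13.AsmGroups
import Fermat.Agent.S13.Torsion
import Fermat.Agent.S13.FreyInt
import Fermat.Agent.S54.Frobenius
import Fermat.Agent.S05

/-!
# S13 assembly, alternative second source (helper86); canonical one is `Assembly.lean`

`s13_of_interfaces` proves that a reducible mod-`p` representation of the Frey curve has a
Galois-stable cofixed line, from

* `IfP2 P`, `IfRedP P` (inertia at `p`),
* `IfLoc2 P` (inertia at `2`),
* `IfR P` (no rational `p`-torsion),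
* `IfM` (Minkowski),

and the landed results: S05 (inertia at odd `q ≠ p` acts trivially), the torsion count of
`Torsion.lean`, and the existence of places over every prime (S54).

Strategy: for a stable line `N`, the two subgroups `fixSub N` (trivial action on `N`) and
`cofixSub N` (trivial action on `E[p]/N`) are normal and open; one of them contains an inertia
group at every prime, hence is everything.  If it is `fixSub N`, then `N` consists of rational
points, contradicting `IfR`; so it is `cofixSub N`, which is the claim.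
-/

set_option autoImplicit false

namespace Fermat.Agent.S13.Asm

open WeierstrassCurve WeierstrassCurve.Affine.Point
open scoped WeierstrassCurve.Affine
open Module

local notation "Qbar" => AlgebraicClosure ℚ

section LinAlg

variable {p : ℕ} [Fact p.Prime] {V : Type*} [AddCommGroup V] [Module (ZMod p) V] [Finite V]

/-- In a plane `V` over `ZMod p`, a line `N` and a proper additive subgroup `V₁` either meet
trivially, or `V₁ ⊆ N`. -/
theorem line_dichotomy (hcard : Nat.card V < p ^ 3) {N : Submodule (ZMod p) V}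
    (h0 : N ≠ ⊥) (h1 : N ≠ ⊤) (V₁ : AddSubgroup V) (hV₁ : V₁ ≠ ⊤) :
    (∀ x ∈ N, x ∈ V₁ → x = 0) ∨ (∀ x, x ∈ V₁ → x ∈ N) := by
  set L : Submodule (ZMod p) V := AddSubgroup.toZModSubmodule p V₁ with hL
  have hmem : ∀ x, x ∈ L ↔ x ∈ V₁ := fun x => AddSubgroup.mem_toZModSubmodule p
  have hLtop : L ≠ ⊤ := by
    intro h
    apply hV₁
    rw [eq_top_iff]
    intro x _
    rw [← hmem, h]
    trivial
  by_cases hNL : N ≤ L
  · right
    have hEq : N = L := eq_of_le_of_ne_top hcard h0 hNL hLtop
    intro x hx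
    rw [hEq]
    exact (hmem x).2 hx
  · left
    intro x hxN hxV
    by_contra hx0
    apply hNL
    have hspan_le : Submodule.span (ZMod p) {x} ≤ N := by
      rw [Submodule.span_le]
      intro y hy
      rw [Set.mem_singleton_iff] at hy
      rw [hy]
      exact hxN
    have hspan_ne : Submodule.span (ZMod p) {x} ≠ ⊥ := by
      intro h
      rw [Submodule.span_singleton_eq_bot] at h
      exact hx0 h
    have hEq : Submodule.span (ZMod p) {x} = N :=
      eq_of_le_of_ne_top hcard hspan_ne hspan_le h1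
    rw [← hEq, Submodule.span_le]
    intro y hy
    rw [Set.mem_singleton_iff] at hy
    rw [hy]
    exact (hmem x).2 hxV

end LinAlg

/-- The part of `E[p]` lying in the kernel of reduction at `A`, as an additive subgroup. -/
noncomputable def redKer (P : FreyPackage) (A : ValuationSubring Qbar) : AddSubgroup (FreyTors P) where
  carrier := {x | Fermat.Agent.S05.InE1 A (x : FreyPt P)}
  zero_mem' := Fermat.Agent.S05.inE1_zero A
  add_mem' := fun {x y} hx hy => by
    show Fermat.Agent.S05.InE1 A ((x : FreyPt P) + (y : FreyPt P))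
    exact Fermat.Agent.S05.inE1_add A (freyBC_a₁_mem P A) (freyBC_a₂_mem P A)
      (freyBC_a₃_mem P A) (freyBC_a₄_mem P A) (freyBC_a₆_mem P A) hx hy
  neg_mem' := fun {x} hx => by
    show Fermat.Agent.S05.InE1 A (-(x : FreyPt P))
    exact Fermat.Agent.S05.inE1_neg A hx

lemma mem_redKer {P : FreyPackage} {A : ValuationSubring Qbar} {x : FreyTors P} :
    x ∈ redKer P A ↔ Fermat.Agent.S05.InE1 A (x : FreyPt P) := Iff.rfl

/-- `σ - 1` as an additive endomorphism of `E[p]`. -/
noncomputable def sigmaSubOne (P : FreyPackage) (σ : Qbar ≃ₐ[ℚ] Qbar) :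
    FreyTors P →+ FreyTors P where
  toFun x := σ • x - x
  map_zero' := by rw [smul_zero, sub_zero]
  map_add' x y := by rw [smul_add]; abel

lemma sigmaSubOne_apply (P : FreyPackage) (σ : Qbar ≃ₐ[ℚ] Qbar) (x : FreyTors P) :
    sigmaSubOne P σ x = σ • x - x := rfl

lemma torsion_coe (P : FreyPackage) (x : FreyTors P) : (P.p : ℤ) • (x : FreyPt P) = 0 :=
  (Submodule.mem_torsionBy_iff _ _).1 x.2

/-- **Assembly of S13.** -/
theorem s13_of_interfaces (P : FreyPackage) (hP2 : IfP2 P) (hRedP : IfRedP P)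
    (hLoc2 : IfLoc2 P) (hR : IfR P) (hM : IfM)
    (hred : ¬ GaloisRepIsIrreducible (K := Qbar) ℚ P.freyCurve P.p) :
    HasGaloisStableCofixedLine (K := Qbar) ℚ P.freyCurve P.p := by
  have hp : P.p.Prime := P.pp
  let _ : Fact P.p.Prime := ⟨hp⟩
  have hΔ : P.freyCurve.Δ ≠ 0 := freyCurve_Δ_ne_zero P
  have hnt : Nontrivial (FreyTors P) := T_nontrivial_torsion _ hΔ P.p hp.two_le
  obtain ⟨hfin, hcard⟩ :=
    T_card_torsion_lt (P.freyCurve⁄Qbar) (freyBC_Δ_ne_zero P) P.p hp.two_le
  let _ : Finite (FreyTors P) := hfin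
  -- a stable line
  obtain ⟨N, hN, hN0, hN1⟩ : ∃ N : Submodule (ZMod P.p) (FreyTors P),
      IsGaloisStable ℚ N ∧ N ≠ ⊥ ∧ N ≠ ⊤ := by
    by_contra h
    apply hred
    refine ⟨hnt, fun N hN => ?_⟩
    by_contra h'
    rw [not_or] at h'
    exact h ⟨N, hN, h'.1, h'.2⟩
  -- inertia at the primes `q ≠ p` lies in both subgroups
  have hboth : ∀ q : ℕ, q.Prime → q ≠ P.p → ∀ A : ValuationSubring Qbar, A.LiesOverPrime q →
      A.inertiaSubgroupIn ℚ ≤ fixSub N ⊓ cofixSub N := by
    intro q hq hqp A hA σ hσ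
    by_cases hq2 : q = 2
    · subst hq2
      have hT : ∀ x, sigmaSubOne P σ (sigmaSubOne P σ x) = 0 := by
        intro x
        have h := hLoc2 A hA σ hσ (x : FreyPt P) (torsion_coe P x)
        rw [sigmaSubOne_apply, sub_eq_zero]
        apply Subtype.ext
        exact h
      have hTN : ∀ x ∈ N, sigmaSubOne P σ x ∈ N := fun x hx =>
        N.sub_mem (hN σ x hx) hx
      obtain ⟨h1, h2⟩ := unipotent_line hcard hN0 hN1 (sigmaSubOne P σ) hT hTN
      exact ⟨fun x hx => sub_eq_zero.1 (h1 x hx), fun x => h2 x⟩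
    · have hur := Fermat.Agent.S05.result P hq hq2 hqp A hA σ hσ
      refine ⟨fun x _ => hur x, fun x => ?_⟩
      have e : σ • x - x = 0 := sub_eq_zero.2 (hur x)
      rw [e]
      exact N.zero_mem
  -- inertia at `p`
  obtain ⟨Ap, hAp⟩ := Fermat.Agent.S54.exists_liesOverPrime hp
  have hatp : Ap.inertiaSubgroupIn ℚ ≤ fixSub N ∨ Ap.inertiaSubgroupIn ℚ ≤ cofixSub N := by
    have hV1 : redKer P Ap ≠ ⊤ := by
      obtain ⟨x, hx⟩ := hP2 Ap hAp N hN hN0 hN1
      intro h
      apply hx
      have hmem : x ∈ redKer P Ap := by rw [h]; trivial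
      exact hmem
    have hmove : ∀ σ ∈ Ap.inertiaSubgroupIn ℚ, ∀ x : FreyTors P,
        σ • x - x ∈ redKer P Ap := by
      intro σ hσ x
      exact hRedP Ap hAp σ hσ (x : FreyPt P) (torsion_coe P x)
    rcases line_dichotomy hcard hN0 hN1 (redKer P Ap) hV1 with h | h
    · left
      intro σ hσ x hx
      exact sub_eq_zero.1 (h _ (N.sub_mem (hN σ x hx) hx) (hmove σ hσ x))
    · right
      intro σ hσ x
      exact h _ (hmove σ hσ x)
  -- openness
  have hopen : ∀ H : Subgroup (Qbar ≃ₐ[ℚ] Qbar),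
      (∀ σ : Qbar ≃ₐ[ℚ] Qbar, (∀ x : FreyTors P, σ • x = x) → σ ∈ H) →
      ∃ s : Finset Qbar, ∀ σ : Qbar ≃ₐ[ℚ] Qbar, (∀ a ∈ s, σ a = a) → σ ∈ H := by
    intro H hH
    obtain ⟨S, hS⟩ := exists_finset_fix (W := P.freyCurve) (p := P.p)
    exact ⟨S, fun σ hσ => hH σ (hS σ hσ)⟩
  rcases hatp with h | h
  · -- `fixSub N = ⊤`: impossible
    have htop : fixSub N = ⊤ := by
      refine hM (fixSub N) (fixSub_normal hN) (hopen _ (fun σ hσ x _ => hσ x)) ?_
      intro q hq
      by_cases hqp : q = P.p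
      · subst hqp
        exact ⟨Ap, hAp, h⟩
      · obtain ⟨A, hA⟩ := Fermat.Agent.S54.exists_liesOverPrime hq
        exact ⟨A, hA, (hboth q hq hqp A hA).trans inf_le_left⟩
    exfalso
    obtain ⟨x, hx, hx0⟩ := (Submodule.ne_bot_iff N).1 hN0
    apply hx0
    have hfix : ∀ σ : Qbar ≃ₐ[ℚ] Qbar, σ • x = x := fun σ => by
      have hσ : σ ∈ fixSub N := by rw [htop]; trivial
      exact hσ x hx
    have hzero := hR (x : FreyPt P) (torsion_coe P x)
      (fun σ => congrArg Subtype.val (hfix σ))
    exact Subtype.ext hzero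
  · have htop : cofixSub N = ⊤ := by
      refine hM (cofixSub N) (cofixSub_normal hN)
        (hopen _ (fun σ hσ x => by
          show σ • x - x ∈ N
          rw [hσ x, sub_self]
          exact N.zero_mem)) ?_
      intro q hq
      by_cases hqp : q = P.p
      · subst hqp
        exact ⟨Ap, hAp, h⟩
      · obtain ⟨A, hA⟩ := Fermat.Agent.S54.exists_liesOverPrime hq
        exact ⟨A, hA, (hboth q hq hqp A hA).trans inf_le_right⟩
    refine ⟨N, hN, hN0, hN1, fun σ x => ?_⟩
    have hσ : σ ∈ cofixSub N := by rw [htop]; trivial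
    exact hσ x

end Fermat.Agent.S13.Asm
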