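import Mathlib
import Fermat.Agent.S13.Skeleton
import Fermat.Agent.S13.Defs
import Fermat.Agent.S13.H4AtP
import Fermat.Agent.S13.H4RedP
import Fermat.Agent.S13.LadderDiv

/-!
# S13: the dichotomy at `p` (helper4)

Let `V = E[p]` for an elliptic curve `E` over `ℚ` with coefficients integral at a place `A` of
`Qbar` over `p`, and let `N` be a proper nonzero Galois-stable submodule of `V`.  If inertia at `A`
moves `V` into the kernel of reduction `E₁(A)` and not all of `V` lies in `E₁(A)`, then the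
inertia group at `A` acts trivially on `N` or trivially on `V / N`.

* `h4_line_dichotomy`: the underlying linear algebra over `𝔽_p`.
* `h4_atP_dichotomy`: the general statement (any model over `ℚ` integral at `A`).
* `ifaceAtP_of_ifaceSS : IfaceSS → IfaceAtP` (helper86's skeleton).
* `h4_frey_atP_dichotomy`: the statement on the Frey model from `IfP2 P` (helper13's interfaces).
-/

set_option autoImplicit false
set_option linter.unusedSectionVars false

namespace Fermat.Agent.S13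

open WeierstrassCurve WeierstrassCurve.Affine.Point Fermat.Agent.S05
open scoped WeierstrassCurve.Affine

local notation "Qbar" => AlgebraicClosure ℚ

/-- Linear algebra over `𝔽_p`: in a space with at most `p²` elements, a proper nonzero subspace
`N` and a proper subspace `L` either meet trivially or coincide. -/
theorem h4_line_dichotomy {p : ℕ} [Fact p.Prime] {V : Type*} [AddCommGroup V]
    [Module (ZMod p) V] [Finite V] (hcard : Nat.card V ≤ p ^ 2)
    (N L : Submodule (ZMod p) V) (hN1 : N ≠ ⊤) (hL : L ≠ ⊤) :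
    N ⊓ L = ⊥ ∨ L = N := by
  haveI : Module.Finite (ZMod p) V := Module.Finite.of_finite
  have hp : p.Prime := Fact.out
  have hV : Module.finrank (ZMod p) V ≤ 2 := by
    letI : Fintype V := Fintype.ofFinite V
    have h1 : Fintype.card V = Fintype.card (ZMod p) ^ Module.finrank (ZMod p) V :=
      Module.card_eq_pow_finrank
    rw [ZMod.card, ← Nat.card_eq_fintype_card] at h1
    rw [h1] at hcard
    exact (Nat.pow_le_pow_iff_right hp.one_lt).1 hcard
  have hN : Module.finrank (ZMod p) N ≤ 1 := by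
    have := Submodule.finrank_lt hN1
    omega
  have hL' : Module.finrank (ZMod p) L ≤ 1 := by
    have := Submodule.finrank_lt hL
    omega
  by_cases h : N ⊓ L = ⊥
  · exact Or.inl h
  · right
    have h1 : 1 ≤ Module.finrank (ZMod p) (N ⊓ L : Submodule (ZMod p) V) := by
      by_contra hlt
      apply h
      apply Submodule.finrank_eq_zero.1
      omega
    have e1 : N ⊓ L = N :=
      Submodule.eq_of_le_of_finrank_le inf_le_left (le_trans hN h1)
    have e2 : N ⊓ L = L :=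
      Submodule.eq_of_le_of_finrank_le inf_le_right (le_trans hL' h1)
    rw [← e2, e1]

/-- **The dichotomy at `p`**, general form.  `W` is a Weierstrass curve over `ℚ` whose
coefficients are integral at `A`, `p` is a prime, `#E[p] ≤ p²`; inertia at `A` moves `E[p]` into
the kernel of reduction, and some point of `E[p]` is not in the kernel of reduction.  Then for
every proper nonzero Galois-stable submodule `N` of `E[p]` the inertia group at `A` acts trivially
on `N` or trivially on `E[p] / N`. -/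
theorem h4_atP_dichotomy {W : WeierstrassCurve ℚ} {p : ℕ} (hp : p.Prime)
    (A : ValuationSubring Qbar)
    (ha₁ : (W⁄Qbar).a₁ ∈ A) (ha₂ : (W⁄Qbar).a₂ ∈ A) (ha₃ : (W⁄Qbar).a₃ ∈ A)
    (ha₄ : (W⁄Qbar).a₄ ∈ A) (ha₆ : (W⁄Qbar).a₆ ∈ A)
    (hfin : Finite (Tors W p)) (hcard : Nat.card (Tors W p) ≤ p ^ 2)
    (hred : ∀ σ ∈ A.inertiaSubgroupIn ℚ, ∀ Q : (W⁄Qbar).Point, (p : ℤ) • Q = 0 →
      InE1 A (σ • Q - Q))
    (hSS : ∃ x : Tors W p, ¬ InE1 A (x : (W⁄Qbar).Point))
    (N : Submodule (ZMod p) (Tors W p)) (hN : IsGaloisStable ℚ N) (htop : N ≠ ⊤) :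
    (∀ σ ∈ A.inertiaSubgroupIn ℚ, ∀ x ∈ N, σ • x = x) ∨
      (∀ σ ∈ A.inertiaSubgroupIn ℚ, ∀ x : Tors W p, σ • x - x ∈ N) := by
  haveI : Fact p.Prime := ⟨hp⟩
  haveI := hfin
  -- the subspace `L = V ∩ E₁(A)`
  let L₀ : AddSubgroup (Tors W p) :=
    { carrier := {x | InE1 A (x : (W⁄Qbar).Point)}
      zero_mem' := inE1_zero A
      add_mem' := fun {x y} hx hy => inE1_add A ha₁ ha₂ ha₃ ha₄ ha₆ hx hy
      neg_mem' := fun {x} hx => inE1_neg A hx }
  let L : Submodule (ZMod p) (Tors W p) := AddSubgroup.toZModSubmodule p L₀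
  have hLmem : ∀ x : Tors W p, x ∈ L ↔ InE1 A (x : (W⁄Qbar).Point) := fun x => Iff.rfl
  have hLtop : L ≠ ⊤ := by
    obtain ⟨x, hx⟩ := hSS
    intro h
    apply hx
    rw [← hLmem, h]
    exact Submodule.mem_top
  have hmove : ∀ σ ∈ A.inertiaSubgroupIn ℚ, ∀ x : Tors W p, σ • x - x ∈ L := by
    intro σ hσ x
    rw [hLmem]
    have hx : (p : ℤ) • (x : (W⁄Qbar).Point) = 0 := by
      have := x.2
      rwa [Submodule.mem_torsionBy_iff] at this
    exact hred σ hσ x.1 hx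
  rcases h4_line_dichotomy hcard N L htop hLtop with h | h
  · left
    intro σ hσ x hx
    have h1 : σ • x - x ∈ N ⊓ L :=
      ⟨N.sub_mem (hN σ x hx) hx, hmove σ hσ x⟩
    rw [h, Submodule.mem_bot] at h1
    exact sub_eq_zero.1 h1
  · right
    intro σ hσ x
    rw [← h]
    exact hmove σ hσ x

/-- **(AtP)** of helper86's skeleton from **(SS)**. -/
theorem ifaceAtP_of_ifaceSS (hSS : IfaceSS) : IfaceAtP := by
  intro p hp hp2 W hW hΔ A hA hmodel N hN hbot htop
  obtain ⟨A₂, A₄, hWdef⟩ := hW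
  have hAq : ((p : ℕ) : Qbar) ∈ A.nonunits := hA
  have h2 : IsUnitOf A (2 : Qbar) := two_isUnitOf hp hAq hp2
  have hodd : Odd p := hp.odd_of_ne_two hp2
  have hΔ' : (W⁄Qbar).Δ ≠ 0 := Fermat.Agent.S51.A_baseChange_Δ_ne_zero W hΔ
  obtain ⟨D, -, -, -, -, -, hfin, hcard⟩ := T_exists_divPoly (W⁄Qbar) hΔ' p hp hp2
  have ha₁ : (W⁄Qbar).a₁ ∈ A := by
    have : (W⁄Qbar).a₁ = 0 := by simp [WeierstrassCurve.baseChange, hWdef]
    rw [this]; exact A.zero_mem
  have ha₂ : (W⁄Qbar).a₂ ∈ A := by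
    have : (W⁄Qbar).a₂ = (A₂ : Qbar) := by simp [WeierstrassCurve.baseChange, hWdef]
    rw [this]; exact _root_.intCast_mem A A₂
  have ha₃ : (W⁄Qbar).a₃ ∈ A := by
    have : (W⁄Qbar).a₃ = 0 := by simp [WeierstrassCurve.baseChange, hWdef]
    rw [this]; exact A.zero_mem
  have ha₄ : (W⁄Qbar).a₄ ∈ A := by
    have : (W⁄Qbar).a₄ = (A₄ : Qbar) := by simp [WeierstrassCurve.baseChange, hWdef]
    rw [this]; exact _root_.intCast_mem A A₄
  have ha₆ : (W⁄Qbar).a₆ ∈ A := by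
    have : (W⁄Qbar).a₆ = 0 := by simp [WeierstrassCurve.baseChange, hWdef]
    rw [this]; exact A.zero_mem
  have hred : ∀ σ ∈ A.inertiaSubgroupIn ℚ, ∀ Q : (W⁄Qbar).Point, (p : ℤ) • Q = 0 →
      InE1 A (σ • Q - Q) := by
    intro σ hσ Q hQ
    rcases hmodel with hg | hn
    · exact h4_inertia_sub_inE1_of_isGoodModel hg hσ Q
    · refine h4_inertia_sub_inE1_of_isShortNodal hodd h2 hn hσ Q ?_
      rwa [natCast_zsmul] at hQ
  have hex : ∃ x : Tors W p, ¬ InE1 A (x : (W⁄Qbar).Point) := by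
    by_contra hall
    push Not at hall
    refine hSS p hp hp2 W ⟨0, A₂, 0, A₄, 0, by simp [hWdef]⟩ hΔ A hA ?_ N hN hbot htop
    intro Q hQ
    exact hall ⟨Q, (Submodule.mem_torsionBy_iff _ _).2 hQ⟩
  exact h4_atP_dichotomy hp A ha₁ ha₂ ha₃ ha₄ ha₆ hfin hcard hred hex N hN htop

/-- The discriminant of the Frey curve is nonzero. -/
theorem h4_freyCurve_Δ_ne_zero (P : FreyPackage) : P.freyCurve.Δ ≠ 0 := by
  rw [freyCurve_eq_smul_short P, variableChange_Δ, freyShort_Δ]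
  have ha : (P.a : ℚ) ≠ 0 := by exact_mod_cast P.ha0
  have hb : (P.b : ℚ) ≠ 0 := by exact_mod_cast P.hb0
  have hc : (P.c : ℚ) ≠ 0 := by exact_mod_cast P.hc0
  refine mul_ne_zero (pow_ne_zero _ (Units.ne_zero _)) ?_
  exact mul_ne_zero (by norm_num)
    (pow_ne_zero _ (mul_ne_zero (mul_ne_zero (pow_ne_zero _ ha) (pow_ne_zero _ hb))
      (pow_ne_zero _ hc)))

/-- The coefficients of the Frey curve are integral at every place `A` at which `2` is a
unit. -/
theorem h4_freyCurve_coeff_mem (P : FreyPackage) (A : ValuationSubring Qbar)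
    (h2 : IsUnitOf A (2 : Qbar)) :
    (P.freyCurve⁄Qbar).a₁ ∈ A ∧ (P.freyCurve⁄Qbar).a₂ ∈ A ∧ (P.freyCurve⁄Qbar).a₃ ∈ A ∧
      (P.freyCurve⁄Qbar).a₄ ∈ A ∧ (P.freyCurve⁄Qbar).a₆ ∈ A := by
  have h2i : (2 : Qbar)⁻¹ ∈ A := h2.inv_mem A
  have ha : (P.a : Qbar) ∈ A := _root_.intCast_mem A P.a
  have hb : (P.b : Qbar) ∈ A := _root_.intCast_mem A P.b
  have e₁ : (P.freyCurve⁄Qbar).a₁ = 1 := by
    simp [WeierstrassCurve.baseChange, FreyPackage.freyCurve]
  have e₂ : (P.freyCurve⁄Qbar).a₂ =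
      ((P.b : Qbar) ^ P.p - 1 - (P.a : Qbar) ^ P.p) * ((2 : Qbar)⁻¹) ^ 2 := by
    simp [WeierstrassCurve.baseChange, FreyPackage.freyCurve]
    ring
  have e₃ : (P.freyCurve⁄Qbar).a₃ = 0 := by
    simp [WeierstrassCurve.baseChange, FreyPackage.freyCurve]
  have e₄ : (P.freyCurve⁄Qbar).a₄ =
      -((P.a : Qbar) ^ P.p) * (P.b : Qbar) ^ P.p * ((2 : Qbar)⁻¹) ^ 4 := by
    simp [WeierstrassCurve.baseChange, FreyPackage.freyCurve]
    ring
  have e₆ : (P.freyCurve⁄Qbar).a₆ = 0 := by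
    simp [WeierstrassCurve.baseChange, FreyPackage.freyCurve]
  refine ⟨?_, ?_, ?_, ?_, ?_⟩
  · rw [e₁]; exact A.one_mem
  · rw [e₂]
    exact A.mul_mem _ _ (A.sub_mem (A.sub_mem (pow_mem hb _) A.one_mem) (pow_mem ha _))
      (pow_mem h2i 2)
  · rw [e₃]; exact A.zero_mem
  · rw [e₄]
    exact A.mul_mem _ _ (A.mul_mem _ _ (A.neg_mem _ (pow_mem ha _)) (pow_mem hb _))
      (pow_mem h2i 4)
  · rw [e₆]; exact A.zero_mem

/-- **The dichotomy at `p` on the Frey model** (for the assembly from the interfaces of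
`S13/Defs.lean`): given `IfP2 P`, for every place `A` over `p` and every proper nonzero
Galois-stable submodule `N` of `E[p]`, the inertia group at `A` acts trivially on `N` or
trivially on `E[p] / N`. -/
theorem h4_frey_atP_dichotomy (P : FreyPackage) (hP2 : IfP2 P) (A : ValuationSubring Qbar)
    (hA : A.LiesOverPrime P.p) (N : Submodule (ZMod P.p) (FreyTors P))
    (hN : IsGaloisStable ℚ N) (hbot : N ≠ ⊥) (htop : N ≠ ⊤) :
    (∀ σ ∈ A.inertiaSubgroupIn ℚ, ∀ x ∈ N, σ • x = x) ∨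
      (∀ σ ∈ A.inertiaSubgroupIn ℚ, ∀ x : FreyTors P, σ • x - x ∈ N) := by
  have hAq : ((P.p : ℕ) : Qbar) ∈ A.nonunits := hA
  have hp2 : P.p ≠ 2 := by have := P.hp5; omega
  have h2 : IsUnitOf A (2 : Qbar) := two_isUnitOf P.pp hAq hp2
  obtain ⟨ha₁, ha₂, ha₃, ha₄, ha₆⟩ := h4_freyCurve_coeff_mem P A h2
  have hΔ' : (P.freyCurve⁄Qbar).Δ ≠ 0 :=
    Fermat.Agent.S51.A_baseChange_Δ_ne_zero P.freyCurve (h4_freyCurve_Δ_ne_zero P)
  obtain ⟨D, -, -, -, -, -, hfin, hcard⟩ := T_exists_divPoly (P.freyCurve⁄Qbar) hΔ' P.p P.pp hp2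
  exact h4_atP_dichotomy P.pp A ha₁ ha₂ ha₃ ha₄ ha₆ hfin hcard (ifRedP P A hA)
    (hP2 A hA N hN hbot htop) N hN htop

end Fermat.Agent.S13
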