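import Fermat.Agent.S05.H76Comp

/-!
# S13 module L2, part 1 (helper76): consequences of the component map

* `typeZ_of_rel_one` : a point whose height is trivial modulo even powers of `v a₄` lies in the
  identity component (`Q = 0` or `1 ≤ v x`).
* `typeZ_sub_of_ht_eq` : two points of the same height differ by a point of the identity
  component.
* `nodal_unit_nonsingular` : on the nodal model, a point whose `x`-coordinate is a unit has
  nonsingular reduction (no hypothesis on the residue characteristic).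
-/

set_option autoImplicit false
set_option linter.unusedSectionVars false

namespace Fermat.Agent.S13.L2

open WeierstrassCurve WeierstrassCurve.Affine Fermat.Agent.S05.H76

variable {K : Type*} [Field K] [DecidableEq K] {Γ₀ : Type*} [LinearOrderedCommGroupWithZero Γ₀]
variable {v : Valuation K Γ₀} {W : WeierstrassCurve K} {r₁ r₂ : K}

/-- Membership in the identity component. -/
def TypeZ (v : Valuation K Γ₀) (W : WeierstrassCurve K) (Q : W.toAffine.Point) : Prop :=
  Q = 0 ∨ ∃ (x y : K) (h : W.toAffine.Nonsingular x y), Q = .some x y h ∧ 1 ≤ v x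

theorem ht_ne_zero (hV : NodalVal v W r₁ r₂) (P : W.toAffine.Point) : ht v W r₁ P ≠ 0 := by
  have hg : v W.a₄ ≠ 0 := (v.ne_zero_iff).mpr hV.hw0
  rcases P with _ | ⟨x, y, h⟩
  · exact one_ne_zero
  · by_cases h1 : 1 ≤ v x
    · rw [ht_Z v W r₁ h h1]; exact one_ne_zero
    · push Not at h1
      by_cases h2 : v x ≤ v W.a₄
      · rw [ht_M v W r₁ h hV.hw h2]; exact hg
      · push Not at h2
        have hx0 : v x ≠ 0 := fun h' => by rw [h'] at h2; exact not_lt_zero h2
        by_cases h3 : v (y - r₁ * x) < v x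
        · rw [ht_plus v W r₁ h h1 h2 h3]; exact hx0
        · have hht : ht v W r₁ (.some x y h) = (v x)⁻¹ := by
            simp only [ht, if_neg (not_le.mpr h1), if_neg (not_le.mpr h2), if_neg h3]
          rw [hht]; exact inv_ne_zero hx0

/-- A point of trivial height class lies in the identity component. -/
theorem typeZ_of_rel_one (hV : NodalVal v W r₁ r₂) {Q : W.toAffine.Point}
    (h : Rel (v W.a₄) (ht v W r₁ Q) 1) : TypeZ v W Q := by
  have hg : v W.a₄ ≠ 0 := (v.ne_zero_iff).mpr hV.hw0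
  have hpg : 0 < v W.a₄ := zero_lt_iff.mpr hg
  obtain ⟨j, hj⟩ := h
  rw [one_mul] at hj
  rcases Q with _ | ⟨x, y, hQ⟩
  · exact Or.inl rfl
  · refine Or.inr ⟨x, y, hQ, rfl, ?_⟩
    by_contra h1
    push Not at h1
    by_cases h2 : v x ≤ v W.a₄
    · rw [ht_M v W r₁ hQ hV.hw h2, ← zpow_natCast, ← zpow_mul] at hj
      have h5 : v W.a₄ ^ ((2 : ℕ) * j - 1 : ℤ) = 1 := by
        rw [zpow_sub₀ hg, zpow_one, ← hj, div_self hg]
      have h6 := (zpow_eq_one_iff_right₀ zero_le (ne_of_lt hV.hw)).mp h5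
      omega
    · push Not at h2
      have hx0 : v x ≠ 0 := fun h' => by rw [h'] at h2; exact not_lt_zero h2
      -- in both branches `v x = g ^ (2k)` for some integer `k`
      have key : ∃ k : ℤ, v x = v W.a₄ ^ (2 * k) := by
        by_cases h3 : v (y - r₁ * x) < v x
        · rw [ht_plus v W r₁ hQ h1 h2 h3, ← zpow_natCast, ← zpow_mul] at hj
          exact ⟨j, by rw [hj]; congr 1⟩
        · have hht : ht v W r₁ (.some x y hQ) = (v x)⁻¹ := by
            simp only [ht, if_neg (not_le.mpr h1), if_neg (not_le.mpr h2), if_neg h3]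
          rw [hht, ← zpow_natCast, ← zpow_mul] at hj
          refine ⟨-j, ?_⟩
          have : v x = ((v x)⁻¹)⁻¹ := (inv_inv _).symm
          rw [this, hj, ← zpow_neg]
          congr 1
          push_cast; ring
      obtain ⟨k, hk⟩ := key
      -- `g < g^(2k) < 1` is impossible
      rw [hk] at h1 h2
      have hk1 : 0 < 2 * k := by
        by_contra hneg
        push Not at hneg
        rcases eq_or_lt_of_le hneg with h0 | hlt
        · rw [h0, zpow_zero] at h1; exact lt_irrefl _ h1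
        · have := one_lt_zpow_of_neg₀ hpg hV.hw hlt
          exact lt_irrefl _ (lt_trans this h1)
      have hk2 : (1 : ℤ) < 2 * k := by omega
      have h7 : v W.a₄ ^ (2 * k) < v W.a₄ ^ (1 : ℤ) :=
        zpow_lt_zpow_right_of_lt_one₀ hpg hV.hw hk2
      rw [zpow_one] at h7
      exact lt_irrefl _ (lt_trans h7 h2)

/-- Two points of the same height differ by a point of the identity component. -/
theorem typeZ_sub_of_ht_eq (hV : NodalVal v W r₁ r₂) {P P' : W.toAffine.Point}
    (h : ht v W r₁ P' = ht v W r₁ P) : TypeZ v W (P' - P) := by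
  have hg : v W.a₄ ≠ 0 := (v.ne_zero_iff).mpr hV.hw0
  apply typeZ_of_rel_one hV
  obtain ⟨j, hj⟩ := ht_add hV (P' - P) P
  rw [sub_add_cancel, h] at hj
  have hH := ht_ne_zero hV P
  refine ⟨-j, ?_⟩
  rw [one_mul]
  have h2 : ht v W r₁ P * 1 = ht v W r₁ P * (ht v W r₁ (P' - P) * (v W.a₄ ^ 2) ^ j) := by
    rw [mul_one]
    calc ht v W r₁ P = ht v W r₁ (P' - P) * ht v W r₁ P * (v W.a₄ ^ 2) ^ j := hj
      _ = ht v W r₁ P * (ht v W r₁ (P' - P) * (v W.a₄ ^ 2) ^ j) := by ac_rfl
  have h3 := mul_left_cancel₀ hH h2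
  rw [zpow_neg, eq_comm]
  have hG : (v W.a₄ ^ 2) ^ j ≠ 0 := zpow_ne_zero _ (pow_ne_zero 2 hg)
  rw [inv_eq_iff_eq_inv, ← one_div, eq_div_iff (by exact mul_ne_zero_iff.mp (by rw [← h3]; exact one_ne_zero) |>.1)]
  rw [mul_comm]; exact h3.symm

/-- Integrality of `y` for a point with unit `x` on the nodal model. -/
theorem v_y_le_one (hV : NodalVal v W r₁ r₂) {x y : K} (h : W.toAffine.Equation x y)
    (hx : v x = 1) : v y ≤ 1 := by
  by_contra hy
  push Not at hy
  have hc := (hV.model.equation_iff x y).mp h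
  have h1 : ∀ r : K, v r ≤ 1 → v (y - r * x) = v y := fun r hr =>
    v.map_sub_eq_of_lt_left (by rw [map_mul, hx, mul_one]; exact lt_of_le_of_lt hr hy)
  have h2 : v (x ^ 3 + W.a₄ * x) ≤ 1 :=
    v.map_add_le (by rw [map_pow, hx, one_pow]) (by rw [map_mul, hx, mul_one]; exact hV.hw.le)
  rw [← hc, map_mul, h1 r₁ hV.hr₁, h1 r₂ hV.hr₂] at h2
  have h3 : 1 < v y * v y := by
    calc (1 : Γ₀) = 1 * 1 := (one_mul _).symm
      _ < v y * v y := mul_lt_mul'' hy hy zero_le zero_le
  exact lt_irrefl _ (lt_of_lt_of_le h3 h2)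

/-- On the nodal model, a point whose `x`-coordinate is a unit has nonsingular reduction: the two
partial derivatives are not both in the maximal ideal. No hypothesis on the residue
characteristic. -/
theorem nodal_unit_nonsingular (hV : NodalVal v W r₁ r₂) {x y : K}
    (h : W.toAffine.Equation x y) (hx : v x = 1) :
    ¬ (v (W.a₁ * y - (3 * x ^ 2 + 2 * W.a₂ * x + W.a₄)) < 1 ∧
        v (2 * y + W.a₁ * x + W.a₃) < 1) := by
  rintro ⟨hFX, hFY⟩
  have hy := v_y_le_one hV h hx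
  have hc := (hV.model.equation_iff x y).mp h
  set FX : K := W.a₁ * y - (3 * x ^ 2 + 2 * W.a₂ * x + W.a₄) with hFXdef
  set FY : K := 2 * y + W.a₁ * x + W.a₃ with hFYdef
  have hv2 : v (2 : K) ≤ 1 := by
    have h8 : (2 : K) = 1 + 1 := by norm_num
    rw [h8]
    exact v.map_add_le (le_of_eq (map_one v)) (le_of_eq (map_one v))
  have hv3 : v (3 : K) ≤ 1 := by
    have h8 : (3 : K) = 2 + 1 := by norm_num
    rw [h8]
    exact v.map_add_le hv2 (le_of_eq (map_one v))
  have hd : v (r₁ - r₂) = 1 := hV.hr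
  have ht1 : v (y - r₁ * x) ≤ 1 :=
    v.map_sub_le hy (by rw [map_mul, hx, mul_one]; exact hV.hr₁)
  -- the auxiliary element `B = FX + r₁ FY + a₄`
  have hB : v (FX + r₁ * FY + W.a₄) < 1 :=
    v.map_add_lt (v.map_add_lt hFX
      (by rw [map_mul]; exact lt_of_le_of_lt (mul_le_mul' hV.hr₁ le_rfl) (by rw [one_mul]; exact hFY)))
      hV.hw
  -- `M₁ = d² x + 6 x²`
  have hM1eq : (r₁ - r₂) ^ 2 * x + 6 * x ^ 2 =
      (r₁ - r₂) * FY - 2 * (FX + r₁ * FY + W.a₄) := by
    simp only [hFXdef, hFYdef, hV.model.a₁, hV.model.a₂, hV.model.a₃]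
    ring
  have hM1 : v ((r₁ - r₂) ^ 2 * x + 6 * x ^ 2) < 1 := by
    rw [hM1eq]
    apply v.map_sub_lt
    · rw [map_mul, hd, one_mul]; exact hFY
    · rw [map_mul]
      exact lt_of_le_of_lt (mul_le_mul' hv2 le_rfl) (by rw [one_mul]; exact hB)
  -- `M₂ = 9 x⁴ + d² x³`
  have hM2eq : 9 * x ^ 4 + (r₁ - r₂) ^ 2 * x ^ 3 =
      (r₁ - r₂) ^ 2 * ((y - r₁ * x) * FY - W.a₄ * x)
        - (FX + r₁ * FY + W.a₄) * (FX + r₁ * FY + W.a₄ + 6 * x ^ 2) := by
    simp only [hFXdef, hFYdef, hV.model.a₁, hV.model.a₂, hV.model.a₃]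
    linear_combination (-(r₁ - r₂) ^ 2) * hc
  have hv6 : v (6 * x ^ 2) ≤ 1 := by
    have h8 : (6 : K) = 2 * 3 := by norm_num
    rw [h8, map_mul, map_mul, map_pow, hx, one_pow, mul_one]
    calc v 2 * v 3 ≤ 1 * 1 := mul_le_mul' hv2 hv3
      _ = 1 := one_mul _
  have hM2 : v (9 * x ^ 4 + (r₁ - r₂) ^ 2 * x ^ 3) < 1 := by
    rw [hM2eq]
    apply v.map_sub_lt
    · rw [map_mul, map_pow, hd, one_pow, one_mul]
      apply v.map_sub_lt
      · rw [map_mul]
        exact lt_of_le_of_lt (mul_le_mul' ht1 le_rfl) (by rw [one_mul]; exact hFY)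
      · rw [map_mul, hx, mul_one]; exact hV.hw
    · rw [map_mul]
      have h9 : v (FX + r₁ * FY + W.a₄ + 6 * x ^ 2) ≤ 1 := v.map_add_le hB.le hv6
      calc v (FX + r₁ * FY + W.a₄) * v (FX + r₁ * FY + W.a₄ + 6 * x ^ 2)
          ≤ v (FX + r₁ * FY + W.a₄) * 1 := mul_le_mul' le_rfl h9
        _ = v (FX + r₁ * FY + W.a₄) := mul_one _
        _ < 1 := hB
  -- combine
  have hcomb : (r₁ - r₂) ^ 2 * x ^ 3 =
      3 * x ^ 2 * ((r₁ - r₂) ^ 2 * x + 6 * x ^ 2) - 2 * (9 * x ^ 4 + (r₁ - r₂) ^ 2 * x ^ 3) := by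
    ring
  have hlt : v ((r₁ - r₂) ^ 2 * x ^ 3) < 1 := by
    rw [hcomb]
    apply v.map_sub_lt
    · rw [map_mul, map_mul, map_pow, hx, one_pow, mul_one]
      exact lt_of_le_of_lt (mul_le_mul' hv3 le_rfl) (by rw [one_mul]; exact hM1)
    · rw [map_mul]
      exact lt_of_le_of_lt (mul_le_mul' hv2 le_rfl) (by rw [one_mul]; exact hM2)
  rw [map_mul, map_pow, map_pow, hd, hx, one_pow, one_pow, one_mul] at hlt
  exact lt_irrefl _ hlt

end Fermat.Agent.S13.L2
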