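import Fermat.Agent.S13.L2Core
import Fermat.Agent.S05.H86Nodal
import Fermat.Agent.S05.Kernel

/-!
# S13 module L2, part 2 (helper76): inertia on the nodal model

For a Weierstrass curve over `R` whose base change to `K` is a nodal model with respect to a
valuation subring `A` of `K`, and `σ` in the inertia group of `A` preserving the valuation:

* `inertia_ht_eq` : `σ` preserves the height (component class) of every point;
* `inertia_sub_typeZ` : `σ • P - P` lies in the identity component, for every point `P`;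
* `inertia_smul_eq_of_typeZ` : torsion points (of order a unit of `A`) in the identity component
  are fixed by `σ`;
* `inertia_unipotent` : `σ • (σ • P - P) = σ • P - P` for torsion points `P`.
-/

set_option autoImplicit false
set_option linter.unusedSectionVars false

namespace Fermat.Agent.S13.L2

open WeierstrassCurve Fermat.Agent.S05 Fermat.Agent.S05.H76
open scoped WeierstrassCurve.Affine

variable {R : Type*} {S : Type*} {K : Type*} [CommRing R] [Field S] [Field K]
  [DecidableEq K] [Algebra R S] [Algebra R K] [Algebra S K] [IsScalarTower R S K]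

/-- `σ` fixes the coefficients coming from `R`. -/
theorem algEquiv_algebraMap (σ : K ≃ₐ[S] K) (a : R) : σ (algebraMap R K a) = algebraMap R K a := by
  rw [IsScalarTower.algebraMap_apply R S K, AlgEquiv.commutes]

/-- An inertia element fixes the tangent direction `r₁` at the node. -/
theorem inertia_fix_root (W' : Affine R) (A : ValuationSubring K) {r₁ r₂ : K}
    (hV : NodalVal A.valuation (W'⁄K) r₁ r₂) {σ : K ≃ₐ[S] K}
    (hσ : σ ∈ A.inertiaSubgroupIn S) : σ r₁ = r₁ := by
  have hr₁A : r₁ ∈ A := (A.valuation_le_one_iff _).mp hV.hr₁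
  obtain ⟨-, hm⟩ := H86.inertia_apply_mem A hσ hr₁A
  have ha₁ : σ ((W'⁄K).a₁) = (W'⁄K).a₁ := algEquiv_algebraMap σ W'.a₁
  have ha₂ : σ ((W'⁄K).a₂) = (W'⁄K).a₂ := algEquiv_algebraMap σ W'.a₂
  have h1 : r₁ ^ 2 + (W'⁄K).a₁ * r₁ - (W'⁄K).a₂ = 0 := by
    rw [hV.model.a₁, hV.model.a₂]; ring
  have h2 : (σ r₁) ^ 2 + (W'⁄K).a₁ * σ r₁ - (W'⁄K).a₂ = 0 := by
    have := congrArg σ h1
    rw [map_sub, map_add, map_pow, map_mul, ha₁, ha₂, map_zero] at this
    exact this
  have h3 : (σ r₁ - r₁) * (σ r₁ - r₂) = 0 := by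
    rw [hV.model.a₁, hV.model.a₂] at h2
    linear_combination h2
  rcases mul_eq_zero.mp h3 with h | h
  · exact sub_eq_zero.mp h
  · exfalso
    have h4 : σ r₁ - r₁ = -(r₁ - r₂) := by
      rw [sub_eq_zero.mp h]; ring
    rw [h4, A.mem_nonunits_iff, Valuation.map_neg, hV.hr] at hm
    exact lt_irrefl _ hm

/-- The action of `σ` on an affine point. -/
theorem smul_some (W' : Affine R) (σ : K ≃ₐ[S] K) {x y : K} (h : (W'⁄K).Nonsingular x y) :
    ∃ h' : (W'⁄K).Nonsingular (σ x) (σ y),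
      σ • (Affine.Point.some x y h : (W'⁄K).Point) = Affine.Point.some (σ x) (σ y) h' := by
  have hnsσ : (W'⁄K).Nonsingular (σ x) (σ y) := by
    have := (Affine.baseChange_nonsingular (W := W') σ.toAlgHom.injective x y).2 h
    simpa using this
  refine ⟨hnsσ, ?_⟩
  have hsmul : σ • (Affine.Point.some x y h : (W'⁄K).Point) =
      Affine.Point.map (W' := W') σ.toAlgHom (Affine.Point.some x y h) := rfl
  have hmap := Affine.Point.map_some (W' := W') (f := σ.toAlgHom) h
  rw [hsmul, hmap]; rfl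

/-- Inertia preserves the height. -/
theorem inertia_ht_eq (W' : Affine R) (A : ValuationSubring K) {r₁ r₂ : K}
    (hV : NodalVal A.valuation (W'⁄K) r₁ r₂) {σ : K ≃ₐ[S] K}
    (hσ : σ ∈ A.inertiaSubgroupIn S) (hσv : ∀ z : K, A.valuation (σ z) = A.valuation z)
    (P : (W'⁄K).Point) :
    ht A.valuation (W'⁄K) r₁ (σ • P) = ht A.valuation (W'⁄K) r₁ P := by
  rcases P with _ | ⟨x, y, h⟩
  · rfl
  · obtain ⟨h', hs⟩ := smul_some W' σ h
    rw [hs]
    have hr := inertia_fix_root W' A hV hσ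
    have h1 : σ y - r₁ * σ x = σ (y - r₁ * x) := by rw [map_sub, map_mul, hr]
    simp only [ht, h1, hσv]

/-- For every point `P`, the point `σ • P - P` lies in the identity component. -/
theorem inertia_sub_typeZ (W' : Affine R) (A : ValuationSubring K) {r₁ r₂ : K}
    (hV : NodalVal A.valuation (W'⁄K) r₁ r₂) {σ : K ≃ₐ[S] K}
    (hσ : σ ∈ A.inertiaSubgroupIn S) (hσv : ∀ z : K, A.valuation (σ z) = A.valuation z)
    (P : (W'⁄K).Point) : TypeZ A.valuation (W'⁄K) (σ • P - P) :=
  typeZ_sub_of_ht_eq hV (inertia_ht_eq W' A hV hσ hσv P)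

/-- Torsion points in the identity component are fixed by inertia (the order being a unit). -/
theorem inertia_smul_eq_of_typeZ (W' : Affine R) (A : ValuationSubring K) {r₁ r₂ : K}
    (hV : NodalVal A.valuation (W'⁄K) r₁ r₂) {σ : K ≃ₐ[S] K}
    (hσ : σ ∈ A.inertiaSubgroupIn S) {n : ℕ} (hn : (n : K) ∉ A.nonunits)
    {Q : (W'⁄K).Point} (hQ : TypeZ A.valuation (W'⁄K) Q) (hnQ : n • Q = 0) : σ • Q = Q := by
  have hr₁A : r₁ ∈ A := (A.valuation_le_one_iff _).mp hV.hr₁
  have hr₂A : r₂ ∈ A := (A.valuation_le_one_iff _).mp hV.hr₂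
  have ha₁ : (W'⁄K).a₁ ∈ A := by
    rw [hV.model.a₁]; exact neg_mem (add_mem hr₁A hr₂A)
  have ha₂ : (W'⁄K).a₂ ∈ A := by
    rw [hV.model.a₂]; exact neg_mem (mul_mem hr₁A hr₂A)
  have ha₃ : (W'⁄K).a₃ ∈ A := by rw [hV.model.a₃]; exact zero_mem A
  have ha₄ : (W'⁄K).a₄ ∈ A := (A.valuation_le_one_iff _).mp hV.hw.le
  have ha₆ : (W'⁄K).a₆ ∈ A := by rw [hV.model.a₆]; exact zero_mem A
  have hII := kernelTorsionFree A (W := (W'⁄K)) ha₁ ha₂ ha₃ ha₄ ha₆ hn
  rcases hQ with rfl | ⟨x, y, h, rfl, hx⟩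
  · exact smul_zero σ
  · rcases eq_or_lt_of_le hx with hx1 | hx1
    · -- unit `x`
      have hxA : x ∈ A := (A.valuation_le_one_iff _).mp (le_of_eq hx1.symm)
      have hns := nodal_unit_nonsingular hV h.1 hx1.symm
      have hns' : (W'⁄K).a₁ * y - (3 * x ^ 2 + 2 * (W'⁄K).a₂ * x + (W'⁄K).a₄) ∉ A.nonunits ∨
          2 * y + (W'⁄K).a₁ * x + (W'⁄K).a₃ ∉ A.nonunits := by
        by_contra hcon
        push Not at hcon
        exact hns ⟨A.mem_nonunits_iff.mp hcon.1, A.mem_nonunits_iff.mp hcon.2⟩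
      exact H86.inertia_smul_eq_of_nonsingular_reduction W' A ha₁ ha₂ ha₃ ha₄ ha₆ n hII hσ h
        hxA hns' hnQ
    · -- `x ∉ A`: kernel of reduction
      exfalso
      have hxA : x ∉ A := fun hx' =>
        absurd ((A.valuation_le_one_iff _).mpr hx') (not_le.mpr hx1)
      have := hII _ (Or.inr ⟨x, y, h, rfl, hxA⟩) hnQ
      exact Affine.Point.some_ne_zero h this

/-- Inertia acts unipotently on torsion of order prime to the residue characteristic. -/
theorem inertia_unipotent (W' : Affine R) (A : ValuationSubring K) {r₁ r₂ : K}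
    (hV : NodalVal A.valuation (W'⁄K) r₁ r₂) {σ : K ≃ₐ[S] K}
    (hσ : σ ∈ A.inertiaSubgroupIn S) (hσv : ∀ z : K, A.valuation (σ z) = A.valuation z)
    {n : ℕ} (hn : (n : K) ∉ A.nonunits) (P : (W'⁄K).Point) (hP : n • P = 0) :
    σ • (σ • P - P) = σ • P - P := by
  apply inertia_smul_eq_of_typeZ W' A hV hσ hn (inertia_sub_typeZ W' A hV hσ hσv P)
  rw [smul_sub, hP, ← smul_comm, hP, smul_zero, sub_zero]

end Fermat.Agent.S13.L2
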