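import Mathlib

/-!
# S13 / WP-T1: the x-only (Montgomery) ladder polynomials of a Weierstrass curve

For `W : WeierstrassCurve R` we define `lad W n = (X_n, Z_n) : R[X] × R[X]` by
`(X_0, Z_0) = (1, 0)`, `(X_1, Z_1) = (X, 1)`,
`(X_{2m}, Z_{2m}) = dbl (X_m, Z_m)`, `(X_{2m+1}, Z_{2m+1}) = dadd (X_{m+1}, Z_{m+1}) (X_m, Z_m)`.
For a point `P = (x, y)` one has `x(nP) = X_n(x) / Z_n(x)` (WP-T2), and `X_n` is monic of degree
`n²`, `Z_n` has degree `n² - 1` and leading coefficient `n²` (WP-T3).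
-/

set_option autoImplicit false

namespace Fermat.Agent.S13

open Polynomial

variable {R : Type*} [CommRing R]

/-- Homogenised duplication numerator `X⁴ - b₄X²Z² - 2b₆XZ³ - b₈Z⁴`. -/
noncomputable def ladDblX (W : WeierstrassCurve R) (U V : R[X]) : R[X] :=
  U ^ 4 - C W.b₄ * U ^ 2 * V ^ 2 - 2 * C W.b₆ * U * V ^ 3 - C W.b₈ * V ^ 4

/-- Homogenised duplication denominator `Z (4X³ + b₂X²Z + 2b₄XZ² + b₆Z³)`. -/
noncomputable def ladDblZ (W : WeierstrassCurve R) (U V : R[X]) : R[X] :=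
  V * (4 * U ^ 3 + C W.b₂ * U ^ 2 * V + 2 * C W.b₄ * U * V ^ 2 + C W.b₆ * V ^ 3)

/-- The cross term `D = X_a Z_b - X_b Z_a`. -/
noncomputable def ladD (Ua Va Ub Vb : R[X]) : R[X] := Ua * Vb - Ub * Va

/-- Differential addition, numerator: `G^h(a, b) - X · D²` (the difference point is `(X : 1)`). -/
noncomputable def ladAddX (W : WeierstrassCurve R) (Ua Va Ub Vb : R[X]) : R[X] :=
  2 * (Ua * Vb + Ub * Va) * (Ua * Ub) + C W.b₂ * (Ua * Ub) * (Va * Vb)
    + C W.b₄ * (Ua * Vb + Ub * Va) * (Va * Vb) + C W.b₆ * (Va * Vb) ^ 2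
    - X * ladD Ua Va Ub Vb ^ 2

/-- Differential addition, denominator: `D²`. -/
noncomputable def ladAddZ (Ua Va Ub Vb : R[X]) : R[X] := ladD Ua Va Ub Vb ^ 2

/-- The ladder: `lad W n = (X_n, Z_n)`. -/
noncomputable def lad (W : WeierstrassCurve R) : ℕ → R[X] × R[X]
  | 0 => (1, 0)
  | 1 => (X, 1)
  | (n + 2) =>
    if h : n % 2 = 0 then
      (ladDblX W (lad W (n / 2 + 1)).1 (lad W (n / 2 + 1)).2,
        ladDblZ W (lad W (n / 2 + 1)).1 (lad W (n / 2 + 1)).2)
    else
      (ladAddX W (lad W (n / 2 + 2)).1 (lad W (n / 2 + 2)).2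
          (lad W (n / 2 + 1)).1 (lad W (n / 2 + 1)).2,
        ladAddZ (lad W (n / 2 + 2)).1 (lad W (n / 2 + 2)).2
          (lad W (n / 2 + 1)).1 (lad W (n / 2 + 1)).2)
  termination_by n => n
  decreasing_by all_goals omega

/-- `X_n`. -/
noncomputable def ladX (W : WeierstrassCurve R) (n : ℕ) : R[X] := (lad W n).1

/-- `Z_n`. -/
noncomputable def ladZ (W : WeierstrassCurve R) (n : ℕ) : R[X] := (lad W n).2

variable (W : WeierstrassCurve R)

@[simp] theorem ladX_zero : ladX W 0 = 1 := by simp [ladX, lad]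
@[simp] theorem ladZ_zero : ladZ W 0 = 0 := by simp [ladZ, lad]
@[simp] theorem ladX_one : ladX W 1 = X := by simp [ladX, lad]
@[simp] theorem ladZ_one : ladZ W 1 = 1 := by simp [ladZ, lad]

theorem lad_two_mul (m : ℕ) :
    lad W (2 * m) = (ladDblX W (ladX W m) (ladZ W m), ladDblZ W (ladX W m) (ladZ W m)) := by
  rcases m with _ | m
  · simp [lad, ladX, ladZ, ladDblX, ladDblZ]
  · have e : 2 * (m + 1) = 2 * m + 2 := by ring
    have h0 : (2 * m) % 2 = 0 := by omega
    have h1 : (2 * m) / 2 = m := by omega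
    rw [e, lad, dif_pos h0, h1]
    rfl

theorem lad_two_mul_add_one (m : ℕ) :
    lad W (2 * m + 1) =
      (ladAddX W (ladX W (m + 1)) (ladZ W (m + 1)) (ladX W m) (ladZ W m),
        ladAddZ (ladX W (m + 1)) (ladZ W (m + 1)) (ladX W m) (ladZ W m)) := by
  rcases m with _ | m
  · simp [lad, ladX, ladZ, ladAddX, ladAddZ, ladD]
    ring
  · have e : 2 * (m + 1) + 1 = (2 * m + 1) + 2 := by ring
    have h0 : ¬ (2 * m + 1) % 2 = 0 := by omega
    have h1 : (2 * m + 1) / 2 = m := by omega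
    rw [e, lad, dif_neg h0, h1]
    rfl

theorem ladX_two_mul (m : ℕ) : ladX W (2 * m) = ladDblX W (ladX W m) (ladZ W m) := by
  rw [ladX, lad_two_mul]

theorem ladZ_two_mul (m : ℕ) : ladZ W (2 * m) = ladDblZ W (ladX W m) (ladZ W m) := by
  rw [ladZ, lad_two_mul]

theorem ladX_two_mul_add_one (m : ℕ) :
    ladX W (2 * m + 1) = ladAddX W (ladX W (m + 1)) (ladZ W (m + 1)) (ladX W m) (ladZ W m) := by
  rw [ladX, lad_two_mul_add_one]

theorem ladZ_two_mul_add_one (m : ℕ) :
    ladZ W (2 * m + 1) = ladAddZ (ladX W (m + 1)) (ladZ W (m + 1)) (ladX W m) (ladZ W m) := by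
  rw [ladZ, lad_two_mul_add_one]

/-- Strong induction principle adapted to the ladder. -/
theorem lad_induction {motive : ℕ → Prop} (h0 : motive 0) (h1 : motive 1)
    (hdbl : ∀ m, 1 ≤ m → motive m → motive (2 * m))
    (hadd : ∀ m, 1 ≤ m → motive m → motive (m + 1) → motive (2 * m + 1)) :
    ∀ n, motive n := by
  intro n
  induction n using Nat.strong_induction_on with
  | _ n ih =>
    rcases Nat.even_or_odd' n with ⟨m, rfl | rfl⟩
    · rcases m with _ | m
      · exact h0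
      · exact hdbl _ (by omega) (ih _ (by omega))
    · rcases m with _ | m
      · exact h1
      · exact hadd _ (by omega) (ih _ (by omega)) (ih _ (by omega))

section map

variable {S : Type*} [CommRing S] (f : R →+* S)

theorem ladDblX_map (U V : R[X]) :
    (ladDblX W U V).map f = ladDblX (W.map f) (U.map f) (V.map f) := by
  simp [ladDblX, WeierstrassCurve.map_b₄, WeierstrassCurve.map_b₆, WeierstrassCurve.map_b₈]

theorem ladDblZ_map (U V : R[X]) :
    (ladDblZ W U V).map f = ladDblZ (W.map f) (U.map f) (V.map f) := by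
  simp [ladDblZ, WeierstrassCurve.map_b₂, WeierstrassCurve.map_b₄, WeierstrassCurve.map_b₆]

theorem ladD_map (Ua Va Ub Vb : R[X]) :
    (ladD Ua Va Ub Vb).map f = ladD (Ua.map f) (Va.map f) (Ub.map f) (Vb.map f) := by
  simp [ladD]

theorem ladAddX_map (Ua Va Ub Vb : R[X]) :
    (ladAddX W Ua Va Ub Vb).map f =
      ladAddX (W.map f) (Ua.map f) (Va.map f) (Ub.map f) (Vb.map f) := by
  simp [ladAddX, ladD, WeierstrassCurve.map_b₂, WeierstrassCurve.map_b₄, WeierstrassCurve.map_b₆]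

theorem ladAddZ_map (Ua Va Ub Vb : R[X]) :
    (ladAddZ Ua Va Ub Vb).map f = ladAddZ (Ua.map f) (Va.map f) (Ub.map f) (Vb.map f) := by
  simp [ladAddZ, ladD]

theorem ladX_map_and_ladZ_map (n : ℕ) :
    (ladX W n).map f = ladX (W.map f) n ∧ (ladZ W n).map f = ladZ (W.map f) n := by
  induction n using lad_induction with
  | h0 => simp
  | h1 => simp
  | hdbl m _ ih =>
    rw [ladX_two_mul, ladZ_two_mul, ladX_two_mul, ladZ_two_mul, ladDblX_map, ladDblZ_map,
      ih.1, ih.2]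
    exact ⟨rfl, rfl⟩
  | hadd m _ ih ih' =>
    rw [ladX_two_mul_add_one, ladZ_two_mul_add_one, ladX_two_mul_add_one, ladZ_two_mul_add_one,
      ladAddX_map, ladAddZ_map, ih.1, ih.2, ih'.1, ih'.2]
    exact ⟨rfl, rfl⟩

theorem ladX_map (n : ℕ) : (ladX W n).map f = ladX (W.map f) n :=
  (ladX_map_and_ladZ_map W f n).1

theorem ladZ_map (n : ℕ) : (ladZ W n).map f = ladZ (W.map f) n :=
  (ladX_map_and_ladZ_map W f n).2

end map

end Fermat.Agent.S13
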