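import Fermat.Agent.S13.LadDefs

/-!
# S13 / WP-T3: degrees and top coefficients of the ladder polynomials

`X_n` has degree at most `n²` with coefficient `1` in degree `n²`; `Z_n` has degree at most
`n² - 1` with coefficient `n²` in degree `n² - 1`.  Valid over every commutative ring.
-/

set_option autoImplicit false

namespace Fermat.Agent.S13

open Polynomial

section Top

variable {R : Type*} [CommRing R]

/-- `p` has degree at most `d` and its coefficient in degree `d` is `c`. -/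
def T3_top (p : R[X]) (d : ℕ) (c : R) : Prop := p.natDegree ≤ d ∧ p.coeff d = c

lemma T3_top.mul {p q : R[X]} {d e : ℕ} {c c' : R} (hp : T3_top p d c) (hq : T3_top q e c') :
    T3_top (p * q) (d + e) (c * c') :=
  ⟨natDegree_mul_le_of_le hp.1 hq.1, by
    rw [coeff_mul_add_eq_of_natDegree_le hp.1 hq.1, hp.2, hq.2]⟩

lemma T3_top.one : T3_top (1 : R[X]) 0 1 := ⟨by simp, by simp⟩

lemma T3_top.pow {p : R[X]} {d : ℕ} {c : R} (hp : T3_top p d c) (k : ℕ) :
    T3_top (p ^ k) (k * d) (c ^ k) := by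
  induction k with
  | zero => simpa using (T3_top.one (R := R))
  | succ k ih =>
    have := ih.mul hp
    rwa [← pow_succ, ← pow_succ, ← Nat.succ_mul] at this

lemma T3_top.add {p q : R[X]} {d : ℕ} {c c' : R} (hp : T3_top p d c) (hq : T3_top q d c') :
    T3_top (p + q) d (c + c') :=
  ⟨natDegree_add_le_of_degree_le hp.1 hq.1, by rw [coeff_add, hp.2, hq.2]⟩

lemma T3_top.neg {p : R[X]} {d : ℕ} {c : R} (hp : T3_top p d c) : T3_top (-p) d (-c) :=
  ⟨by rw [natDegree_neg]; exact hp.1, by rw [coeff_neg, hp.2]⟩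

lemma T3_top.sub {p q : R[X]} {d : ℕ} {c c' : R} (hp : T3_top p d c) (hq : T3_top q d c') :
    T3_top (p - q) d (c - c') := by
  rw [sub_eq_add_neg, sub_eq_add_neg]
  exact hp.add hq.neg

lemma T3_top.C (a : R) : T3_top (Polynomial.C a) 0 a := ⟨by simp, by simp⟩

lemma T3_top.X : T3_top (Polynomial.X : R[X]) 1 1 := ⟨natDegree_X_le, by simp⟩

lemma T3_top.C_mul {p : R[X]} {d : ℕ} {c : R} (a : R) (hp : T3_top p d c) :
    T3_top (Polynomial.C a * p) d (a * c) := by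
  have := (T3_top.C a).mul hp
  rwa [zero_add] at this

lemma T3_top.two_mul {p : R[X]} {d : ℕ} {c : R} (hp : T3_top p d c) :
    T3_top (2 * p) d (2 * c) := by
  have h : (2 : R[X]) = Polynomial.C (2 : R) := (map_ofNat Polynomial.C 2).symm
  rw [h]
  exact hp.C_mul 2

lemma T3_top.four_mul {p : R[X]} {d : ℕ} {c : R} (hp : T3_top p d c) :
    T3_top (4 * p) d (4 * c) := by
  have h : (4 : R[X]) = Polynomial.C (4 : R) := (map_ofNat Polynomial.C 4).symm
  rw [h]
  exact hp.C_mul 4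

lemma T3_top.lift {p : R[X]} {d e : ℕ} {c : R} (hp : T3_top p d c) (h : d < e) :
    T3_top p e 0 :=
  ⟨hp.1.trans h.le, coeff_eq_zero_of_natDegree_lt (lt_of_le_of_lt hp.1 h)⟩

lemma T3_top.cast {p : R[X]} {d e : ℕ} {c c' : R} (hp : T3_top p d c) (h : d = e)
    (h' : c = c') : T3_top p e c' := by
  subst h h'
  exact hp

lemma T3_top.congr {p q : R[X]} {d : ℕ} {c : R} (hp : T3_top p d c) (h : p = q) :
    T3_top q d c := by
  subst h
  exact hp

end Top

section Ladder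

variable {R : Type*} [CommRing R] (W : WeierstrassCurve R)

lemma T3_dbl_top {U V : R[X]} {d : ℕ} {c : R} (h1 : T3_top U (d + 1) 1) (h2 : T3_top V d c) :
    T3_top (ladDblX W U V) (4 * d + 3 + 1) 1 ∧ T3_top (ladDblZ W U V) (4 * d + 3) (4 * c) := by
  constructor
  · have t1 : T3_top (U ^ 4) (4 * d + 3 + 1) 1 :=
      (h1.pow 4).cast (by ring) (by ring)
    have t2 : T3_top (U ^ 2 * V ^ 2) (4 * d + 3 + 1) 0 :=
      (((h1.pow 2).mul (h2.pow 2)).cast rfl rfl).lift (by omega)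
    have t3 : T3_top (U * V ^ 3) (4 * d + 3 + 1) 0 :=
      ((h1.mul (h2.pow 3)).cast rfl rfl).lift (by omega)
    have t4 : T3_top (V ^ 4) (4 * d + 3 + 1) 0 :=
      ((h2.pow 4).cast rfl rfl).lift (by omega)
    have t := ((t1.sub (t2.C_mul W.b₄)).sub ((t3.C_mul W.b₆).two_mul)).sub (t4.C_mul W.b₈)
    refine (t.cast rfl (by ring)).congr ?_
    unfold ladDblX
    ring
  · have t1 : T3_top (U ^ 3) (3 * d + 3) 1 :=
      (h1.pow 3).cast (by ring) (by ring)
    have t2 : T3_top (U ^ 2 * V) (3 * d + 3) 0 :=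
      (((h1.pow 2).mul h2).cast rfl rfl).lift (by omega)
    have t3 : T3_top (U * V ^ 2) (3 * d + 3) 0 :=
      ((h1.mul (h2.pow 2)).cast rfl rfl).lift (by omega)
    have t4 : T3_top (V ^ 3) (3 * d + 3) 0 :=
      ((h2.pow 3).cast rfl rfl).lift (by omega)
    have t5 := h2.mul ((((t1.four_mul).add (t2.C_mul W.b₂)).add ((t3.C_mul W.b₄).two_mul)).add
      (t4.C_mul W.b₆))
    refine (t5.cast (by ring) (by ring)).congr ?_
    unfold ladDblZ
    ring

lemma T3_add_top {Ua Va Ub Vb : R[X]} {d e : ℕ} {ca cb : R} (ha1 : T3_top Ua (e + 1) 1)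
    (ha2 : T3_top Va e ca) (hb1 : T3_top Ub (d + 1) 1) (hb2 : T3_top Vb d cb) :
    T3_top (ladAddX W Ua Va Ub Vb) (2 * d + 2 * e + 2 + 1) (2 * (cb + ca) - (cb - ca) ^ 2) ∧
      T3_top (ladAddZ Ua Va Ub Vb) (2 * d + 2 * e + 2) ((cb - ca) ^ 2) := by
  have P1 : T3_top (Ua * Vb) (d + e + 1) cb := (ha1.mul hb2).cast (by ring) (by ring)
  have P2 : T3_top (Ub * Va) (d + e + 1) ca := (hb1.mul ha2).cast (by ring) (by ring)
  have S := P1.add P2
  have D := P1.sub P2
  have D2 : T3_top (ladD Ua Va Ub Vb ^ 2) (2 * d + 2 * e + 2) ((cb - ca) ^ 2) :=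
    (D.pow 2).cast (by ring) rfl
  refine ⟨?_, D2⟩
  have FF : T3_top (Ua * Ub) (d + e + 2) 1 := (ha1.mul hb1).cast (by ring) (by ring)
  have GG : T3_top (Va * Vb) (d + e) (ca * cb) := (ha2.mul hb2).cast (by ring) rfl
  have t1 : T3_top ((Ua * Vb + Ub * Va) * (Ua * Ub)) (2 * d + 2 * e + 2 + 1) (cb + ca) :=
    (S.mul FF).cast (by ring) (by ring)
  have t2 : T3_top ((Ua * Ub) * (Va * Vb)) (2 * d + 2 * e + 2 + 1) 0 :=
    ((FF.mul GG).cast rfl rfl).lift (by omega)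
  have t3 : T3_top ((Ua * Vb + Ub * Va) * (Va * Vb)) (2 * d + 2 * e + 2 + 1) 0 :=
    ((S.mul GG).cast rfl rfl).lift (by omega)
  have t4 : T3_top ((Va * Vb) ^ 2) (2 * d + 2 * e + 2 + 1) 0 :=
    ((GG.pow 2).cast rfl rfl).lift (by omega)
  have t5 : T3_top (Polynomial.X * ladD Ua Va Ub Vb ^ 2) (2 * d + 2 * e + 2 + 1)
      ((cb - ca) ^ 2) :=
    (T3_top.X.mul D2).cast (by ring) (by ring)
  have t := ((((t1.two_mul).add (t2.C_mul W.b₂)).add (t3.C_mul W.b₄)).add (t4.C_mul W.b₆)).sub t5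
  refine (t.cast rfl (by ring)).congr ?_
  unfold ladAddX
  ring

/-- The combined statement proved by ladder induction. -/
theorem T3_lad_top (n : ℕ) (hn : 1 ≤ n) :
    ∃ d : ℕ, d + 1 = n ^ 2 ∧ T3_top (ladX W n) (d + 1) 1 ∧
      T3_top (ladZ W n) d ((n : R) ^ 2) := by
  induction n using lad_induction with
  | h0 => omega
  | h1 =>
    refine ⟨0, by norm_num, ?_, ?_⟩
    · rw [ladX_one]
      exact T3_top.X
    · rw [ladZ_one]
      exact T3_top.one.cast rfl (by norm_num)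
  | hdbl m hm ih =>
    obtain ⟨d, hd, h1, h2⟩ := ih hm
    have := T3_dbl_top W h1 h2
    rw [ladX_two_mul, ladZ_two_mul]
    exact ⟨4 * d + 3, by nlinarith, this.1, this.2.cast rfl (by push_cast; ring)⟩
  | hadd m hm ih ih' =>
    obtain ⟨d, hd, h1, h2⟩ := ih hm
    obtain ⟨e, he, h3, h4⟩ := ih' (by omega)
    have := T3_add_top W h3 h4 h1 h2
    rw [ladX_two_mul_add_one, ladZ_two_mul_add_one]
    exact ⟨2 * d + 2 * e + 2, by nlinarith, this.1.cast rfl (by push_cast; ring),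
      this.2.cast rfl (by push_cast; ring)⟩

theorem ladX_natDegree_le (n : ℕ) : (ladX W n).natDegree ≤ n ^ 2 := by
  rcases Nat.eq_zero_or_pos n with rfl | hn
  · simp
  · obtain ⟨d, hd, h1, -⟩ := T3_lad_top W n hn
    rw [← hd]
    exact h1.1

theorem ladX_coeff_top (n : ℕ) : (ladX W n).coeff (n ^ 2) = 1 := by
  rcases Nat.eq_zero_or_pos n with rfl | hn
  · simp
  · obtain ⟨d, hd, h1, -⟩ := T3_lad_top W n hn
    rw [← hd]
    exact h1.2

theorem ladZ_natDegree_le (n : ℕ) : (ladZ W n).natDegree ≤ n ^ 2 - 1 := by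
  rcases Nat.eq_zero_or_pos n with rfl | hn
  · simp
  · obtain ⟨d, hd, -, h2⟩ := T3_lad_top W n hn
    have : n ^ 2 - 1 = d := by omega
    rw [this]
    exact h2.1

theorem ladZ_coeff_top (n : ℕ) (hn : 1 ≤ n) : (ladZ W n).coeff (n ^ 2 - 1) = (n : R) ^ 2 := by
  obtain ⟨d, hd, -, h2⟩ := T3_lad_top W n hn
  have : n ^ 2 - 1 = d := by omega
  rw [this]
  exact h2.2

end Ladder

theorem ladZ_natDegree_int (W : WeierstrassCurve ℤ) (n : ℕ) (hn : 1 ≤ n) :
    (ladZ W n).natDegree = n ^ 2 - 1 ∧ (ladZ W n).leadingCoeff = (n : ℤ) ^ 2 := by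
  have hc : ((n : ℤ) ^ 2) ≠ 0 := by
    apply pow_ne_zero
    exact_mod_cast (by omega : n ≠ 0)
  have hdeg : (ladZ W n).natDegree = n ^ 2 - 1 := by
    refine le_antisymm (ladZ_natDegree_le W n) (le_natDegree_of_ne_zero ?_)
    rw [ladZ_coeff_top W n hn]
    exact hc
  refine ⟨hdeg, ?_⟩
  rw [Polynomial.leadingCoeff, hdeg]
  exact ladZ_coeff_top W n hn

end Fermat.Agent.S13
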