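import Fermat.Agent.S13.Defs
import Fermat.Agent.S13.LadderCount

/-!
# S13, work package T4: the ladder polynomial of the Frey curve (`IfLadder P`)

The `p`-th ladder denominator `Zₚ = (T_ladder E p).2` of the Frey curve `E` over `Qbar` has
integer coefficients (the `b`-invariants of the Frey curve are integers because `16 ∣ b ^ p`),
degree `p ^ 2 - 1`, leading coefficient `p ^ 2`, and its roots are exactly the `x`-coordinates of
the nonzero `p`-torsion points.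
-/

set_option autoImplicit false

namespace Fermat.Agent.S13

open WeierstrassCurve WeierstrassCurve.Affine Polynomial
open Fermat.Agent.S51

local notation "Qbar" => AlgebraicClosure ℚ

/-- `16 ∣ b ^ p` for a Frey package (`b` is even and `p ≥ 5`). -/
lemma T4_sixteen_dvd (P : FreyPackage) : (16 : ℤ) ∣ P.b ^ P.p := by
  have h2 : (2 : ℤ) ∣ P.b := (ZMod.intCast_zmod_eq_zero_iff_dvd P.b 2).1 P.hb2
  have h4 : (2 : ℤ) ^ 4 ∣ P.b ^ P.p :=
    (pow_dvd_pow_of_dvd h2 4).trans (pow_dvd_pow _ (by have := P.hp5; omega))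
  have e : (2 : ℤ) ^ 4 = 16 := by norm_num
  rwa [e] at h4

/-- The discriminant of the Frey curve is `(a ^ p b ^ p c ^ p) ^ 2 / 2 ^ 8`. -/
lemma T4_freyCurve_Δ (P : FreyPackage) :
    P.freyCurve.Δ = ((P.a : ℚ) ^ P.p * (P.b : ℚ) ^ P.p * (P.c : ℚ) ^ P.p) ^ 2 / 256 := by
  have h : (P.c : ℚ) ^ P.p = (P.a : ℚ) ^ P.p + (P.b : ℚ) ^ P.p := by
    exact_mod_cast P.hFLT.symm
  rw [h]
  simp only [WeierstrassCurve.Δ, WeierstrassCurve.b₂, WeierstrassCurve.b₄, WeierstrassCurve.b₆,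
    WeierstrassCurve.b₈, FreyPackage.freyCurve]
  ring

lemma T4_freyCurve_Δ_ne_zero (P : FreyPackage) : P.freyCurve.Δ ≠ 0 := by
  rw [T4_freyCurve_Δ]
  have ha : (P.a : ℚ) ≠ 0 := Int.cast_ne_zero.mpr P.ha0
  have hb : (P.b : ℚ) ≠ 0 := Int.cast_ne_zero.mpr P.hb0
  have hc : (P.c : ℚ) ≠ 0 := Int.cast_ne_zero.mpr P.hc0
  exact div_ne_zero (pow_ne_zero _ (mul_ne_zero (mul_ne_zero (pow_ne_zero _ ha)
    (pow_ne_zero _ hb)) (pow_ne_zero _ hc))) (by norm_num)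

lemma T4_Δ_ne_zero (P : FreyPackage) : (P.freyCurve⁄Qbar).Δ ≠ 0 :=
  A_baseChange_Δ_ne_zero P.freyCurve (T4_freyCurve_Δ_ne_zero P)

/-- The `b`-invariants of the Frey curve are (images of) integers. -/
lemma T4_b_int (P : FreyPackage) :
    (∃ n : ℤ, P.freyCurve.b₂ = n) ∧ (∃ n : ℤ, P.freyCurve.b₄ = n) ∧
      (∃ n : ℤ, P.freyCurve.b₆ = n) ∧ (∃ n : ℤ, P.freyCurve.b₈ = n) := by
  obtain ⟨k, hk⟩ := T4_sixteen_dvd P
  have hkq : (P.b : ℚ) ^ P.p = 16 * (k : ℚ) := by exact_mod_cast hk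
  refine ⟨⟨P.b ^ P.p - P.a ^ P.p, ?_⟩, ⟨-2 * P.a ^ P.p * k, ?_⟩, ⟨0, ?_⟩,
    ⟨-(P.a ^ P.p * k) ^ 2, ?_⟩⟩
  · simp only [WeierstrassCurve.b₂, FreyPackage.freyCurve]
    push_cast
    ring
  · simp only [WeierstrassCurve.b₄, FreyPackage.freyCurve]
    push_cast
    rw [hkq]
    ring
  · simp only [WeierstrassCurve.b₆, FreyPackage.freyCurve]
    push_cast
    ring
  · simp only [WeierstrassCurve.b₈, FreyPackage.freyCurve]
    push_cast
    rw [hkq]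
    ring

lemma T4_b_mem (P : FreyPackage) :
    (P.freyCurve⁄Qbar).b₂ ∈ (Int.castRingHom Qbar).range ∧
      (P.freyCurve⁄Qbar).b₄ ∈ (Int.castRingHom Qbar).range ∧
      (P.freyCurve⁄Qbar).b₆ ∈ (Int.castRingHom Qbar).range ∧
      (P.freyCurve⁄Qbar).b₈ ∈ (Int.castRingHom Qbar).range := by
  obtain ⟨⟨n₂, h₂⟩, ⟨n₄, h₄⟩, ⟨n₆, h₆⟩, ⟨n₈, h₈⟩⟩ := T4_b_int P
  have e2 : (P.freyCurve⁄Qbar).b₂ = algebraMap ℚ Qbar P.freyCurve.b₂ :=
    WeierstrassCurve.map_b₂ P.freyCurve _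
  have e4 : (P.freyCurve⁄Qbar).b₄ = algebraMap ℚ Qbar P.freyCurve.b₄ :=
    WeierstrassCurve.map_b₄ P.freyCurve _
  have e6 : (P.freyCurve⁄Qbar).b₆ = algebraMap ℚ Qbar P.freyCurve.b₆ :=
    WeierstrassCurve.map_b₆ P.freyCurve _
  have e8 : (P.freyCurve⁄Qbar).b₈ = algebraMap ℚ Qbar P.freyCurve.b₈ :=
    WeierstrassCurve.map_b₈ P.freyCurve _
  refine ⟨⟨n₂, ?_⟩, ⟨n₄, ?_⟩, ⟨n₆, ?_⟩, ⟨n₈, ?_⟩⟩
  · rw [e2, h₂]; simp
  · rw [e4, h₄]; simp
  · rw [e6, h₆]; simp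
  · rw [e8, h₈]; simp

/-- **Work package T4**: `IfLadder P` for every Frey package. -/
theorem ifLadder (P : FreyPackage) : IfLadder P := by
  classical
  have hp1 : 1 ≤ P.p := P.hppos
  have hΔ := T4_Δ_ne_zero P
  obtain ⟨h2, h4, h6, h8⟩ := T4_b_mem P
  have hlift : (T_ladder (P.freyCurve⁄Qbar).toAffine P.p).2 ∈
      Polynomial.lifts (Int.castRingHom Qbar) := by
    rw [lifts_iff_coeff_lifts]
    intro i
    exact (T_ladder_coeff_mem (P.freyCurve⁄Qbar).toAffine _ h2 h4 h6 h8 P.p i).2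
  obtain ⟨Z, hZ⟩ := (Polynomial.mem_lifts _).mp hlift
  have hinj : Function.Injective (Int.castRingHom Qbar) := Int.cast_injective
  obtain ⟨hdeg, hlead⟩ := T_ladder_snd_leading (P.freyCurve⁄Qbar).toAffine P.p hp1
  refine ⟨Z, ?_, ?_, ?_⟩
  · rw [← Polynomial.natDegree_map_eq_of_injective hinj Z, hZ, hdeg]
  · apply hinj
    rw [← Polynomial.leadingCoeff_map_of_injective hinj, hZ, hlead]
    simp
  · intro x
    rw [hZ, IsRoot.def]
    constructor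
    · intro hx
      obtain ⟨Q, hQ, hQx⟩ := A_exists_point (P.freyCurve⁄Qbar).toAffine hΔ x
      have hpQ : P.p • Q = 0 := by
        rw [T_nsmul_eq_zero_iff _ hΔ hQ, hQx]
        exact hx
      cases Q with
      | zero => exact absurd rfl hQ
      | some x' y' h' =>
        have hxx : x' = x := hQx
        subst hxx
        refine ⟨y', h', ?_⟩
        rw [natCast_zsmul]
        exact hpQ
    · rintro ⟨y, h, hQ⟩
      rw [natCast_zsmul] at hQ
      exact (T_ladder_zero_iff _ hΔ P.p x y h).mp hQ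

end Fermat.Agent.S13
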