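import Fermat.Agent.S13.LadDefs
import Fermat.Agent.S05.XIdentities

/-!
# S13 / WP-T2: pointwise validity of the `x`-only ladder

For a nonsingular point `P = (x, y)` of a Weierstrass curve `W` over a field (no hypothesis on
the discriminant), the pair `(X_n(x) : Z_n(x))` is the `x`-coordinate of `n • P` as a point of
`ℙ¹`: the two values do not vanish simultaneously, `Z_n(x) = 0` iff `n • P = 0`, and otherwise
`x(n • P) · Z_n(x) = X_n(x)`.
-/

set_option autoImplicit false

namespace Fermat.Agent.S13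

open WeierstrassCurve Polynomial

variable {K : Type*} [Field K] [DecidableEq K] (W : WeierstrassCurve K)

/-- `(f : g)` is the `x`-coordinate of `Q`, as a point of `ℙ¹`. -/
def T2_rep (Q : W.toAffine.Point) (f g : K) : Prop :=
  (f ≠ 0 ∨ g ≠ 0) ∧ (g = 0 ↔ Q = 0) ∧
    ∀ (x' y' : K) (h' : W.toAffine.Nonsingular x' y'),
      Q = Affine.Point.some x' y' h' → x' * g = f

omit [DecidableEq K] in
theorem T2_rep_zero_iff {f g : K} : T2_rep W 0 f g ↔ f ≠ 0 ∧ g = 0 := by
  constructor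
  · rintro ⟨h1, h2, -⟩
    have hg : g = 0 := h2.mpr rfl
    refine ⟨?_, hg⟩
    rcases h1 with h | h
    · exact h
    · exact absurd hg h
  · rintro ⟨hf, hg⟩
    refine ⟨Or.inl hf, ⟨fun _ => rfl, fun _ => hg⟩, ?_⟩
    intro x' y' h' e
    exact absurd e.symm (Affine.Point.some_ne_zero h')

omit [DecidableEq K] in
theorem T2_rep_some_iff {x' y' : K} (h' : W.toAffine.Nonsingular x' y') {f g : K} :
    T2_rep W (Affine.Point.some x' y' h') f g ↔ g ≠ 0 ∧ x' * g = f := by
  constructor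
  · rintro ⟨-, h2, h3⟩
    exact ⟨fun hg => Affine.Point.some_ne_zero h' (h2.mp hg), h3 x' y' h' rfl⟩
  · rintro ⟨hg, hf⟩
    refine ⟨Or.inr hg,
      ⟨fun h => absurd h hg, fun h => absurd h (Affine.Point.some_ne_zero h')⟩, ?_⟩
    intro x'' y'' h'' e
    have hx : x' = x'' := (Affine.Point.some.inj e).1
    rw [← hx]
    exact hf

/-- Doubling, on values. -/
theorem T2_rep_dbl {Q : W.toAffine.Point} {f g : K} (hQ : T2_rep W Q f g) :
    T2_rep W (2 • Q)
      (f ^ 4 - W.b₄ * f ^ 2 * g ^ 2 - 2 * W.b₆ * f * g ^ 3 - W.b₈ * g ^ 4)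
      (g * (4 * f ^ 3 + W.b₂ * f ^ 2 * g + 2 * W.b₄ * f * g ^ 2 + W.b₆ * g ^ 3)) := by
  rcases Q with _ | ⟨xq, yq, hq⟩
  · change T2_rep W 0 f g at hQ
    obtain ⟨hf, rfl⟩ := (T2_rep_zero_iff W).mp hQ
    have e0 : (2 : ℕ) • (Affine.Point.zero : W.toAffine.Point) = 0 := smul_zero _
    rw [e0, T2_rep_zero_iff]
    refine ⟨?_, by ring⟩
    have : f ^ 4 - W.b₄ * f ^ 2 * (0 : K) ^ 2 - 2 * W.b₆ * f * (0 : K) ^ 3 - W.b₈ * (0 : K) ^ 4
        = f ^ 4 := by ring
    rw [this]
    exact pow_ne_zero 4 hf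
  · obtain ⟨hg, rfl⟩ := (T2_rep_some_iff W hq).mp hQ
    have hM := Fermat.Agent.S05.XId.twoY_sq W hq.1
    have hN := Fermat.Agent.S05.XId.I3_poly W ((Affine.equation_iff ..).mp hq.1)
    have e1 : (xq * g) ^ 4 - W.b₄ * (xq * g) ^ 2 * g ^ 2 - 2 * W.b₆ * (xq * g) * g ^ 3
        - W.b₈ * g ^ 4 = g ^ 4 * (xq ^ 4 - W.b₄ * xq ^ 2 - 2 * W.b₆ * xq - W.b₈) := by ring
    have e2 : g * (4 * (xq * g) ^ 3 + W.b₂ * (xq * g) ^ 2 * g + 2 * W.b₄ * (xq * g) * g ^ 2
        + W.b₆ * g ^ 3) = g ^ 4 * (2 * yq + W.a₁ * xq + W.a₃) ^ 2 := by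
      rw [hM]; ring
    rw [e1, e2, two_nsmul]
    by_cases hy : yq = W.toAffine.negY xq yq
    · have hy0 : 2 * yq + W.a₁ * xq + W.a₃ = 0 := by
        rw [Affine.negY] at hy
        linear_combination hy
      rw [Affine.Point.add_self_of_Y_eq hy, T2_rep_zero_iff]
      refine ⟨mul_ne_zero (pow_ne_zero 4 hg) ?_, by rw [hy0]; ring⟩
      rw [← hN, hy0]
      have hns := ((Affine.nonsingular_iff' ..).mp hq).2
      have hx0 : W.a₁ * yq - (3 * xq ^ 2 + 2 * W.a₂ * xq + W.a₄) ≠ 0 := by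
        rcases hns with h | h
        · exact h
        · exact absurd hy0 h
      have : (3 * xq ^ 2 + 2 * W.a₂ * xq + W.a₄ - W.a₁ * yq) ^ 2
          + W.a₁ * (3 * xq ^ 2 + 2 * W.a₂ * xq + W.a₄ - W.a₁ * yq) * 0
          - (W.a₂ + 2 * xq) * 0 ^ 2 = (W.a₁ * yq - (3 * xq ^ 2 + 2 * W.a₂ * xq + W.a₄)) ^ 2 := by
        ring
      rw [this]
      exact pow_ne_zero 2 hx0
    · have hy0 : 2 * yq + W.a₁ * xq + W.a₃ ≠ 0 := by
        intro h0
        apply hy
        rw [Affine.negY]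
        linear_combination h0
      obtain ⟨xd, yd, hd, hsum, hxd⟩ := Fermat.Agent.S05.XId.exists_double W hq hy
      rw [hsum, T2_rep_some_iff]
      refine ⟨mul_ne_zero (pow_ne_zero 4 hg) (pow_ne_zero 2 hy0), ?_⟩
      linear_combination g ^ 4 * hxd

/-- Differential addition, on values: `Q_a - Q_b = P = (x, y)`. -/
theorem T2_rep_add {x y : K} (h : W.toAffine.Nonsingular x y) {Qa Qb : W.toAffine.Point}
    (hab : Qa = Qb + Affine.Point.some x y h)
    {fa ga fb gb : K} (ha : T2_rep W Qa fa ga) (hb : T2_rep W Qb fb gb) :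
    T2_rep W (Qa + Qb)
      (2 * (fa * gb + fb * ga) * (fa * fb) + W.b₂ * (fa * fb) * (ga * gb)
        + W.b₄ * (fa * gb + fb * ga) * (ga * gb) + W.b₆ * (ga * gb) ^ 2
        - x * (fa * gb - fb * ga) ^ 2)
      ((fa * gb - fb * ga) ^ 2) := by
  rcases Qb with _ | ⟨xb, yb, hb'⟩
  · -- `Q_b = 0`, `Q_a = P`
    change T2_rep W 0 fb gb at hb
    obtain ⟨hfb, rfl⟩ := (T2_rep_zero_iff W).mp hb
    have hab' : Qa = Affine.Point.some x y h := by
      rw [hab]; exact zero_add _
    subst hab'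
    obtain ⟨hga, rfl⟩ := (T2_rep_some_iff W h).mp ha
    have e0 : Affine.Point.some x y h + (Affine.Point.zero : W.toAffine.Point)
        = Affine.Point.some x y h := add_zero _
    rw [e0, T2_rep_some_iff]
    refine ⟨?_, by ring⟩
    have : (x * ga * 0 - fb * ga) ^ 2 = (fb * ga) ^ 2 := by ring
    rw [this]
    exact pow_ne_zero 2 (mul_ne_zero hfb hga)
  · obtain ⟨hgb, rfl⟩ := (T2_rep_some_iff W hb').mp hb
    rcases Qa with _ | ⟨xa, ya, ha'⟩
    · -- `Q_a = 0`, `Q_b = -P`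
      change T2_rep W 0 fa ga at ha
      obtain ⟨hfa, rfl⟩ := (T2_rep_zero_iff W).mp ha
      have hneg : Affine.Point.some xb yb hb' = -Affine.Point.some x y h :=
        eq_neg_of_add_eq_zero_left hab.symm
      rw [Affine.Point.neg_some] at hneg
      have hx : xb = x := (Affine.Point.some.inj hneg).1
      have e0 : (Affine.Point.zero : W.toAffine.Point) + Affine.Point.some xb yb hb'
          = Affine.Point.some xb yb hb' := zero_add _
      rw [e0, T2_rep_some_iff]
      refine ⟨?_, by rw [← hx]; ring⟩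
      have : (fa * gb - xb * gb * 0) ^ 2 = (fa * gb) ^ 2 := by ring
      rw [this]
      exact pow_ne_zero 2 (mul_ne_zero hfa hgb)
    · obtain ⟨hga, rfl⟩ := (T2_rep_some_iff W ha').mp ha
      by_cases hx : xa = xb
      · -- `Q_a = -Q_b`
        have hyne : ya ≠ yb := by
          rintro rfl
          subst hx
          exact Affine.Point.some_ne_zero h (add_eq_left.mp hab.symm)
        have hy : ya = W.toAffine.negY xb yb :=
          (Affine.Y_eq_of_X_eq ha'.1 hb'.1 hx).resolve_left hyne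
        rw [Affine.Point.add_of_Y_eq hx hy, T2_rep_zero_iff]
        refine ⟨?_, by rw [hx]; ring⟩
        have hM := Fermat.Agent.S05.XId.twoY_sq W ha'.1
        have hy0 : 2 * ya + W.a₁ * xa + W.a₃ ≠ 0 := by
          intro h0
          apply hyne
          rw [Affine.negY, ← hx] at hy
          linear_combination h0 - hy
        have : 2 * (xa * ga * gb + xb * gb * ga) * (xa * ga * (xb * gb))
            + W.b₂ * (xa * ga * (xb * gb)) * (ga * gb)
            + W.b₄ * (xa * ga * gb + xb * gb * ga) * (ga * gb) + W.b₆ * (ga * gb) ^ 2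
            - x * (xa * ga * gb - xb * gb * ga) ^ 2
            = ga ^ 2 * gb ^ 2 * (2 * ya + W.a₁ * xa + W.a₃) ^ 2 := by
          rw [hM, ← hx]; ring
        rw [this]
        exact mul_ne_zero (mul_ne_zero (pow_ne_zero 2 hga) (pow_ne_zero 2 hgb))
          (pow_ne_zero 2 hy0)
      · obtain ⟨xp, yp, xm, ym, hp, hm, hsum, hdiff, -, hform⟩ :=
          Fermat.Agent.S05.XId.exists_add_sub W ha' hb' hx
        have hd : Affine.Point.some xa ya ha' - Affine.Point.some xb yb hb'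
            = Affine.Point.some x y h := by
          rw [hab]; abel
        rw [hd] at hdiff
        have hxm : x = xm := (Affine.Point.some.inj hdiff).1
        rw [hsum, T2_rep_some_iff]
        refine ⟨?_, ?_⟩
        · have : (xa * ga * gb - xb * gb * ga) ^ 2 = ga ^ 2 * gb ^ 2 * (xa - xb) ^ 2 := by ring
          rw [this]
          exact mul_ne_zero (mul_ne_zero (pow_ne_zero 2 hga) (pow_ne_zero 2 hgb))
            (pow_ne_zero 2 (sub_ne_zero.mpr hx))
        · rw [← hxm] at hform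
          linear_combination (ga ^ 2 * gb ^ 2) * hform

omit [DecidableEq K] in
theorem T2_eval_ladDblX (U V : K[X]) (x : K) :
    (ladDblX W U V).eval x = (U.eval x) ^ 4 - W.b₄ * (U.eval x) ^ 2 * (V.eval x) ^ 2
      - 2 * W.b₆ * (U.eval x) * (V.eval x) ^ 3 - W.b₈ * (V.eval x) ^ 4 := by
  simp only [ladDblX, eval_sub, eval_mul, eval_pow, eval_C, eval_ofNat]

omit [DecidableEq K] in
theorem T2_eval_ladDblZ (U V : K[X]) (x : K) :
    (ladDblZ W U V).eval x = (V.eval x) * (4 * (U.eval x) ^ 3 + W.b₂ * (U.eval x) ^ 2 * (V.eval x)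
      + 2 * W.b₄ * (U.eval x) * (V.eval x) ^ 2 + W.b₆ * (V.eval x) ^ 3) := by
  simp only [ladDblZ, eval_add, eval_mul, eval_pow, eval_C, eval_ofNat]

omit [DecidableEq K] in
theorem T2_eval_ladAddX (Ua Va Ub Vb : K[X]) (x : K) :
    (ladAddX W Ua Va Ub Vb).eval x =
      2 * (Ua.eval x * Vb.eval x + Ub.eval x * Va.eval x) * (Ua.eval x * Ub.eval x)
        + W.b₂ * (Ua.eval x * Ub.eval x) * (Va.eval x * Vb.eval x)
        + W.b₄ * (Ua.eval x * Vb.eval x + Ub.eval x * Va.eval x) * (Va.eval x * Vb.eval x)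
        + W.b₆ * (Va.eval x * Vb.eval x) ^ 2
        - x * (Ua.eval x * Vb.eval x - Ub.eval x * Va.eval x) ^ 2 := by
  simp only [ladAddX, ladD, eval_sub, eval_add, eval_mul, eval_pow, eval_C, eval_ofNat, eval_X]

omit [DecidableEq K] in
theorem T2_eval_ladAddZ (Ua Va Ub Vb : K[X]) (x : K) :
    (ladAddZ Ua Va Ub Vb).eval x =
      (Ua.eval x * Vb.eval x - Ub.eval x * Va.eval x) ^ 2 := by
  simp only [ladAddZ, ladD, eval_sub, eval_mul, eval_pow]

/-- Validity of the ladder in terms of `T2_rep`. -/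
theorem T2_lad_rep {x y : K} (h : W.toAffine.Nonsingular x y) (n : ℕ) :
    T2_rep W (n • (Affine.Point.some x y h)) ((ladX W n).eval x) ((ladZ W n).eval x) := by
  induction n using lad_induction with
  | h0 =>
    rw [zero_nsmul, T2_rep_zero_iff]
    simp
  | h1 =>
    rw [one_nsmul, T2_rep_some_iff]
    simp
  | hdbl m _ ih =>
    rw [ladX_two_mul, ladZ_two_mul, mul_nsmul', T2_eval_ladDblX, T2_eval_ladDblZ]
    exact T2_rep_dbl W ih
  | hadd m _ ih ih' =>
    have e : (2 * m + 1) • (Affine.Point.some x y h) =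
        (m + 1) • (Affine.Point.some x y h) + m • (Affine.Point.some x y h) := by
      rw [← add_nsmul]
      congr 1
      ring
    rw [ladX_two_mul_add_one, ladZ_two_mul_add_one, e, T2_eval_ladAddX, T2_eval_ladAddZ]
    exact T2_rep_add W h (succ_nsmul _ m) ih' ih

/-- **WP-T2**: pointwise validity of the ladder. -/
theorem lad_valid {K : Type*} [Field K] [DecidableEq K] (W : WeierstrassCurve K) {x y : K}
    (h : W.toAffine.Nonsingular x y) (n : ℕ) :
    ((ladX W n).eval x ≠ 0 ∨ (ladZ W n).eval x ≠ 0) ∧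
    ((ladZ W n).eval x = 0 ↔ n • (Affine.Point.some x y h) = 0) ∧
    (∀ (x' y' : K) (h' : W.toAffine.Nonsingular x' y'),
      n • (Affine.Point.some x y h) = Affine.Point.some x' y' h' →
        x' * (ladZ W n).eval x = (ladX W n).eval x) :=
  T2_lad_rep W h n

end Fermat.Agent.S13
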