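import Fermat.Agent.S51.ATorsion

/-!
# Torsion of elliptic curves for all `n`: the `x`-only ladder (definitions and degrees)

For a Weierstrass curve `E` over a field `F` we define polynomials `(Fₙ, Gₙ)` in `F[X]` such that
`x(nP) = Fₙ(x(P)) / Gₙ(x(P))` (projectively) by the recursion
* `(F₁, G₁) = (X, 1)`,
* doubling: `(F₂ₘ : G₂ₘ) = (N1h(Fₘ, Gₘ) : Gₘ * M1h(Fₘ, Gₘ))`,
* differential addition: `x((2m+1)P) + x(P) = A(xₘ, xₘ₊₁) / (xₘ - xₘ₊₁)²`.

This file contains the definitions and the degree / leading coefficient bookkeeping: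
`Fₙ` is monic of degree `n²` and `Gₙ` has degree `n² - 1` and leading coefficient `n²`.
-/

set_option autoImplicit false

namespace Fermat.Agent.S13

open WeierstrassCurve WeierstrassCurve.Affine Polynomial

section Top

variable {F : Type*} [Field F]

/-- `p` has degree at most `d` and its coefficient in degree `d` is `c`. -/
def T_top (p : F[X]) (d : ℕ) (c : F) : Prop := p.natDegree ≤ d ∧ p.coeff d = c

lemma T_top.mul {p q : F[X]} {d e : ℕ} {c c' : F} (hp : T_top p d c) (hq : T_top q e c') :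
    T_top (p * q) (d + e) (c * c') :=
  ⟨natDegree_mul_le_of_le hp.1 hq.1, by
    rw [coeff_mul_add_eq_of_natDegree_le hp.1 hq.1, hp.2, hq.2]⟩

lemma T_top.one : T_top (1 : F[X]) 0 1 := ⟨by simp, by simp⟩

lemma T_top.pow {p : F[X]} {d : ℕ} {c : F} (hp : T_top p d c) (k : ℕ) :
    T_top (p ^ k) (k * d) (c ^ k) := by
  induction k with
  | zero => simpa using T_top.one
  | succ k ih =>
    have := ih.mul hp
    rwa [← pow_succ, ← pow_succ, ← Nat.succ_mul] at this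

lemma T_top.add {p q : F[X]} {d : ℕ} {c c' : F} (hp : T_top p d c) (hq : T_top q d c') :
    T_top (p + q) d (c + c') :=
  ⟨natDegree_add_le_of_degree_le hp.1 hq.1, by rw [coeff_add, hp.2, hq.2]⟩

lemma T_top.neg {p : F[X]} {d : ℕ} {c : F} (hp : T_top p d c) : T_top (-p) d (-c) :=
  ⟨by rw [natDegree_neg]; exact hp.1, by rw [coeff_neg, hp.2]⟩

lemma T_top.sub {p q : F[X]} {d : ℕ} {c c' : F} (hp : T_top p d c) (hq : T_top q d c') :
    T_top (p - q) d (c - c') := by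
  rw [sub_eq_add_neg, sub_eq_add_neg]
  exact hp.add hq.neg

lemma T_top.C (a : F) : T_top (Polynomial.C a) 0 a := ⟨by simp, by simp⟩

lemma T_top.X : T_top (Polynomial.X : F[X]) 1 1 := ⟨natDegree_X_le, by simp⟩

lemma T_top.C_mul {p : F[X]} {d : ℕ} {c : F} (a : F) (hp : T_top p d c) :
    T_top (Polynomial.C a * p) d (a * c) := by
  have := (T_top.C a).mul hp
  rwa [zero_add] at this

lemma T_top.lift {p : F[X]} {d e : ℕ} {c : F} (hp : T_top p d c) (h : d < e) :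
    T_top p e 0 :=
  ⟨hp.1.trans h.le, coeff_eq_zero_of_natDegree_lt (lt_of_le_of_lt hp.1 h)⟩

lemma T_top.cast {p : F[X]} {d e : ℕ} {c c' : F} (hp : T_top p d c) (h : d = e) (h' : c = c') :
    T_top p e c' := by
  subst h h'
  exact hp

lemma T_top.ne_zero {p : F[X]} {d : ℕ} {c : F} (hp : T_top p d c) (hc : c ≠ 0) : p ≠ 0 := by
  rintro rfl
  exact hc (by simpa using hp.2.symm)

lemma T_top.natDegree_eq {p : F[X]} {d : ℕ} {c : F} (hp : T_top p d c) (hc : c ≠ 0) :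
    p.natDegree = d := by
  refine le_antisymm hp.1 (le_natDegree_of_ne_zero ?_)
  rw [hp.2]
  exact hc

end Top

section Defs

variable {F : Type*} [Field F] (E : Affine F)

/-- Doubling on pairs `(f, g)` representing `f / g`. -/
noncomputable def T_dbl (p : F[X] × F[X]) : F[X] × F[X] :=
  (p.1 ^ 4 - C E.b₄ * (p.1 ^ 2 * p.2 ^ 2) - C (2 * E.b₆) * (p.1 * p.2 ^ 3) - C E.b₈ * p.2 ^ 4,
    p.2 * (C 4 * p.1 ^ 3 + C E.b₂ * (p.1 ^ 2 * p.2) + C (2 * E.b₄) * (p.1 * p.2 ^ 2)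
      + C E.b₆ * p.2 ^ 3))

/-- Differential addition on pairs: from `x(Q₁)`, `x(Q₂)` with `x(Q₂ - Q₁) = X` to
`x(Q₁ + Q₂)`. -/
noncomputable def T_dadd (p q : F[X] × F[X]) : F[X] × F[X] :=
  (C 2 * (p.1 * q.1 * (p.1 * q.2 + q.1 * p.2)) + C E.b₂ * (p.1 * q.1 * (p.2 * q.2))
      + C E.b₄ * ((p.1 * q.2 + q.1 * p.2) * (p.2 * q.2)) + C E.b₆ * (p.2 ^ 2 * q.2 ^ 2)
      - X * (p.1 * q.2 - q.1 * p.2) ^ 2,
    (p.1 * q.2 - q.1 * p.2) ^ 2)

/-- The ladder polynomials `(Fₙ, Gₙ)` with `x(nP) = Fₙ(x(P)) / Gₙ(x(P))`. -/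
noncomputable def T_ladder : ℕ → F[X] × F[X]
  | 0 => (1, 0)
  | 1 => (X, 1)
  | (n + 2) =>
    if h : n % 2 = 0 then T_dbl E (T_ladder ((n + 2) / 2))
    else T_dadd E (T_ladder ((n + 2) / 2)) (T_ladder ((n + 2) / 2 + 1))
termination_by n => n
decreasing_by
  all_goals omega

lemma T_ladder_zero : T_ladder E 0 = (1, 0) := by
  rw [T_ladder]

lemma T_ladder_one : T_ladder E 1 = (X, 1) := by
  rw [T_ladder]

lemma T_ladder_even (m : ℕ) (hm : 1 ≤ m) : T_ladder E (2 * m) = T_dbl E (T_ladder E m) := by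
  obtain ⟨k, rfl⟩ : ∃ k, m = k + 1 := ⟨m - 1, by omega⟩
  have h2 : 2 * (k + 1) = 2 * k + 2 := by ring
  rw [h2, T_ladder]
  have h0 : (2 * k) % 2 = 0 := by omega
  have h1 : (2 * k + 2) / 2 = k + 1 := by omega
  rw [dif_pos h0, h1]

lemma T_ladder_odd (m : ℕ) (hm : 1 ≤ m) :
    T_ladder E (2 * m + 1) = T_dadd E (T_ladder E m) (T_ladder E (m + 1)) := by
  obtain ⟨k, rfl⟩ : ∃ k, m = k + 1 := ⟨m - 1, by omega⟩
  have h2 : 2 * (k + 1) + 1 = (2 * k + 1) + 2 := by ring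
  rw [h2, T_ladder]
  have h0 : ¬ (2 * k + 1) % 2 = 0 := by omega
  have h1 : (2 * k + 1 + 2) / 2 = k + 1 := by omega
  rw [dif_neg h0, h1]

end Defs

end Fermat.Agent.S13
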