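import Fermat.Agent.S13.LadderDefs

/-!
# Degrees and leading coefficients of the ladder polynomials
-/

set_option autoImplicit false

namespace Fermat.Agent.S13

open WeierstrassCurve WeierstrassCurve.Affine Polynomial

variable {F : Type*} [Field F] (E : Affine F)

lemma T_dbl_top {p : F[X] × F[X]} {d : ℕ} {c : F} (h1 : T_top p.1 (d + 1) 1)
    (h2 : T_top p.2 d c) :
    T_top (T_dbl E p).1 (4 * d + 3 + 1) 1 ∧ T_top (T_dbl E p).2 (4 * d + 3) (4 * c) := by
  constructor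
  · have t1 : T_top (p.1 ^ 4) (4 * d + 3 + 1) 1 :=
      (h1.pow 4).cast (by ring) (by ring)
    have t2 : T_top (p.1 ^ 2 * p.2 ^ 2) (4 * d + 3 + 1) 0 :=
      (((h1.pow 2).mul (h2.pow 2)).cast rfl rfl).lift (by omega)
    have t3 : T_top (p.1 * p.2 ^ 3) (4 * d + 3 + 1) 0 :=
      ((h1.mul (h2.pow 3)).cast rfl rfl).lift (by omega)
    have t4 : T_top (p.2 ^ 4) (4 * d + 3 + 1) 0 :=
      ((h2.pow 4).cast rfl rfl).lift (by omega)
    exact (((t1.sub (t2.C_mul E.b₄)).sub (t3.C_mul (2 * E.b₆))).sub (t4.C_mul E.b₈)).cast rfl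
      (by ring)
  · have t1 : T_top (p.1 ^ 3) (3 * d + 3) 1 :=
      (h1.pow 3).cast (by ring) (by ring)
    have t2 : T_top (p.1 ^ 2 * p.2) (3 * d + 3) 0 :=
      (((h1.pow 2).mul h2).cast rfl rfl).lift (by omega)
    have t3 : T_top (p.1 * p.2 ^ 2) (3 * d + 3) 0 :=
      ((h1.mul (h2.pow 2)).cast rfl rfl).lift (by omega)
    have t4 : T_top (p.2 ^ 3) (3 * d + 3) 0 :=
      ((h2.pow 3).cast rfl rfl).lift (by omega)
    have t5 := h2.mul ((((t1.C_mul 4).add (t2.C_mul E.b₂)).add (t3.C_mul (2 * E.b₄))).add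
      (t4.C_mul E.b₆))
    exact t5.cast (by ring) (by ring)

lemma T_dadd_top {p q : F[X] × F[X]} {d e : ℕ} {c c' : F} (hp1 : T_top p.1 (d + 1) 1)
    (hp2 : T_top p.2 d c) (hq1 : T_top q.1 (e + 1) 1) (hq2 : T_top q.2 e c') :
    T_top (T_dadd E p q).1 (2 * d + 2 * e + 2 + 1) (2 * (c' + c) - (c' - c) ^ 2) ∧
      T_top (T_dadd E p q).2 (2 * d + 2 * e + 2) ((c' - c) ^ 2) := by
  have P1 : T_top (p.1 * q.2) (d + e + 1) c' := (hp1.mul hq2).cast (by ring) (by ring)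
  have P2 : T_top (q.1 * p.2) (d + e + 1) c := (hq1.mul hp2).cast (by ring) (by ring)
  have S := P1.add P2
  have D := P1.sub P2
  have D2 : T_top ((p.1 * q.2 - q.1 * p.2) ^ 2) (2 * d + 2 * e + 2) ((c' - c) ^ 2) :=
    (D.pow 2).cast (by ring) rfl
  refine ⟨?_, D2⟩
  have FF : T_top (p.1 * q.1) (d + e + 2) 1 := (hp1.mul hq1).cast (by ring) (by ring)
  have GG : T_top (p.2 * q.2) (d + e) (c * c') := hp2.mul hq2
  have t1 : T_top (p.1 * q.1 * (p.1 * q.2 + q.1 * p.2)) (2 * d + 2 * e + 2 + 1) (c' + c) :=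
    (FF.mul S).cast (by ring) (by ring)
  have t2 : T_top (p.1 * q.1 * (p.2 * q.2)) (2 * d + 2 * e + 2 + 1) 0 :=
    ((FF.mul GG).cast rfl rfl).lift (by omega)
  have t3 : T_top ((p.1 * q.2 + q.1 * p.2) * (p.2 * q.2)) (2 * d + 2 * e + 2 + 1) 0 :=
    ((S.mul GG).cast rfl rfl).lift (by omega)
  have t4 : T_top (p.2 ^ 2 * q.2 ^ 2) (2 * d + 2 * e + 2 + 1) 0 :=
    (((hp2.pow 2).mul (hq2.pow 2)).cast rfl rfl).lift (by omega)
  have t5 : T_top (X * (p.1 * q.2 - q.1 * p.2) ^ 2) (2 * d + 2 * e + 2 + 1) ((c' - c) ^ 2) :=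
    (T_top.X.mul D2).cast (by ring) (by ring)
  exact (((((t1.C_mul 2).add (t2.C_mul E.b₂)).add (t3.C_mul E.b₄)).add (t4.C_mul E.b₆)).sub
    t5).cast rfl (by ring)

/-- `Fₙ` has degree at most `n²` with coefficient `1` in degree `n²`, and `Gₙ` has degree at
most `n² - 1` with coefficient `n²` in degree `n² - 1`. -/
theorem T_ladder_top (n : ℕ) (hn : 1 ≤ n) :
    ∃ d : ℕ, d + 1 = n ^ 2 ∧ T_top (T_ladder E n).1 (d + 1) 1 ∧
      T_top (T_ladder E n).2 d ((n : F) ^ 2) := by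
  induction n using Nat.strong_induction_on with
  | _ n ih =>
    rcases Nat.even_or_odd' n with ⟨m, rfl | rfl⟩
    · -- n = 2 m
      have hm : 1 ≤ m := by omega
      obtain ⟨d, hd, h1, h2⟩ := ih m (by omega) hm
      have := T_dbl_top E h1 h2
      rw [T_ladder_even E m hm]
      refine ⟨4 * d + 3, by nlinarith, this.1, this.2.cast rfl (by push_cast; ring)⟩
    · -- n = 2 m + 1
      rcases Nat.eq_zero_or_pos m with rfl | hm
      · refine ⟨0, by norm_num, ?_, ?_⟩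
        · rw [show 2 * 0 + 1 = 1 from rfl, T_ladder_one]
          exact T_top.X
        · rw [show 2 * 0 + 1 = 1 from rfl, T_ladder_one]
          exact T_top.one.cast rfl (by norm_num)
      · obtain ⟨d, hd, h1, h2⟩ := ih m (by omega) hm
        obtain ⟨e, he, h3, h4⟩ := ih (m + 1) (by omega) (by omega)
        have := T_dadd_top E h1 h2 h3 h4
        rw [T_ladder_odd E m hm]
        refine ⟨2 * d + 2 * e + 2, by nlinarith, this.1.cast rfl (by push_cast; ring),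
          this.2.cast rfl (by push_cast; ring)⟩

/-- In characteristic zero, `Gₙ` is a nonzero polynomial of degree `n² - 1`. -/
theorem T_ladder_snd_natDegree [CharZero F] (n : ℕ) (hn : 1 ≤ n) :
    (T_ladder E n).2 ≠ 0 ∧ (T_ladder E n).2.natDegree + 1 = n ^ 2 := by
  obtain ⟨d, hd, -, h2⟩ := T_ladder_top E n hn
  have hc : ((n : F) ^ 2) ≠ 0 := by
    apply pow_ne_zero
    exact_mod_cast (by omega : n ≠ 0)
  exact ⟨h2.ne_zero hc, by rw [h2.natDegree_eq hc, hd]⟩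

end Fermat.Agent.S13
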