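import Fermat.Agent.S13.LadderDegree

/-!
# Validity of the `x`-only ladder: `(Fₙ(x(P)) : Gₙ(x(P))) = x(nP)` in `ℙ¹`
-/

set_option autoImplicit false

namespace Fermat.Agent.S13

open WeierstrassCurve WeierstrassCurve.Affine Polynomial
open Fermat.Agent.S51

variable {F : Type*} [Field F] [DecidableEq F] (E : Affine F)

/-- `(f : g)` is the `x`-coordinate of `Q` as a point of `ℙ¹`. -/
def T_rep {E : Affine F} (Q : E.Point) (f g : F) : Prop :=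
  (Q = 0 ∧ g = 0 ∧ f ≠ 0) ∨ (Q ≠ 0 ∧ g ≠ 0 ∧ f = A_x Q * g)

/-- Doubling on values. -/
def T_dblV (p : F × F) : F × F :=
  (p.1 ^ 4 - E.b₄ * (p.1 ^ 2 * p.2 ^ 2) - (2 * E.b₆) * (p.1 * p.2 ^ 3) - E.b₈ * p.2 ^ 4,
    p.2 * (4 * p.1 ^ 3 + E.b₂ * (p.1 ^ 2 * p.2) + (2 * E.b₄) * (p.1 * p.2 ^ 2)
      + E.b₆ * p.2 ^ 3))

/-- Differential addition on values. -/
def T_daddV (x₀ : F) (p q : F × F) : F × F :=
  (2 * (p.1 * q.1 * (p.1 * q.2 + q.1 * p.2)) + E.b₂ * (p.1 * q.1 * (p.2 * q.2))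
      + E.b₄ * ((p.1 * q.2 + q.1 * p.2) * (p.2 * q.2)) + E.b₆ * (p.2 ^ 2 * q.2 ^ 2)
      - x₀ * (p.1 * q.2 - q.1 * p.2) ^ 2,
    (p.1 * q.2 - q.1 * p.2) ^ 2)

omit [DecidableEq F] in
lemma T_eval_dbl (x₀ : F) (p : F[X] × F[X]) :
    ((T_dbl E p).1.eval x₀, (T_dbl E p).2.eval x₀) = T_dblV E (p.1.eval x₀, p.2.eval x₀) := by
  simp only [T_dbl, T_dblV, eval_sub, eval_add, eval_mul, eval_pow, eval_C]

omit [DecidableEq F] in
lemma T_eval_dadd (x₀ : F) (p q : F[X] × F[X]) :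
    ((T_dadd E p q).1.eval x₀, (T_dadd E p q).2.eval x₀) =
      T_daddV E x₀ (p.1.eval x₀, p.2.eval x₀) (q.1.eval x₀, q.2.eval x₀) := by
  simp only [T_dadd, T_daddV, eval_sub, eval_add, eval_mul, eval_pow, eval_C, eval_X]

lemma T_rep_dbl (hΔ : E.Δ ≠ 0) {Q : E.Point} {f g : F} (h : T_rep Q f g) :
    T_rep (2 • Q) (T_dblV E (f, g)).1 (T_dblV E (f, g)).2 := by
  rcases h with ⟨rfl, rfl, hf⟩ | ⟨hQ, hg, rfl⟩
  · left
    refine ⟨smul_zero _, by simp [T_dblV], ?_⟩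
    simp only [T_dblV]
    have : f ^ 4 - E.b₄ * (f ^ 2 * (0 : F) ^ 2) - 2 * E.b₆ * (f * (0 : F) ^ 3) - E.b₈ * (0 : F) ^ 4
        = f ^ 4 := by ring
    rw [this]
    exact pow_ne_zero 4 hf
  · have e1 : (T_dblV E (A_x Q * g, g)).1 = g ^ 4 * A_N1 E (A_x Q) := by
      simp only [T_dblV, A_N1]; ring
    have e2 : (T_dblV E (A_x Q * g, g)).2 = g ^ 4 * A_M1 E (A_x Q) := by
      simp only [T_dblV, A_M1]; ring
    rw [e1, e2]
    by_cases h2 : 2 • Q = 0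
    · left
      have hM := (A_two_nsmul_eq_zero_iff E hQ).mp h2
      refine ⟨h2, by rw [hM, mul_zero], mul_ne_zero (pow_ne_zero 4 hg) ?_⟩
      exact A_M1_ne_zero_of_N1 E hΔ hM
    · right
      have hM : A_M1 E (A_x Q) ≠ 0 := fun hM => h2 ((A_two_nsmul_eq_zero_iff E hQ).mpr hM)
      refine ⟨h2, mul_ne_zero (pow_ne_zero 4 hg) hM, ?_⟩
      rw [← A_x_two_nsmul E hQ h2]
      ring

/-- The sum formula `x(Q₁ + Q₂) + x(Q₁ - Q₂) = A(x₁, x₂) / (x₁ - x₂)²`. -/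
lemma T_sum_formula {Q₁ Q₂ : E.Point} (h1 : Q₁ ≠ 0) (h2 : Q₂ ≠ 0) (hx : A_x Q₁ ≠ A_x Q₂) :
    Q₁ + Q₂ ≠ 0 ∧ Q₁ - Q₂ ≠ 0 ∧
      (A_x (Q₁ + Q₂) + A_x (Q₁ - Q₂)) * (A_x Q₁ - A_x Q₂) ^ 2 =
        2 * (A_x Q₁ * A_x Q₂ * (A_x Q₁ + A_x Q₂)) + E.b₂ * (A_x Q₁ * A_x Q₂)
          + E.b₄ * (A_x Q₁ + A_x Q₂) + E.b₆ := by
  match Q₁, Q₂ with
  | .zero, _ => exact absurd rfl h1
  | _, .zero => exact absurd rfl h2
  | .some x₁ y₁ n₁, .some x₂ y₂ n₂ =>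
    simp only [A_x_some] at hx ⊢
    have hne : x₁ - x₂ ≠ 0 := sub_ne_zero.mpr hx
    have hs : Point.some x₁ y₁ n₁ - Point.some x₂ y₂ n₂ =
        Point.some x₁ y₁ n₁ + Point.some x₂ (E.negY x₂ y₂) ((nonsingular_neg ..).mpr n₂) := by
      rw [sub_eq_add_neg, Point.neg_some]
    rw [hs, Point.add_of_X_ne hx, Point.add_of_X_ne hx]
    refine ⟨Point.some_ne_zero _, Point.some_ne_zero _, ?_⟩
    simp only [A_x_some, addX]
    rw [slope_of_X_ne hx, slope_of_X_ne hx]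
    have e1 := (equation_iff ..).mp n₁.1
    have e2 := (equation_iff ..).mp n₂.1
    have hℓ : (y₁ - y₂) / (x₁ - x₂) * (x₁ - x₂) = y₁ - y₂ := div_mul_cancel₀ _ hne
    have hℓ' : (y₁ - E.negY x₂ y₂) / (x₁ - x₂) * (x₁ - x₂) = y₁ - E.negY x₂ y₂ :=
      div_mul_cancel₀ _ hne
    generalize (y₁ - y₂) / (x₁ - x₂) = ℓ at hℓ ⊢
    generalize (y₁ - E.negY x₂ y₂) / (x₁ - x₂) = ℓ' at hℓ' ⊢
    simp only [negY] at hℓ'
    simp only [WeierstrassCurve.b₂, WeierstrassCurve.b₄, WeierstrassCurve.b₆]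
    linear_combination 2 * e1 + 2 * e2
      + (ℓ * (x₁ - x₂) + (y₁ - y₂) + E.a₁ * (x₁ - x₂)) * hℓ
      + (ℓ' * (x₁ - x₂) + (y₁ - (-y₂ - E.a₁ * x₂ - E.a₃)) + E.a₁ * (x₁ - x₂)) * hℓ'

lemma T_rep_dadd {P Q₁ Q₂ : E.Point} (hP : P ≠ 0) (h12 : Q₂ = Q₁ + P)
    {f₁ g₁ f₂ g₂ : F} (h1 : T_rep Q₁ f₁ g₁) (h2 : T_rep Q₂ f₂ g₂) :
    T_rep (Q₁ + Q₂) (T_daddV E (A_x P) (f₁, g₁) (f₂, g₂)).1
      (T_daddV E (A_x P) (f₁, g₁) (f₂, g₂)).2 := by
  simp only [T_daddV]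
  rcases h1 with ⟨rfl, rfl, hf₁⟩ | ⟨hQ₁, hg₁, rfl⟩
  · -- `Q₁ = 0`, `Q₂ = P`
    rw [zero_add] at h12
    subst h12
    rcases h2 with ⟨h0, -, -⟩ | ⟨-, hg₂, rfl⟩
    · exact absurd h0 hP
    · right
      rw [zero_add]
      refine ⟨hP, ?_, ?_⟩
      · have : (f₁ * g₂ - A_x Q₂ * g₂ * 0) ^ 2 = (f₁ * g₂) ^ 2 := by ring
        rw [this]
        exact pow_ne_zero 2 (mul_ne_zero hf₁ hg₂)
      · ring
  · rcases h2 with ⟨rfl, rfl, hf₂⟩ | ⟨hQ₂, hg₂, rfl⟩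
    · -- `Q₂ = 0`, `Q₁ = -P`
      have hQP : Q₁ = -P := eq_neg_of_add_eq_zero_left h12.symm
      right
      rw [add_zero]
      refine ⟨hQ₁, ?_, ?_⟩
      · have : (A_x Q₁ * g₁ * 0 - f₂ * g₁) ^ 2 = (f₂ * g₁) ^ 2 := by ring
        rw [this]
        exact pow_ne_zero 2 (mul_ne_zero hf₂ hg₁)
      · rw [hQP, A_x_neg]
        ring
    · -- both finite
      by_cases hx : A_x Q₁ = A_x Q₂
      · -- `Q₁ = -Q₂`
        have hneg : Q₁ = -Q₂ := by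
          rcases (A_x_eq_iff E hQ₁ hQ₂).mp hx with h | h
          · exfalso
            apply hP
            rw [← h] at h12
            exact (add_eq_left.mp h12.symm)
          · exact h
        left
        refine ⟨by rw [hneg, neg_add_cancel], by rw [hx]; ring, ?_⟩
        have h2Q : 2 • Q₁ ≠ 0 := by
          intro h2Q
          apply hP
          have : Q₁ + P = -Q₁ := by rw [← h12, hneg, neg_neg]
          have h3 : P = -Q₁ - Q₁ := by rw [← this]; abel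
          rw [h3, two_nsmul] at *
          rw [← neg_add', h2Q, neg_zero]
        have hM : A_M1 E (A_x Q₁) ≠ 0 :=
          fun hM => h2Q ((A_two_nsmul_eq_zero_iff E hQ₁).mpr hM)
        have : 2 * (A_x Q₁ * g₁ * (A_x Q₂ * g₂) * (A_x Q₁ * g₁ * g₂ + A_x Q₂ * g₂ * g₁)) +
            E.b₂ * (A_x Q₁ * g₁ * (A_x Q₂ * g₂) * (g₁ * g₂)) +
            E.b₄ * ((A_x Q₁ * g₁ * g₂ + A_x Q₂ * g₂ * g₁) * (g₁ * g₂)) +
            E.b₆ * (g₁ ^ 2 * g₂ ^ 2) -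
            A_x P * (A_x Q₁ * g₁ * g₂ - A_x Q₂ * g₂ * g₁) ^ 2 =
            g₁ ^ 2 * g₂ ^ 2 * A_M1 E (A_x Q₁) := by
          rw [← hx]
          simp only [A_M1]
          ring
        rw [this]
        exact mul_ne_zero (mul_ne_zero (pow_ne_zero 2 hg₁) (pow_ne_zero 2 hg₂)) hM
      · obtain ⟨hsum, -, hform⟩ := T_sum_formula E hQ₁ hQ₂ hx
        have hdiff : Q₁ - Q₂ = -P := by rw [h12]; abel
        rw [hdiff, A_x_neg] at hform
        right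
        refine ⟨hsum, ?_, ?_⟩
        · have : (A_x Q₁ * g₁ * g₂ - A_x Q₂ * g₂ * g₁) ^ 2 =
              g₁ ^ 2 * g₂ ^ 2 * (A_x Q₁ - A_x Q₂) ^ 2 := by ring
          rw [this]
          exact mul_ne_zero (mul_ne_zero (pow_ne_zero 2 hg₁) (pow_ne_zero 2 hg₂))
            (pow_ne_zero 2 (sub_ne_zero.mpr hx))
        · linear_combination (-(g₁ ^ 2 * g₂ ^ 2)) * hform

/-- **Validity of the ladder**: `(Fₙ(x(P)) : Gₙ(x(P)))` is the `x`-coordinate of `n • P`. -/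
theorem T_ladder_rep (hΔ : E.Δ ≠ 0) {P : E.Point} (hP : P ≠ 0) (n : ℕ) :
    T_rep (n • P) ((T_ladder E n).1.eval (A_x P)) ((T_ladder E n).2.eval (A_x P)) := by
  induction n using Nat.strong_induction_on with
  | _ n ih =>
    rcases Nat.even_or_odd' n with ⟨m, rfl | rfl⟩
    · rcases Nat.eq_zero_or_pos m with rfl | hm
      · left
        rw [show 2 * 0 = 0 from rfl, T_ladder_zero]
        exact ⟨zero_nsmul P, by simp, by simp⟩
      · have h := T_rep_dbl E hΔ (ih m (by omega))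
        have he := T_eval_dbl E (A_x P) (T_ladder E m)
        rw [T_ladder_even E m hm, mul_nsmul']
        rw [← he] at h
        exact h
    · rcases Nat.eq_zero_or_pos m with rfl | hm
      · right
        rw [show 2 * 0 + 1 = 1 from rfl, T_ladder_one, one_nsmul]
        exact ⟨hP, by simp, by simp⟩
      · have h := T_rep_dadd E hP (succ_nsmul P m) (ih m (by omega)) (ih (m + 1) (by omega))
        have he := T_eval_dadd E (A_x P) (T_ladder E m) (T_ladder E (m + 1))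
        rw [← he] at h
        rw [T_ladder_odd E m hm]
        have hn : (2 * m + 1) • P = m • P + (m + 1) • P := by
          rw [← add_nsmul]
          congr 1
          ring
        rw [hn]
        exact h

end Fermat.Agent.S13
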