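import Fermat.Agent.S13.Torsion

/-!
# The `x`-coordinate polynomial of a Galois-stable line

Let `P` be a point of odd prime order `p` on an elliptic curve over `ℚ`, spanning a
Galois-stable line.  Then the `x`-coordinates `x(jP)`, `1 ≤ j ≤ (p - 1) / 2`, are pairwise
distinct, are permuted by the Galois group, and `∏ⱼ (T - x(jP))` has rational coefficients.
-/

set_option autoImplicit false

namespace Fermat.Agent.S13

open WeierstrassCurve WeierstrassCurve.Affine Polynomial
open Fermat.Agent.S51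

section Generic

variable {F : Type*} [Field F] [DecidableEq F] {E : Affine F}

/-- Multiples of a point of prime order: `r • P = 0` iff `p ∣ r`. -/
lemma T_nsmul_eq_zero_iff_dvd {p : ℕ} (hp : p.Prime) {P : E.Point} (hP : P ≠ 0)
    (hpP : p • P = 0) (r : ℕ) : r • P = 0 ↔ p ∣ r := by
  have hord : addOrderOf P = p := by
    have hdvd : addOrderOf P ∣ p := addOrderOf_dvd_of_nsmul_eq_zero hpP
    rcases (Nat.dvd_prime hp).mp hdvd with h | h
    · exact absurd (AddMonoid.addOrderOf_eq_one_iff.mp h) hP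
    · exact h
  rw [← hord]
  exact addOrderOf_dvd_iff_nsmul_eq_zero.symm

/-- The `x`-coordinates `x(jP)`, `1 ≤ j ≤ m`, of a point of order `2 m + 1` are distinct. -/
lemma T_x_injOn {m : ℕ} (hp : (2 * m + 1).Prime) {P : E.Point} (hP : P ≠ 0)
    (hpP : (2 * m + 1) • P = 0) :
    Set.InjOn (fun j : ℕ => A_x (j • P)) (Finset.Icc 1 m : Finset ℕ) := by
  have key : ∀ i j : ℕ, 1 ≤ i → i ≤ j → j ≤ m → A_x (i • P) = A_x (j • P) → i = j := by
    intro i j hi hij hj hx
    have hi0 : i • P ≠ 0 := fun h =>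
      absurd ((T_nsmul_eq_zero_iff_dvd hp hP hpP i).mp h) (Nat.not_dvd_of_pos_of_lt hi (by omega))
    have hj0 : j • P ≠ 0 := fun h =>
      absurd ((T_nsmul_eq_zero_iff_dvd hp hP hpP j).mp h)
        (Nat.not_dvd_of_pos_of_lt (by omega) (by omega))
    rcases (A_x_eq_iff E hi0 hj0).mp hx with h | h
    · by_contra hne
      have hlt : i < j := lt_of_le_of_ne hij hne
      have h0 : (j - i) • P = 0 := by
        have : j • P = (j - i) • P + i • P := by
          rw [← add_nsmul]
          congr 1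
          omega
        rw [this] at h
        exact add_eq_right.mp h.symm
      exact absurd ((T_nsmul_eq_zero_iff_dvd hp hP hpP (j - i)).mp h0)
        (Nat.not_dvd_of_pos_of_lt (by omega) (by omega))
    · exfalso
      have h0 : (i + j) • P = 0 := by
        rw [add_nsmul, h, neg_add_cancel]
      exact absurd ((T_nsmul_eq_zero_iff_dvd hp hP hpP (i + j)).mp h0)
        (Nat.not_dvd_of_pos_of_lt (by omega) (by omega))
  intro i hi j hj hx
  simp only [Finset.coe_Icc, Set.mem_Icc] at hi hj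
  rcases le_total i j with h | h
  · exact key i j hi.1 h hj.2 hx
  · exact (key j i hj.1 h hi.2 hx.symm).symm

/-- Every nonzero multiple of `P` has the `x`-coordinate of some `j • P` with `1 ≤ j ≤ m`. -/
lemma T_x_multiple {m : ℕ} {P : E.Point}
    (hpP : (2 * m + 1) • P = 0) (r : ℕ) (hr : r • P ≠ 0) :
    ∃ j ∈ Finset.Icc 1 m, A_x (r • P) = A_x (j • P) := by
  have hr' : r • P = (r % (2 * m + 1)) • P := nsmul_eq_mod_nsmul r hpP
  have hpos : 0 < r % (2 * m + 1) := by
    rcases Nat.eq_zero_or_pos (r % (2 * m + 1)) with h | h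
    · rw [hr', h, zero_nsmul] at hr
      exact absurd rfl hr
    · exact h
  have hlt : r % (2 * m + 1) < 2 * m + 1 := Nat.mod_lt _ (by omega)
  by_cases hle : r % (2 * m + 1) ≤ m
  · exact ⟨r % (2 * m + 1), Finset.mem_Icc.mpr ⟨hpos, hle⟩, by rw [← hr']⟩
  · refine ⟨2 * m + 1 - r % (2 * m + 1), Finset.mem_Icc.mpr ⟨by omega, by omega⟩, ?_⟩
    have : (2 * m + 1 - r % (2 * m + 1)) • P = -((r % (2 * m + 1)) • P) := by
      rw [eq_neg_iff_add_eq_zero, ← add_nsmul]
      have : 2 * m + 1 - r % (2 * m + 1) + r % (2 * m + 1) = 2 * m + 1 := by omega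
      rw [this, hpP]
    rw [this, A_x_neg, ← hr']

end Generic

section Galois

variable (W : WeierstrassCurve ℚ)

/-- The finite set of `x`-coordinates of the nonzero points of the line spanned by `P`. -/
noncomputable def T_lineX (m : ℕ) (P : (W⁄(AlgebraicClosure ℚ)).Point) :
    Finset (AlgebraicClosure ℚ) :=
  (Finset.Icc 1 m).image (fun j : ℕ => A_x (j • P))

lemma T_lineX_card {m : ℕ} (hp : (2 * m + 1).Prime) {P : (W⁄(AlgebraicClosure ℚ)).Point}
    (hP : P ≠ 0) (hpP : (2 * m + 1) • P = 0) : (T_lineX W m P).card = m := by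
  rw [T_lineX, Finset.card_image_of_injOn (T_x_injOn hp hP hpP)]
  simp

lemma T_lineX_stable {m : ℕ} (hp : (2 * m + 1).Prime) {P : (W⁄(AlgebraicClosure ℚ)).Point}
    (hP : P ≠ 0) (hpP : (2 * m + 1) • P = 0)
    (σ : AlgebraicClosure ℚ ≃ₐ[ℚ] AlgebraicClosure ℚ) (hσ : ∃ k : ℕ, σ • P = k • P) :
    (T_lineX W m P).image σ = T_lineX W m P := by
  apply Finset.eq_of_subset_of_card_le
  · intro x hx
    obtain ⟨y, hy, rfl⟩ := Finset.mem_image.mp hx
    obtain ⟨j, hj, rfl⟩ := Finset.mem_image.mp hy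
    obtain ⟨k, hk⟩ := hσ
    have hj' := Finset.mem_Icc.mp hj
    have hjP : j • P ≠ 0 := fun h =>
      absurd ((T_nsmul_eq_zero_iff_dvd hp hP hpP j).mp h)
        (Nat.not_dvd_of_pos_of_lt hj'.1 (by omega))
    have hσj : σ • (j • P) = (j * k) • P := by
      have : σ • (j • P) = j • (σ • P) :=
        _root_.map_nsmul (Point.map σ.toAlgHom) j P
      rw [this, hk, ← mul_nsmul']
    have h1 : σ (A_x (j • P)) = A_x ((j * k) • P) := by
      rw [← A_x_smul, hσj]
    have h2 : (j * k) • P ≠ 0 := by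
      intro h
      rw [h] at hσj
      exact hjP ((smul_eq_zero_iff_eq σ).mp hσj)
    obtain ⟨i, hi, hxi⟩ := T_x_multiple hpP (j * k) h2
    rw [h1, hxi]
    exact Finset.mem_image.mpr ⟨i, hi, rfl⟩
  · rw [Finset.card_image_of_injective _ σ.injective]

/-- **Rationality of the line polynomial.**  If `P` has odd prime order `p = 2 m + 1` and spans
a Galois-stable line, then `∏_{j=1}^{m} (T - x(jP))` is the image of a monic polynomial of
degree `m` with rational coefficients. -/
theorem T_line_poly {m : ℕ} (hp : (2 * m + 1).Prime) {P : (W⁄(AlgebraicClosure ℚ)).Point}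
    (hP : P ≠ 0) (hpP : (2 * m + 1) • P = 0)
    (hσ : ∀ σ : AlgebraicClosure ℚ ≃ₐ[ℚ] AlgebraicClosure ℚ, ∃ k : ℕ, σ • P = k • P) :
    ∃ g : ℚ[X], g.Monic ∧ g.natDegree = m ∧
      g.map (algebraMap ℚ (AlgebraicClosure ℚ)) = ∏ x ∈ T_lineX W m P, (X - C x) ∧
      (∀ x : AlgebraicClosure ℚ, (g.map (algebraMap ℚ (AlgebraicClosure ℚ))).eval x = 0 ↔
        ∃ j ∈ Finset.Icc 1 m, x = A_x (j • P)) := by
  set gK : (AlgebraicClosure ℚ)[X] := ∏ x ∈ T_lineX W m P, (X - C x) with hgK
  have hmonic : gK.Monic := monic_prod_X_sub_C _ _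
  have hdeg : gK.natDegree = m := by
    rw [hgK, natDegree_finsetProd_X_sub_C_eq_card, T_lineX_card W hp hP hpP]
  have hfix : ∀ σ : AlgebraicClosure ℚ ≃ₐ[ℚ] AlgebraicClosure ℚ,
      gK.map (σ : AlgebraicClosure ℚ →+* AlgebraicClosure ℚ) = gK := by
    intro σ
    rw [hgK, Polynomial.map_prod]
    have : ∀ x ∈ T_lineX W m P,
        (X - C x : (AlgebraicClosure ℚ)[X]).map (σ : AlgebraicClosure ℚ →+* AlgebraicClosure ℚ)
          = X - C (σ x) := by
      intro x _
      simp
    rw [Finset.prod_congr rfl this]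
    conv_rhs => rw [← T_lineX_stable W hp hP hpP σ (hσ σ)]
    rw [Finset.prod_image]
    intro a _ b _ hab
    exact σ.injective hab
  have hlift : gK ∈ Polynomial.lifts (algebraMap ℚ (AlgebraicClosure ℚ)) := by
    rw [lifts_iff_coeff_lifts]
    intro i
    obtain ⟨r, hr⟩ := A_rational_of_fixed (gK.coeff i) (fun σ => by
      have := congrArg (fun q => q.coeff i) (hfix σ)
      simpa [coeff_map] using this)
    exact ⟨r, hr⟩
  obtain ⟨g, hg, hgdeg, hgmonic⟩ := lifts_and_natDegree_eq_and_monic hlift hmonic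
  refine ⟨g, hgmonic, by rw [hgdeg, hdeg], hg, fun x => ?_⟩
  rw [hg, hgK, eval_prod, Finset.prod_eq_zero_iff]
  constructor
  · rintro ⟨y, hy, hxy⟩
    obtain ⟨j, hj, rfl⟩ := Finset.mem_image.mp hy
    refine ⟨j, hj, ?_⟩
    simp only [eval_sub, eval_X, eval_C] at hxy
    exact sub_eq_zero.mp hxy
  · rintro ⟨j, hj, rfl⟩
    exact ⟨A_x (j • P), Finset.mem_image.mpr ⟨j, hj, rfl⟩, by simp⟩

end Galois

end Fermat.Agent.S13
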