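import Fermat.Agent.S13.L2Inertia
import Fermat.Agent.S13.L2Frey

/-!
# S13, work package L1 (helper42): inertia preserves the component height

On a nodal model over a valuation subring `A` (in the sense of `H76.NodalVal`):

* `L1_ht_eq_one_iff` : the height of a point is `1` iff the point lies in the identity component
  (`Q = 0` or `1 ≤ v x`);
* `L1_exists_prime` : a valuation subring of `Qbar` for which some nonzero rational number is a
  nonunit lies over a prime number;
* `L1_valuation_eq` : inertia elements preserve the valuation;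
* `L1_ht_smul` : inertia elements preserve the height;
* `L1_ht_sub_smul` : for `σ` in the inertia group, `σ • Q - Q` has height `1`.

The mathematical content is in `Fermat.Agent.S13.L2` (helper76) and `Fermat.Agent.S05.H76`.
-/

set_option autoImplicit false

namespace Fermat.Agent.S13

open WeierstrassCurve Fermat.Agent.S05 Fermat.Agent.S05.H76
open scoped WeierstrassCurve.Affine

local notation "Qbar" => AlgebraicClosure ℚ

/-- The height of a point is `1` exactly on the identity component. -/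
theorem L1_ht_eq_one_iff {K : Type*} [Field K] [DecidableEq K] (A : ValuationSubring K)
    (W : WeierstrassCurve K) (r₁ r₂ : K) (hV : H76.NodalVal A.valuation W r₁ r₂)
    (Q : W.toAffine.Point) :
    H76.ht A.valuation W r₁ Q = 1 ↔
      (Q = 0 ∨ ∃ x y h, Q = .some x y h ∧ 1 ≤ A.valuation x) := by
  constructor
  · intro h
    have hrel : Rel (A.valuation W.a₄) (ht A.valuation W r₁ Q) 1 := Rel.of_eq h
    exact L2.typeZ_of_rel_one hV hrel
  · rintro (rfl | ⟨x, y, h, rfl, hx⟩)
    · rfl
    · exact ht_Z _ _ _ h hx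

/-- Natural numbers have valuation `1` if no prime number is a nonunit. -/
theorem L1_valuation_natCast (A : ValuationSubring Qbar)
    (hA : ∀ q : ℕ, q.Prime → ((q : ℕ) : Qbar) ∉ A.nonunits) (n : ℕ) (hn : n ≠ 0) :
    A.valuation ((n : ℕ) : Qbar) = 1 := by
  induction n using Nat.recOnMul with
  | zero => exact absurd rfl hn
  | one => simp
  | prime q hq =>
    have h1 : A.valuation ((q : ℕ) : Qbar) ≤ 1 :=
      (A.valuation_le_one_iff _).mpr (_root_.natCast_mem A q)
    have h2 : ¬ A.valuation ((q : ℕ) : Qbar) < 1 := fun h =>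
      hA q hq (A.mem_nonunits_iff.mpr h)
    exact le_antisymm h1 (not_lt.mp h2)
  | mul a b ha hb =>
    have ha0 : a ≠ 0 := fun h => hn (by rw [h, zero_mul])
    have hb0 : b ≠ 0 := fun h => hn (by rw [h, mul_zero])
    rw [Nat.cast_mul, map_mul, ha ha0, hb hb0, one_mul]

/-- Nonzero rational numbers have valuation `1` if no prime number is a nonunit. -/
theorem L1_valuation_ratCast (A : ValuationSubring Qbar)
    (hA : ∀ q : ℕ, q.Prime → ((q : ℕ) : Qbar) ∉ A.nonunits) (r : ℚ) (hr : r ≠ 0) :
    A.valuation (algebraMap ℚ Qbar r) = 1 := by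
  have hnum : A.valuation (((r.num.natAbs : ℕ) : Qbar)) = 1 :=
    L1_valuation_natCast A hA _ (Int.natAbs_ne_zero.mpr (Rat.num_ne_zero.mpr hr))
  have hden : A.valuation (((r.den : ℕ) : Qbar)) = 1 :=
    L1_valuation_natCast A hA _ r.den_ne_zero
  have hnum' : A.valuation ((r.num : ℤ) : Qbar) = 1 := by
    rcases Int.natAbs_eq r.num with h | h
    · rw [h]; simpa using hnum
    · rw [h]; simpa using hnum
  have hr' : algebraMap ℚ Qbar r = ((r.num : ℤ) : Qbar) / ((r.den : ℕ) : Qbar) := by
    conv_lhs => rw [← Rat.num_div_den r]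
    simp
  rw [hr', map_div₀, hnum', hden, div_one]

/-- A valuation subring of `Qbar` in which some nonzero rational number is a nonunit lies over a
prime number. -/
theorem L1_exists_prime (A : ValuationSubring Qbar) {r : ℚ} (hr : r ≠ 0)
    (hv : A.valuation (algebraMap ℚ Qbar r) < 1) : ∃ q : ℕ, q.Prime ∧ A.LiesOverPrime q := by
  by_contra hcon
  push Not at hcon
  have hA : ∀ q : ℕ, q.Prime → ((q : ℕ) : Qbar) ∉ A.nonunits := fun q hq => hcon q hq
  rw [L1_valuation_ratCast A hA r hr] at hv
  exact lt_irrefl _ hv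

/-- On a nodal model over `ℚ`, the valuation subring lies over a prime number. -/
theorem L1_exists_prime_of_nodalVal (W : WeierstrassCurve ℚ) (A : ValuationSubring Qbar)
    (r₁ r₂ : Qbar) (hV : H76.NodalVal A.valuation (W.baseChange Qbar) r₁ r₂) :
    ∃ q : ℕ, q.Prime ∧ A.LiesOverPrime q := by
  have h4 : (W.baseChange Qbar).a₄ = algebraMap ℚ Qbar W.a₄ := rfl
  have hr : W.a₄ ≠ 0 := by
    intro h0
    apply hV.hw0
    rw [h4, h0, map_zero]
  have hv : A.valuation (algebraMap ℚ Qbar W.a₄) < 1 := by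
    rw [← h4]; exact hV.hw
  exact L1_exists_prime A hr hv

/-- Inertia elements preserve the valuation (nodal model over `ℚ`). -/
theorem L1_valuation_eq (W : WeierstrassCurve ℚ) (A : ValuationSubring Qbar) (r₁ r₂ : Qbar)
    (hV : H76.NodalVal A.valuation (W.baseChange Qbar) r₁ r₂) {σ : Qbar ≃ₐ[ℚ] Qbar}
    (hσ : σ ∈ A.inertiaSubgroupIn ℚ) (z : Qbar) : A.valuation (σ z) = A.valuation z := by
  obtain ⟨q, hq, hA⟩ := L1_exists_prime_of_nodalVal W A r₁ r₂ hV
  exact L2.inertia_valuation_eq A hq hA hσ z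

/-- Inertia elements preserve the height. -/
theorem L1_ht_smul (W : WeierstrassCurve ℚ) (A : ValuationSubring Qbar) (r₁ r₂ : Qbar)
    (hV : H76.NodalVal A.valuation (W.baseChange Qbar) r₁ r₂) {σ : Qbar ≃ₐ[ℚ] Qbar}
    (hσ : σ ∈ A.inertiaSubgroupIn ℚ) (Q : (W⁄Qbar).Point) :
    H76.ht A.valuation (W.baseChange Qbar) r₁ (σ • Q) =
      H76.ht A.valuation (W.baseChange Qbar) r₁ Q :=
  L2.inertia_ht_eq W A hV hσ (L1_valuation_eq W A r₁ r₂ hV hσ) Q

/-- For `σ` in the inertia group, `σ • Q - Q` lies in the identity component. -/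
theorem L1_ht_sub_smul (W : WeierstrassCurve ℚ) (A : ValuationSubring Qbar) (r₁ r₂ : Qbar)
    (hV : H76.NodalVal A.valuation (W.baseChange Qbar) r₁ r₂) {σ : Qbar ≃ₐ[ℚ] Qbar}
    (hσ : σ ∈ A.inertiaSubgroupIn ℚ) (Q : (W⁄Qbar).Point) :
    H76.ht A.valuation (W.baseChange Qbar) r₁ (σ • Q - Q) = 1 := by
  have hZ := L2.inertia_sub_typeZ W A hV hσ (L1_valuation_eq W A r₁ r₂ hV hσ) Q
  exact (L1_ht_eq_one_iff A (W.baseChange Qbar) r₁ r₂ hV _).2 hZ

end Fermat.Agent.S13
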