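import Fermat.Agent.S13.Defs
import Fermat.Agent.S13.H4AtP
import Fermat.Agent.S05.FreyArith
import Fermat.Agent.S05.VarChange

/-!
# S13, task L4: inertia at `p` moves `p`-torsion points of the Frey curve inside the kernel of
reduction (helper27)

`L4_ifRedP : IfRedP P` (a second proof; the official provider is `H4RedP.lean`).  The statement on the short models (good model / short nodal model) is
helper4's `H4AtP.lean`, which is valid at the residue characteristic `p` itself; here we do the
case distinction `p ∣ a`, `p ∣ b`, `p ∣ c`, `p ∤ abc` and transport the conclusion from the short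
model to the Frey model along the variable change `(x, y) ↦ (4 x + r, 8 y + 4 x)`, which maps
non-integral `x`-coordinates to non-integral `x`-coordinates because `2, r ∈ A`.
-/

set_option autoImplicit false
set_option linter.unusedSectionVars false

namespace Fermat.Agent.S13

open WeierstrassCurve Fermat.Agent.S05

open scoped WeierstrassCurve.Affine

local notation "Qbar" => AlgebraicClosure ℚ

section Transfer

variable {K : Type*} [Field K] [DecidableEq K] [Algebra ℚ K]

/-- If the image of `Q` under the point map of a variable change with `u, r ∈ A` lies in the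
kernel of reduction, so does `Q`. -/
theorem L4_inE1_of_inE1_vcPointBC (A : ValuationSubring K) (W'' : WeierstrassCurve ℚ)
    (C' : VariableChange ℚ) (hu : algebraMap ℚ K (C'.u : ℚ) ∈ A)
    (hr : algebraMap ℚ K C'.r ∈ A) (Q : ((C' • W'').baseChange K).toAffine.Point)
    (h : InE1 A (vcPointBC (K := K) W'' C' Q)) : InE1 A Q := by
  rcases Q with _ | ⟨x, y, hxy⟩
  · exact inE1_zero A
  · obtain ⟨h', e⟩ := vcPointBC_some (K := K) W'' C' hxy
    rw [e, inE1_some] at h
    rw [inE1_some]
    intro hx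
    apply h
    have e1 : vcX (C'.baseChange K) x = (algebraMap ℚ K (C'.u : ℚ)) ^ 2 * x + algebraMap ℚ K C'.r := by
      simp only [vcX, VariableChange.baseChange, VariableChange.map, Units.coe_map,
        MonoidHom.coe_coe]
    rw [e1]
    exact A.add_mem _ _ (A.mul_mem _ _ (pow_mem hu 2) hx) hr

/-- **Transfer lemma.**  The statement "`σ Q - Q` lies in the kernel of reduction for every
`Q` killed by `n`" passes from a model `W''` to the model `W = C' • W''`, if `u, r ∈ A`. -/
theorem L4_inE1_transfer {A : ValuationSubring K} {W W'' : WeierstrassCurve ℚ}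
    (C' : VariableChange ℚ) (hW : W = C' • W'') (hu : algebraMap ℚ K (C'.u : ℚ) ∈ A)
    (hr : algebraMap ℚ K C'.r ∈ A) (n : ℤ) (σ : K ≃ₐ[ℚ] K)
    (h : ∀ Q'' : (W''⁄K).Point, n • Q'' = 0 → InE1 A (σ • Q'' - Q''))
    (Q : (W⁄K).Point) (hQ : n • Q = 0) : InE1 A (σ • Q - Q) := by
  subst hW
  apply L4_inE1_of_inE1_vcPointBC A W'' C' hu hr
  have e : vcPointBC (K := K) W'' C' (σ • Q - Q) =
      σ • (vcPointBC (K := K) W'' C' Q) - vcPointBC (K := K) W'' C' Q := by
    rw [map_sub]
    congr 1
    exact vcPointBC_map W'' C' σ.toAlgHom Q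
  rw [e]
  apply h
  rw [← map_zsmul, hQ, map_zero]

end Transfer

section Frey

variable (P : FreyPackage)

/-- `2 ∈ A`, as the image of the `u` of the Frey variable changes. -/
theorem L4_freyVC_u_mem (A : ValuationSubring Qbar) :
    algebraMap ℚ Qbar ((freyVC.u : ℚˣ) : ℚ) ∈ A := by
  have : algebraMap ℚ Qbar ((freyVC.u : ℚˣ) : ℚ) = ((2 : ℕ) : Qbar) := by
    simp [freyVC]
  rw [this]
  exact Fermat.Agent.S05.natCast_mem A 2

theorem L4_freyVCC_u_mem (A : ValuationSubring Qbar) :
    algebraMap ℚ Qbar (((freyVCC P).u : ℚˣ) : ℚ) ∈ A := by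
  have : algebraMap ℚ Qbar (((freyVCC P).u : ℚˣ) : ℚ) = ((2 : ℕ) : Qbar) := by
    simp [freyVCC]
  rw [this]
  exact Fermat.Agent.S05.natCast_mem A 2

theorem L4_freyVC_r_mem (A : ValuationSubring Qbar) :
    algebraMap ℚ Qbar (freyVC.r) ∈ A := by
  have : algebraMap ℚ Qbar (freyVC.r) = 0 := by
    simp [freyVC]
  rw [this]
  exact A.zero_mem

theorem L4_freyVCC_r_mem (A : ValuationSubring Qbar) :
    algebraMap ℚ Qbar ((freyVCC P).r) ∈ A := by
  have : algebraMap ℚ Qbar ((freyVCC P).r) = ((-(P.a ^ P.p) : ℤ) : Qbar) := by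
    simp [freyVCC]
  rw [this]
  exact Fermat.Agent.S05.intCast_mem A _

/-- **WP-LP.**  At a place `A` over `p`, inertia moves every `p`-torsion point of the Frey curve
by an element of the kernel of reduction. -/
theorem L4_ifRedP : IfRedP P := by
  intro A hA σ hσ Q hQ
  have hAp : ((P.p : ℕ) : Qbar) ∈ A.nonunits := hA
  have hp2 : P.p ≠ 2 := by have := P.hp5; omega
  have hodd : Odd P.p := P.pp.odd_of_ne_two hp2
  have h2 : IsUnitOf A (2 : Qbar) := two_isUnitOf P.pp hAp hp2
  have nodal : ∀ W'' : WeierstrassCurve ℚ, IsShortNodal A P.p W'' →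
      ∀ Q'' : (W''⁄Qbar).Point, (P.p : ℤ) • Q'' = 0 → InE1 A (σ • Q'' - Q'') := by
    intro W'' hW'' Q'' hQ''
    refine h4_inertia_sub_inE1_of_isShortNodal hodd h2 hW'' hσ Q'' ?_
    rw [← natCast_zsmul]; exact hQ''
  by_cases ha : (P.p : ℤ) ∣ P.a
  · exact L4_inE1_transfer freyVC (freyCurve_eq_smul_short P) (L4_freyVC_u_mem A)
      (L4_freyVC_r_mem A) (P.p : ℤ) σ
      (nodal _ (freyShort_isShortNodal_of_dvd_a P P.pp hAp ha)) Q hQ
  by_cases hb : (P.p : ℤ) ∣ P.b
  · exact L4_inE1_transfer freyVC (freyCurve_eq_smul_short P) (L4_freyVC_u_mem A)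
      (L4_freyVC_r_mem A) (P.p : ℤ) σ
      (nodal _ (freyShort_isShortNodal_of_dvd_b P P.pp hAp hb)) Q hQ
  by_cases hc : (P.p : ℤ) ∣ P.c
  · exact L4_inE1_transfer (freyVCC P) (freyCurve_eq_smul_shortC P) (L4_freyVCC_u_mem P A)
      (L4_freyVCC_r_mem P A) (P.p : ℤ) σ
      (nodal _ (freyShortC_isShortNodal_of_dvd_c P P.pp hAp hc)) Q hQ
  · exact L4_inE1_transfer freyVC (freyCurve_eq_smul_short P) (L4_freyVC_u_mem A)
      (L4_freyVC_r_mem A) (P.p : ℤ) σ
      (fun Q'' _ => h4_inertia_sub_inE1_of_isGoodModel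
        (freyShort_isGoodModel P P.pp hAp hp2 ha hb hc) hσ Q'') Q hQ

end Frey

end Fermat.Agent.S13
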