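import Mathlib
import Fermat.Prelude.Def_FLTPrelim_Ramification

/-!
# S13, task M1 (MinkFin): Minkowski at finite level

For a finite Galois extension `F/ℚ` inside `Qbar`, `F ≠ ℚ`, there is a prime `q` such that for
every valuation subring `A` of `Qbar` over `q` the inertia group at `A` in `Gal(F/ℚ)` is
nontrivial: there is `τ ≠ 1` with `τ x - x ∈ 𝔪_A` for all algebraic integers `x` of `F`.

Proof: Minkowski (`NumberField.exists_not_isUnramifiedAt_int_of_isGalois`) gives a prime `q`
all of whose primes in `𝓞 F` are ramified; the cardinality of the inertia group is the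
ramification index.
-/

set_option autoImplicit false
set_option linter.style.haveILetI false

namespace Fermat.Agent.S13

open NumberField

local notation "Qbar" => AlgebraicClosure ℚ

/-- Integral elements lie in any valuation subring. -/
theorem M1_mem_of_isIntegral {L : Type*} [Field L] (A : ValuationSubring L) {x : L}
    (hx : IsIntegral ℤ x) : x ∈ A := by
  have h : IsIntegral A x := hx.tower_top
  obtain ⟨y, rfl⟩ := (IsIntegrallyClosed.isIntegral_iff (R := A) (K := L)).mp h
  exact y.2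

/-- **M1** (Minkowski at finite level): a nontrivial finite Galois extension `F/ℚ` has a prime
`q` with nontrivial inertia at every place over `q`. -/
theorem M1_exists_ramified (F : IntermediateField ℚ Qbar) [FiniteDimensional ℚ F] [IsGalois ℚ F]
    (hF : F ≠ ⊥) :
    ∃ q : ℕ, q.Prime ∧ ∀ A : ValuationSubring Qbar, A.LiesOverPrime q →
      ∃ τ : F ≃ₐ[ℚ] F, τ ≠ 1 ∧ ∀ x : F, IsIntegral ℤ x →
        ((τ x : F) : Qbar) - (x : Qbar) ∈ A.nonunits := by
  haveI : NumberField F := { to_charZero := inferInstance, to_finiteDimensional := inferInstance }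
  have hrank : 1 < Module.finrank ℚ F := by
    have h1 : 0 < Module.finrank ℚ F := Module.finrank_pos
    have h2 : Module.finrank ℚ F ≠ 1 := fun h => hF (IntermediateField.finrank_eq_one_iff.mp h)
    omega
  obtain ⟨q, hq, hram⟩ :=
    NumberField.exists_not_isUnramifiedAt_int_of_isGalois (K := F) (𝒪 := 𝓞 F) hrank
  refine ⟨q, hq, fun A hA => ?_⟩
  -- the ring hom `𝓞 F → A`
  let φ : 𝓞 F →+* A :=
    { toFun := fun x => ⟨((x : F) : Qbar), M1_mem_of_isIntegral A
        ((RingOfIntegers.isIntegral_coe x).map (IsScalarTower.toAlgHom ℤ F Qbar))⟩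
      map_one' := by ext; simp
      map_mul' := fun x y => by ext; simp
      map_zero' := by ext; simp
      map_add' := fun x y => by ext; simp }
  -- the prime of `𝓞 F` below `A`
  let P : Ideal (𝓞 F) := Ideal.comap φ (IsLocalRing.maximalIdeal A)
  haveI hPprime : P.IsPrime := Ideal.comap_isPrime φ _
  have hPmem : ∀ x : 𝓞 F, x ∈ P ↔ ((x : F) : Qbar) ∈ A.nonunits := by
    intro x
    rw [ValuationSubring.mem_nonunits_iff_exists_mem_maximalIdeal]
    constructor
    · intro h
      exact ⟨_, h⟩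
    · rintro ⟨_, h⟩
      exact h
  have hqP : ((q : ℕ) : 𝓞 F) ∈ P := by
    rw [hPmem]
    have : (((q : 𝓞 F) : F) : Qbar) = (q : Qbar) := by simp
    rw [this]
    exact hA
  have hnot := hram P hPprime hqP
  -- Galois action on the ring of integers
  letI : MulSemiringAction Gal(F/ℚ) (𝓞 F) := IsIntegralClosure.MulSemiringAction ℤ ℚ F (𝓞 F)
  haveI := IsGaloisGroup.of_isFractionRing Gal(F/ℚ) ℤ (𝓞 F) ℚ F
  have hcard : Nat.card (Ideal.inertia Gal(F/ℚ) P) ≠ 1 := by
    rw [Ideal.card_inertia_eq_ramificationIdxIn (P.under ℤ) P,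
      Ideal.ramificationIdxIn_eq_ramificationIdx (P.under ℤ) P Gal(F/ℚ)]
    intro h
    exact hnot (Ideal.ramificationIdx_eq_one_iff.mp h)
  have hne : Ideal.inertia Gal(F/ℚ) P ≠ ⊥ := fun h => hcard (Subgroup.card_eq_one.mpr h)
  obtain ⟨⟨τ, hτ⟩, hτ1⟩ := (Subgroup.ne_bot_iff_exists_ne_one).mp hne
  have hτ1' : τ ≠ 1 := fun h => hτ1 (Subtype.ext h)
  refine ⟨τ, hτ1', fun x hx => ?_⟩
  obtain ⟨x', rfl⟩ : ∃ x' : 𝓞 F, (x' : F) = x := ⟨⟨x, hx⟩, rfl⟩
  have h1 : τ • x' - x' ∈ P := hτ x'
  rw [hPmem] at h1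
  have h2 : ((τ • x' : 𝓞 F) : F) = τ (x' : F) :=
    algebraMap_galRestrict_apply ℤ τ x'
  simpa [h2] using h1

end Fermat.Agent.S13
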