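import Mathlib
import Fermat.Agent.S13.Defs

/-!
# S13, work package M3 (MinkGlue), abstract form (helper73)

`M3_ifM_of` : the Minkowski interface `IfM` follows from the statements of the work packages
M1 (`MinkFin`: a nontrivial finite Galois extension of `ℚ` has a prime all of whose places have
nontrivial inertia) and M2 (`MinkLift`: finite level inertia elements lift to the inertia group
of a valuation subring of `Qbar`).
-/

set_option autoImplicit false

namespace Fermat.Agent.S13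

open IntermediateField

local notation "Qbar" => AlgebraicClosure ℚ

/-- The statement of work package M1. -/
def M3_StmtM1 : Prop :=
  ∀ (F : IntermediateField ℚ Qbar) [FiniteDimensional ℚ F] [IsGalois ℚ F], F ≠ ⊥ →
    ∃ q : ℕ, q.Prime ∧ ∀ A : ValuationSubring Qbar, A.LiesOverPrime q →
      ∃ τ : F ≃ₐ[ℚ] F, τ ≠ 1 ∧
        ∀ x : F, IsIntegral ℤ x → ((τ x : F) : Qbar) - (x : Qbar) ∈ A.nonunits

/-- The statement of work package M2. -/
def M3_StmtM2 : Prop :=
  ∀ (F : IntermediateField ℚ Qbar) [FiniteDimensional ℚ F] [IsGalois ℚ F]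
    (A : ValuationSubring Qbar) {q : ℕ}, q.Prime → A.LiesOverPrime q → ∀ (τ : F ≃ₐ[ℚ] F),
    (∀ x : F, IsIntegral ℤ x → ((τ x : F) : Qbar) - (x : Qbar) ∈ A.nonunits) →
      ∃ σ : Qbar ≃ₐ[ℚ] Qbar, σ ∈ A.inertiaSubgroupIn ℚ ∧ ∀ x : F, σ (x : Qbar) = ((τ x : F) : Qbar)

theorem M3_isAlgClosure_Qbar : IsAlgClosure ℚ Qbar :=
  ⟨inferInstance, AlgebraicClosure.isAlgebraic ℚ⟩

theorem M3_isGalois_Qbar : IsGalois ℚ Qbar :=
  haveI := M3_isAlgClosure_Qbar
  IsAlgClosure.isGalois ℚ Qbar

theorem M3_isIntegral_Qbar (x : Qbar) : IsIntegral ℚ x :=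
  ((AlgebraicClosure.isAlgebraic ℚ).isAlgebraic x).isIntegral

/-- A subgroup of `Gal(Qbar/ℚ)` containing the pointwise stabiliser of a finite set is the
fixing subgroup of its fixed field, and this fixed field is finite over `ℚ`. -/
theorem M3_open_subgroup (H : Subgroup (Qbar ≃ₐ[ℚ] Qbar))
    (hs : ∃ s : Finset Qbar, ∀ σ : Qbar ≃ₐ[ℚ] Qbar, (∀ a ∈ s, σ a = a) → σ ∈ H) :
    (fixedField H).fixingSubgroup = H ∧ FiniteDimensional ℚ (fixedField H) := by
  obtain ⟨s, hs⟩ := hs
  have := M3_isGalois_Qbar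
  set F₀ : IntermediateField ℚ Qbar := adjoin ℚ (s : Set Qbar) with hF₀
  have : FiniteDimensional ℚ F₀ :=
    finiteDimensional_adjoin fun x _ => M3_isIntegral_Qbar x
  have hle : F₀.fixingSubgroup ≤ H := by
    intro σ hσ
    refine hs σ fun a ha => ?_
    exact (IntermediateField.mem_fixingSubgroup_iff _ _).mp hσ a (subset_adjoin ℚ _ ha)
  have hopen : IsOpen (H : Set (Qbar ≃ₐ[ℚ] Qbar)) :=
    Subgroup.isOpen_mono hle (IntermediateField.fixingSubgroup_isOpen F₀)
  have hclosed : IsClosed (H : Set (Qbar ≃ₐ[ℚ] Qbar)) := Subgroup.isClosed_of_isOpen H hopen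
  refine ⟨?_, ?_⟩
  · exact InfiniteGalois.fixingSubgroup_fixedField (⟨H, hclosed⟩ : ClosedSubgroup (Qbar ≃ₐ[ℚ] Qbar))
  · have h1 : fixedField H ≤ F₀ := by
      have h2 := IntermediateField.fixedField_antitone hle
      rwa [InfiniteGalois.fixedField_fixingSubgroup F₀] at h2
    have h3 : FiniteDimensional ℚ (fixedField H) :=
      FiniteDimensional.of_injective (IntermediateField.inclusion h1).toLinearMap
        (IntermediateField.inclusion_injective h1)
    convert h3

/-- **M3 (abstract form).** -/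
theorem M3_ifM_of (hM1 : M3_StmtM1) (hM2 : M3_StmtM2) : IfM := by
  intro H hHn hs hI
  obtain ⟨hfix, hfin⟩ := M3_open_subgroup H hs
  set F : IntermediateField ℚ Qbar := fixedField H with hF
  have : FiniteDimensional ℚ F := hfin
  have := M3_isGalois_Qbar
  have : IsGalois ℚ F := by
    have h1 : F.fixingSubgroup.Normal := by rw [hfix]; exact hHn
    have h2 := (InfiniteGalois.normal_iff_isGalois F).mp h1
    convert h2
    exact Subsingleton.elim _ _
  by_cases hbot : F = ⊥
  · rw [← hfix, hbot, IntermediateField.fixingSubgroup_bot]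
  · exfalso
    obtain ⟨q, hq, hq'⟩ := hM1 F hbot
    obtain ⟨A, hA, hIA⟩ := hI q hq
    obtain ⟨τ, hτ1, hτ⟩ := hq' A hA
    obtain ⟨σ, hσI, hσ⟩ := hM2 F A hq hA τ hτ
    have hσH : σ ∈ H := hIA hσI
    apply hτ1
    ext x
    have h1 : σ (x : Qbar) = (x : Qbar) := by
      have hx : (x : Qbar) ∈ fixedField H := x.2
      exact hx ⟨σ, hσH⟩
    rw [hσ x] at h1
    simpa using h1

end Fermat.Agent.S13
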