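import Mathlib
import Fermat.Agent.S13.Defs
import Fermat.Agent.S54.FrobProfinite
import Fermat.Agent.Bridge.Dict

/-!
# S13, work package M2 (MinkLift)

Lifting an element of a finite-level inertia group to the inertia group of a valuation subring
of `Qbar`: if `F/ℚ` is finite Galois inside `Qbar`, `A` is a valuation subring of `Qbar` over a
prime `q`, and `τ ∈ Gal(F/ℚ)` acts trivially on the integers of `F` modulo the maximal ideal of
`A`, then `τ` is the restriction of an element of the inertia group of `A`.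

The proof lets the profinite group `Gal(Qbar/F)` (realised as `F.fixingSubgroup`) act on the ring
of all algebraic integers, with invariants the integers of `F`, and uses the transitivity on
primes and the surjectivity onto the automorphisms of the residue extension from
`Mathlib.RingTheory.Invariant.Profinite`.
-/

set_option autoImplicit false
set_option linter.style.haveILetI false

open scoped Pointwise

namespace Fermat.Agent.S13

local notation "Qbar" => AlgebraicClosure ℚ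

attribute [local instance] Fermat.Agent.S54.galActionIntegers

/-- The algebraic integers lying in `F`, as a subring of the ring of all algebraic integers. -/
noncomputable def M2_base (F : IntermediateField ℚ Qbar) : Subring ↥(integralClosure ℤ Qbar) :=
  F.toSubring.comap (algebraMap ↥(integralClosure ℤ Qbar) Qbar)

theorem M2_mem_base (F : IntermediateField ℚ Qbar) (b : ↥(integralClosure ℤ Qbar)) :
    b ∈ M2_base F ↔ (b : Qbar) ∈ F := Iff.rfl

theorem M2_smul_base (F : IntermediateField ℚ Qbar) (g : F.fixingSubgroup)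
    (a : M2_base F) : g • (a : ↥(integralClosure ℤ Qbar)) = a := by
  apply Subtype.ext
  show (g : Qbar ≃ₐ[ℚ] Qbar) ((a : ↥(integralClosure ℤ Qbar)) : Qbar) = _
  exact g.2 ⟨_, a.2⟩

instance M2_smulCommClass (F : IntermediateField ℚ Qbar) :
    SMulCommClass F.fixingSubgroup (M2_base F) ↥(integralClosure ℤ Qbar) where
  smul_comm g a b := by
    show g • ((a : ↥(integralClosure ℤ Qbar)) * b) = (a : ↥(integralClosure ℤ Qbar)) * g • b
    rw [smul_mul', M2_smul_base]

theorem M2_isInvariant (F : IntermediateField ℚ Qbar) :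
    Algebra.IsInvariant (M2_base F) ↥(integralClosure ℤ Qbar) F.fixingSubgroup := by
  haveI := Fermat.Agent.S54.isGalois_Qbar
  refine ⟨fun b hb => ?_⟩
  have hmem : (b : Qbar) ∈ IntermediateField.fixedField F.fixingSubgroup := by
    intro g
    exact congrArg Subtype.val (hb g)
  rw [InfiniteGalois.fixedField_fixingSubgroup] at hmem
  exact ⟨⟨b, hmem⟩, rfl⟩

theorem M2_compactSpace (F : IntermediateField ℚ Qbar) [FiniteDimensional ℚ F] :
    CompactSpace F.fixingSubgroup := by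
  haveI := Fermat.Agent.S54.compactSpace_GalQbar
  exact isCompact_iff_compactSpace.mp (F.fixingSubgroup_isClosed).isCompact

theorem M2_continuousSMul (F : IntermediateField ℚ Qbar) :
    @ContinuousSMul F.fixingSubgroup ↥(integralClosure ℤ Qbar) _ _ ⊥ := by
  letI : TopologicalSpace ↥(integralClosure ℤ Qbar) := ⊥
  haveI : DiscreteTopology ↥(integralClosure ℤ Qbar) := ⟨rfl⟩
  haveI : ContinuousSMul (Qbar ≃ₐ[ℚ] Qbar) ↥(integralClosure ℤ Qbar) :=
    ⟨continuous_prod_of_discrete_right.mpr Fermat.Agent.S54.continuous_smul_integers⟩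
  infer_instance

/-- Membership in the prime of the ring of all algebraic integers cut out by `A`. -/
theorem M2_mem_bigPrime (A : ValuationSubring Qbar) (b : ↥(integralClosure ℤ Qbar)) :
    b ∈ Fermat.Agent.Bridge.bigPrime A ↔ (b : Qbar) ∈ A.nonunits :=
  Fermat.Agent.Bridge.mem_bigPrime

/-- An automorphism congruent to the identity modulo `A.nonunits` on the integers of `F`
preserves membership in the big prime for integers of `F`. -/
theorem M2_mem_iff_of_congr (A : ValuationSubring Qbar) (x y : Qbar)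
    (h : x - y ∈ A.nonunits) : x ∈ A.nonunits ↔ y ∈ A.nonunits := by
  constructor
  · intro hx
    have := A.nonunits.sub_mem hx h
    simpa using this
  · intro hy
    have := A.nonunits.add_mem h hy
    simpa using this

/-- **M2 (MinkLift).** Lifting a finite-level inertia element to the inertia group of a valuation
subring of `Qbar`. -/
theorem M2_lift (F : IntermediateField ℚ Qbar) [FiniteDimensional ℚ F] [IsGalois ℚ F]
    (A : ValuationSubring Qbar) {q : ℕ} (hq : q.Prime) (hA : A.LiesOverPrime q)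
    (τ : F ≃ₐ[ℚ] F)
    (hτ : ∀ x : F, IsIntegral ℤ x → ((τ x : F) : Qbar) - (x : Qbar) ∈ A.nonunits) :
    ∃ σ : Qbar ≃ₐ[ℚ] Qbar, σ ∈ A.inertiaSubgroupIn ℚ ∧
      ∀ x : F, σ (x : Qbar) = ((τ x : F) : Qbar) := by
  classical
  letI : TopologicalSpace ↥(integralClosure ℤ Qbar) := ⊥
  haveI : DiscreteTopology ↥(integralClosure ℤ Qbar) := ⟨rfl⟩
  haveI := M2_compactSpace F
  haveI := Fermat.Agent.S54.totallyDisconnectedSpace_GalQbar
  haveI : ContinuousSMul F.fixingSubgroup ↥(integralClosure ℤ Qbar) := M2_continuousSMul F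
  haveI := M2_isInvariant F
  haveI := Fermat.Agent.S54.isGalois_Qbar
  -- the big prime
  set Q : Ideal ↥(integralClosure ℤ Qbar) := Fermat.Agent.Bridge.bigPrime A with hQdef
  have hQmem : ∀ b : ↥(integralClosure ℤ Qbar), b ∈ Q ↔ (b : Qbar) ∈ A.nonunits :=
    fun b => M2_mem_bigPrime A b
  -- (1) extend `τ` to `Qbar`
  obtain ⟨σ0, hσ0⟩ := AlgEquiv.restrictNormalHom_surjective (F := ℚ) (K₁ := F) Qbar τ
  have hσ0F : ∀ x : F, σ0 (x : Qbar) = ((τ x : F) : Qbar) := by
    intro x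
    rw [← hσ0]
    exact (AlgEquiv.restrictNormal_commutes σ0 F x).symm
  -- integrality transfers between `F` and `Qbar`
  have hint : ∀ x : F, IsIntegral ℤ (x : Qbar) → IsIntegral ℤ x := by
    intro x hx
    exact (isIntegral_algebraMap_iff (FaithfulSMul.algebraMap_injective F Qbar)).mp hx
  -- congruence on the integers of `F`
  have hcongr : ∀ y : Qbar, y ∈ F → IsIntegral ℤ y → σ0 y - y ∈ A.nonunits := by
    intro y hyF hy
    have := hτ ⟨y, hyF⟩ (hint ⟨y, hyF⟩ hy)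
    rw [← hσ0F] at this
    exact this
  have hσ0mem : ∀ y : Qbar, y ∈ F → σ0 y ∈ F := by
    intro y hyF
    have := hσ0F ⟨y, hyF⟩
    simp only at this
    rw [this]
    exact (τ ⟨y, hyF⟩).2
  have hσ0inv_mem : ∀ y : Qbar, y ∈ F → σ0⁻¹ y ∈ F := by
    intro y hyF
    have h1 := hσ0F (τ.symm ⟨y, hyF⟩)
    rw [AlgEquiv.apply_symm_apply] at h1
    have h2 : σ0⁻¹ y = ((τ.symm ⟨y, hyF⟩ : F) : Qbar) := by
      have : σ0⁻¹ (σ0 ((τ.symm ⟨y, hyF⟩ : F) : Qbar)) = σ0⁻¹ y := by rw [h1]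
      rw [← this]
      exact σ0.symm_apply_apply _
    rw [h2]
    exact (τ.symm ⟨y, hyF⟩).2
  have hcongr_inv : ∀ y : Qbar, y ∈ F → IsIntegral ℤ y → σ0⁻¹ y - y ∈ A.nonunits := by
    intro y hyF hy
    have h := hcongr (σ0⁻¹ y) (hσ0inv_mem y hyF) (map_isIntegral_int _ hy)
    have e : σ0 (σ0⁻¹ y) = y := σ0.apply_symm_apply y
    rw [e] at h
    have := A.nonunits.neg_mem h
    simpa using this
  -- (2) `σ0 • Q` and `Q` lie over the same prime of the integers of `F`
  have hunder : Ideal.under (M2_base F) (σ0 • Q) = Ideal.under (M2_base F) Q := by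
    ext a
    rw [Ideal.under_def, Ideal.under_def, Ideal.mem_comap, Ideal.mem_comap,
      Ideal.mem_pointwise_smul_iff_inv_smul_mem, hQmem, hQmem]
    have ha : (((a : ↥(integralClosure ℤ Qbar)) : Qbar)) ∈ F := a.2
    exact M2_mem_iff_of_congr A _ _ (hcongr_inv _ ha (a : ↥(integralClosure ℤ Qbar)).2)
  obtain ⟨g, hg⟩ := Algebra.IsInvariant.exists_smul_of_under_eq_of_profinite
    (A := M2_base F) (G := F.fixingSubgroup) (σ0 • Q) Q hunder
  -- `σ1 = g σ0` stabilises `Q` and restricts to `τ`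
  have hσ1Q : ((g : Qbar ≃ₐ[ℚ] Qbar) * σ0) • Q = Q := by
    rw [mul_smul]
    exact hg.symm
  have hσ1F : ∀ y : Qbar, y ∈ F → ((g : Qbar ≃ₐ[ℚ] Qbar) * σ0) y = σ0 y := by
    intro y hyF
    show (g : Qbar ≃ₐ[ℚ] Qbar) (σ0 y) = σ0 y
    exact g.2 ⟨_, hσ0mem y hyF⟩
  -- (3) the automorphism of the residue ring induced by `σ1`
  let P : Ideal (M2_base F) := Q.under (M2_base F)
  let e1 : ↥(integralClosure ℤ Qbar) ≃+* ↥(integralClosure ℤ Qbar) :=
    MulSemiringAction.toRingEquiv (Qbar ≃ₐ[ℚ] Qbar) ↥(integralClosure ℤ Qbar)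
      ((g : Qbar ≃ₐ[ℚ] Qbar) * σ0)
  have he1 : Q = Q.map (e1 : ↥(integralClosure ℤ Qbar) →+* ↥(integralClosure ℤ Qbar)) := by
    conv_lhs => rw [← hσ1Q]
    rfl
  let φ : (↥(integralClosure ℤ Qbar) ⧸ Q) ≃ₐ[M2_base F ⧸ P] (↥(integralClosure ℤ Qbar) ⧸ Q) :=
    { Ideal.quotientEquiv Q Q e1 he1 with
      commutes' := by
        intro r
        obtain ⟨a, rfl⟩ := Ideal.Quotient.mk_surjective r
        show Ideal.quotientEquiv Q Q e1 he1
          (Ideal.Quotient.mk Q (a : ↥(integralClosure ℤ Qbar))) =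
            Ideal.Quotient.mk Q (a : ↥(integralClosure ℤ Qbar))
        rw [Ideal.quotientEquiv_mk, Ideal.Quotient.eq, hQmem]
        show ((g : Qbar ≃ₐ[ℚ] Qbar) * σ0) ((a : ↥(integralClosure ℤ Qbar)) : Qbar) -
          ((a : ↥(integralClosure ℤ Qbar)) : Qbar) ∈ A.nonunits
        have ha : (((a : ↥(integralClosure ℤ Qbar)) : Qbar)) ∈ F := a.2
        rw [hσ1F _ ha]
        exact hcongr _ ha (a : ↥(integralClosure ℤ Qbar)).2 }
  obtain ⟨⟨ρ, hρ⟩, hρφ⟩ := Ideal.Quotient.stabilizerHom_surjective_of_profinite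
    (G := F.fixingSubgroup) P Q φ
  have hρQ : ∀ b : ↥(integralClosure ℤ Qbar),
      (ρ : Qbar ≃ₐ[ℚ] Qbar) (b : Qbar) - ((g : Qbar ≃ₐ[ℚ] Qbar) * σ0) (b : Qbar) ∈ A.nonunits := by
    intro b
    have h := congrArg (fun ψ => ψ (Ideal.Quotient.mk Q b)) hρφ
    have h' : Ideal.Quotient.mk Q (ρ • b) = Ideal.Quotient.mk Q (e1 b) := h
    rw [Ideal.Quotient.eq, hQmem] at h'
    exact h'
  have hρstab : ∀ b : ↥(integralClosure ℤ Qbar),
      ((ρ : Qbar ≃ₐ[ℚ] Qbar)⁻¹ (b : Qbar) ∈ A.nonunits ↔ (b : Qbar) ∈ A.nonunits) := by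
    intro b
    have h := Ideal.mem_pointwise_smul_iff_inv_smul_mem (a := ρ) (S := Q) (x := b)
    rw [MulAction.mem_stabilizer_iff.mp hρ, hQmem, hQmem] at h
    exact h.symm
  refine ⟨(ρ : Qbar ≃ₐ[ℚ] Qbar)⁻¹ * ((g : Qbar ≃ₐ[ℚ] Qbar) * σ0), ?_, ?_⟩
  · rw [Fermat.Agent.Bridge.memInertiaInt]
    intro x hx
    have h1 := hρQ ⟨x, hx⟩
    -- apply `ρ⁻¹` to `σ1 x - ρ x`
    have hint1 : IsIntegral ℤ (((g : Qbar ≃ₐ[ℚ] Qbar) * σ0) x - (ρ : Qbar ≃ₐ[ℚ] Qbar) x) :=
      (map_isIntegral_int _ hx).sub (map_isIntegral_int _ hx)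
    have h2 : ((g : Qbar ≃ₐ[ℚ] Qbar) * σ0) x - (ρ : Qbar ≃ₐ[ℚ] Qbar) x ∈ A.nonunits := by
      have := A.nonunits.neg_mem h1
      simpa using this
    have h3 := (hρstab ⟨_, hint1⟩).mpr h2
    have e : (ρ : Qbar ≃ₐ[ℚ] Qbar)⁻¹
        (((g : Qbar ≃ₐ[ℚ] Qbar) * σ0) x - (ρ : Qbar ≃ₐ[ℚ] Qbar) x) =
        ((ρ : Qbar ≃ₐ[ℚ] Qbar)⁻¹ * ((g : Qbar ≃ₐ[ℚ] Qbar) * σ0)) x - x := by
      rw [map_sub]
      congr 1
      exact (ρ : Qbar ≃ₐ[ℚ] Qbar).symm_apply_apply x
    rw [← e]
    exact h3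
  · intro x
    show (ρ : Qbar ≃ₐ[ℚ] Qbar)⁻¹ (((g : Qbar ≃ₐ[ℚ] Qbar) * σ0) (x : Qbar)) = _
    rw [hσ1F _ x.2, hσ0F]
    have hfix : (ρ : Qbar ≃ₐ[ℚ] Qbar) ((τ x : F) : Qbar) = ((τ x : F) : Qbar) := ρ.2 (τ x)
    conv_lhs => rw [← hfix]
    exact (ρ : Qbar ≃ₐ[ℚ] Qbar).symm_apply_apply _

end Fermat.Agent.S13
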