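import Mathlib
import Fermat.Agent.S13.Defs
import Fermat.Agent.S13.MinkGlueOf
import Fermat.Agent.S13.MinkFin
import Fermat.Agent.S13.MinkLift

/-!
# S13, work package M3 (MinkGlue): the Minkowski interface `IfM` (helper73)

From M1 (`MinkFin.lean`, helper62), M2 (`MinkLift.lean`, helper50) and the abstract glue
`M3_ifM_of` (`MinkGlueOf.lean`).
-/

set_option autoImplicit false

namespace Fermat.Agent.S13

/-- **WP-M (Minkowski).** -/
theorem ifM : IfM :=
  M3_ifM_of (fun F _ _ hF => M1_exists_ramified F hF)
    (fun F _ _ A _ hq hA τ hτ => M2_lift F A hq hA τ hτ)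

end Fermat.Agent.S13
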