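import Fermat.Agent.S13.Defs
import Fermat.Agent.S13.L2Frey
import Fermat.Agent.S05.XIdentities
import Fermat.Agent.S54.Frobenius

/-!
# S13, work package R1: the Frey curve has no nonzero rational `p`-torsion point

`ifR P : IfR P`.  The proof is `2`-adic: the Frey model is nodal at `2` with
`v₂(a₄) = p · v₂(b) - 4` prime to `p`, so a rational `p`-torsion point lies in the identity
component; it is not in the kernel of reduction, so its `x`-coordinate is a rational `2`-adic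
unit; then `x(2Q) ≡ x(Q)` modulo the maximal ideal and the addition formula forces `3Q` into the
kernel of reduction, whence `3Q = 0`, a contradiction.
-/

set_option autoImplicit false
set_option linter.unusedSectionVars false

namespace Fermat.Agent.S13

open WeierstrassCurve WeierstrassCurve.Affine Fermat.Agent.S05 Fermat.Agent.S05.H76
  Fermat.Agent.S13.L2
open scoped WeierstrassCurve.Affine

local notation "Qbar" => AlgebraicClosure ℚ

/-! ### Integer arithmetic -/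

theorem R1_int_aux {n ω : ℕ} (hcop : Nat.Coprime n (2 * ω)) (hω : 0 < ω) {e j : ℤ}
    (h : e * n + 2 * ω * j = 0) (he0 : e ≠ 0) (hle : |e| ≤ ω) : False := by
  have hn : IsCoprime (n : ℤ) ((2 * ω : ℕ) : ℤ) := Nat.isCoprime_iff_coprime.mpr hcop
  have hdvd : (n : ℤ) ∣ ((2 * ω : ℕ) : ℤ) * j := ⟨-e, by push_cast; linarith⟩
  have hj : (n : ℤ) ∣ j := hn.dvd_of_dvd_mul_left hdvd
  obtain ⟨j', rfl⟩ := hj
  have hn0 : (n : ℤ) ≠ 0 := by
    intro h0
    have h0' : n = 0 := by exact_mod_cast h0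
    rw [h0', Nat.coprime_zero_left] at hcop
    omega
  have he : e = -(2 * ω * j') := by
    have h1 : (n : ℤ) * (e + 2 * ω * j') = 0 := by linarith
    rcases mul_eq_zero.mp h1 with h2 | h2
    · exact absurd h2 hn0
    · linarith
  have hj'0 : j' ≠ 0 := by
    rintro rfl
    apply he0
    rw [he]; ring
  have h1 : (1 : ℤ) ≤ |j'| := Int.one_le_abs hj'0
  have h2 : |e| = 2 * ω * |j'| := by
    rw [he, abs_neg, abs_mul, abs_mul]
    simp
  have hω' : (0 : ℤ) < ω := by exact_mod_cast hω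
  nlinarith

/-! ### The component map and torsion points -/

section abstract

variable {K : Type*} [Field K] [DecidableEq K] {Γ₀ : Type*} [LinearOrderedCommGroupWithZero Γ₀]
variable {v : Valuation K Γ₀} {W : WeierstrassCurve K} {r₁ r₂ : K}

/-- On a nodal model with `v a₄ = τ ^ ω`, a point killed by `n` prime to `2 ω` whose
`x`-coordinate has valuation in `τ ^ ℤ` lies in the identity component. -/
theorem R1_one_le_vx (hV : NodalVal v W r₁ r₂) {τ : Γ₀} (hτ0 : τ ≠ 0) (hτ1 : τ < 1) {ω : ℕ}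
    (hω : v W.a₄ = τ ^ ω) {n : ℕ} (hn : Nat.Coprime n (2 * ω)) {x y : K}
    (h : W.toAffine.Nonsingular x y)
    (hP : n • (Point.some x y h : W.toAffine.Point) = 0)
    (hk' : v W.a₄ < v x → ∃ k : ℤ, v x = τ ^ k) : 1 ≤ v x := by
  by_contra h1
  push Not at h1
  have hτp : 0 < τ := zero_lt_iff.mpr hτ0
  have hω0 : 0 < ω := by
    rcases Nat.eq_zero_or_pos ω with h0 | h0
    · have hw := hV.hw
      rw [hω, h0, pow_zero] at hw
      exact absurd hw (lt_irrefl _)
    · exact h0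
  obtain ⟨j, hj⟩ := ht_nsmul hV (Point.some x y h) n
  rw [hP, ht_zero] at hj
  have key : ∃ e : ℤ, ht v W r₁ (Point.some x y h) = τ ^ e ∧ e ≠ 0 ∧ |e| ≤ ω := by
    by_cases h2 : v x ≤ v W.a₄
    · refine ⟨ω, ?_, ?_, ?_⟩
      · rw [ht_M v W r₁ h hV.hw h2, hω, zpow_natCast]
      · exact_mod_cast hω0.ne'
      · simp
    · push Not at h2
      obtain ⟨k, hk⟩ := hk' h2
      have hk0 : 0 < k := by
        by_contra hk0
        push Not at hk0
        rcases eq_or_lt_of_le hk0 with h0 | hlt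
        · rw [hk, h0, zpow_zero] at h1
          exact lt_irrefl _ h1
        · have := one_lt_zpow_of_neg₀ hτp hτ1 hlt
          rw [hk] at h1
          exact lt_irrefl _ (lt_trans this h1)
      have hkω : k < ω := by
        by_contra hkω
        push Not at hkω
        have h7 : τ ^ k ≤ τ ^ (ω : ℤ) := zpow_le_zpow_right_of_le_one₀ hτp hτ1.le hkω
        rw [zpow_natCast, ← hω, ← hk] at h7
        exact lt_irrefl _ (lt_of_lt_of_le h2 h7)
      by_cases h3 : v (y - r₁ * x) < v x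
      · exact ⟨k, by rw [ht_plus v W r₁ h h1 h2 h3, hk], hk0.ne',
          by rw [abs_of_pos hk0]; exact hkω.le⟩
      · refine ⟨-k, ?_, ?_, ?_⟩
        · have hht : ht v W r₁ (.some x y h) = (v x)⁻¹ := by
            simp only [ht, if_neg (not_le.mpr h1), if_neg (not_le.mpr h2), if_neg h3]
          rw [hht, hk, zpow_neg]
        · omega
        · rw [abs_neg, abs_of_pos hk0]; exact hkω.le
  obtain ⟨e, he, he0, hle⟩ := key
  rw [he, hω] at hj
  have h5 : τ ^ (e * n + 2 * ω * j) = 1 := by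
    rw [zpow_add₀ hτ0, zpow_mul, zpow_natCast, mul_comm (2 : ℤ) (ω : ℤ), zpow_mul, zpow_mul,
      zpow_natCast]
    have h2 : ((τ ^ ω) ^ (2 : ℤ)) = (τ ^ ω) ^ (2 : ℕ) := by
      rw [← zpow_natCast (τ ^ ω) 2]; rfl
    rw [h2]
    exact hj.symm
  have h6 := (zpow_eq_one_iff_right₀ zero_le (ne_of_lt hτ1)).mp h5
  exact R1_int_aux hn hω0 h6 he0 hle

/-- If `3 Q = 0` or `Q = 0`, and `n Q = 0` with `n` prime to `3`, then `Q = 0`. -/
theorem R1_eq_zero_of_three {n : ℕ} (hcop : Nat.Coprime 3 n) {Q : W.toAffine.Point}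
    (hn : n • Q = 0) (h3 : (3 : ℕ) • Q = 0 ∨ Q = 0) : Q = 0 := by
  rcases h3 with h3 | h3
  · have h6 : ((3 : ℕ) : ℤ) • Q = 0 := by rw [natCast_zsmul]; exact h3
    have h7 : ((n : ℕ) : ℤ) • Q = 0 := by rw [natCast_zsmul]; exact hn
    obtain ⟨a, b, hab⟩ := Nat.isCoprime_iff_coprime.mpr hcop
    have h9 : (1 : ℤ) • Q = 0 := by
      rw [← hab, add_smul, mul_smul, mul_smul, h6, h7, smul_zero, smul_zero, add_zero]
    simpa using h9
  · exact h3

/-- On a model `y² + xy = x³ + a₂x² + a₄x` with `v 2 < 1`, `v a₂ ≤ 1`, `v a₄ < 1`, let `Q = (x, y)`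
be a point with `v x = 1`, `v y ≤ 1` and `v (x - 1) < 1`.  Then either `3 Q = 0` (or `Q = 0`), or
`3 Q` is an affine point whose `x`-coordinate is not integral. -/
theorem R1_triple (e₁ : W.a₁ = 1) (e₃ : W.a₃ = 0) (e₆ : W.a₆ = 0) (hva₂ : v W.a₂ ≤ 1)
    (hva₄ : v W.a₄ < 1) (hv2 : v (2 : K) < 1) {x y : K} (h : W.toAffine.Nonsingular x y)
    (hvx : v x = 1) (hvy : v y ≤ 1) (hx1 : v (x - 1) < 1) :
    ((3 : ℕ) • (Point.some x y h : W.toAffine.Point) = 0 ∨
      (Point.some x y h : W.toAffine.Point) = 0) ∨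
    ∃ (xp yp : K) (hp : W.toAffine.Nonsingular xp yp),
      (Point.some x y h : W.toAffine.Point) + Point.some x y h + Point.some x y h =
        Point.some xp yp hp ∧ 1 < v xp := by
  have hb₂ : W.b₂ = 1 + 2 * (2 * W.a₂) := by
    simp only [WeierstrassCurve.b₂, e₁]; ring
  have hb₄ : W.b₄ = 2 * W.a₄ := by
    simp only [WeierstrassCurve.b₄, e₁, e₃]; ring
  have hb₆ : W.b₆ = 0 := by
    simp only [WeierstrassCurve.b₆, e₃, e₆]; ring
  have hb₈ : W.b₈ = -(W.a₄ * W.a₄) := by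
    simp only [WeierstrassCurve.b₈, e₁, e₃, e₆]; ring
  have hmul2 : ∀ z : K, v z ≤ 1 → v (2 * z) < 1 := by
    intro z hz
    rw [map_mul]
    calc v 2 * v z ≤ v 2 * 1 := mul_le_mul' le_rfl hz
      _ = v 2 := mul_one _
      _ < 1 := hv2
  have hvb₂ : v W.b₂ = 1 := by
    rw [hb₂]
    have h1 : v (2 * (2 * W.a₂)) < v (1 : K) := by
      rw [map_one]
      exact hmul2 _ (hmul2 _ hva₂).le
    rw [v.map_add_eq_of_lt_left h1, map_one]
  -- doubling
  have hY : v (2 * y + W.a₁ * x + W.a₃) = 1 := by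
    rw [e₁, e₃, add_zero, one_mul]
    have h2y : v (2 * y) < v x := by
      rw [hvx]; exact hmul2 y hvy
    rw [v.map_add_eq_of_lt_right h2y, hvx]
  have hY0 : 2 * y + W.a₁ * x + W.a₃ ≠ 0 := by
    intro h0
    rw [h0, map_zero] at hY
    exact zero_ne_one hY
  have hyneg : y ≠ W.toAffine.negY x y := by
    intro heq
    apply hY0
    have : y - W.toAffine.negY x y = 0 := sub_eq_zero.mpr heq
    rw [Affine.negY] at this
    linear_combination this
  obtain ⟨xd, yd, hd, h2Q, hdbl⟩ := XId.exists_double W h hyneg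
  have hD : (xd - x ^ 2) * (2 * y + W.a₁ * x + W.a₃) ^ 2 =
      2 * (-(W.a₄ * x ^ 2) - 2 * x ^ 3 * y - 2 * x ^ 2 * y ^ 2) + W.a₄ * W.a₄ := by
    rw [hb₄, hb₆, hb₈] at hdbl
    rw [e₁, e₃] at hdbl ⊢
    linear_combination hdbl
  have hstuff : v (-(W.a₄ * x ^ 2) - 2 * x ^ 3 * y - 2 * x ^ 2 * y ^ 2) ≤ 1 := by
    apply v.map_sub_le
    · apply v.map_sub_le
      · rw [Valuation.map_neg, map_mul, map_pow, hvx, one_pow, mul_one]; exact hva₄.le
      · rw [map_mul, map_mul, map_pow, hvx, one_pow, mul_one]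
        exact mul_le_one' hv2.le hvy
    · rw [map_mul, map_mul, map_pow, map_pow, hvx, one_pow, mul_one]
      exact mul_le_one' hv2.le (pow_le_one' hvy 2)
  have hxd2 : v (xd - x ^ 2) < 1 := by
    have h3 := congrArg v hD
    rw [map_mul, map_pow, hY, one_pow, mul_one] at h3
    rw [h3]
    apply v.map_add_lt (hmul2 _ hstuff)
    rw [map_mul]
    calc v W.a₄ * v W.a₄ ≤ v W.a₄ * 1 := mul_le_mul' le_rfl hva₄.le
      _ = v W.a₄ := mul_one _
      _ < 1 := hva₄
  have hxdx : v (xd - x) < 1 := by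
    have : xd - x = (xd - x ^ 2) + x * (x - 1) := by ring
    rw [this]
    apply v.map_add_lt hxd2
    rw [map_mul, hvx, one_mul]
    exact hx1
  have hvxd : v xd = 1 := by
    have : xd = x + (xd - x) := by ring
    rw [this, v.map_add_eq_of_lt_left (by rw [hvx]; exact hxdx), hvx]
  by_cases hxx : xd = x
  · left
    rcases Affine.Y_eq_of_X_eq hd.1 h.1 hxx with hyy | hyy
    · right
      have h4 : (Point.some _ _ hd : W.toAffine.Point) = Point.some _ _ h := by
        subst hxx; subst hyy; rfl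
      rw [h4] at h2Q
      have h5 := congrArg (fun R => R - (Point.some _ _ h : W.toAffine.Point)) h2Q
      simp only [add_sub_cancel_right, sub_self] at h5
      exact h5
    · left
      have h4 : (Point.some _ _ hd : W.toAffine.Point) = -Point.some _ _ h := by
        rw [Point.neg_some]
        subst hxx; subst hyy; rfl
      rw [h4] at h2Q
      have h5 : (3 : ℕ) • (Point.some _ _ h : W.toAffine.Point) =
          (Point.some _ _ h + Point.some _ _ h) + Point.some _ _ h := by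
        rw [succ_nsmul, two_nsmul]
      rw [h5, h2Q, neg_add_cancel]
  · right
    obtain ⟨xp, yp, xm, ym, hp, hm, hadd, hsub, -, hI2⟩ := XId.exists_add_sub W hd h hxx
    have hxm : xm = x := by
      rw [← h2Q, add_sub_cancel_right] at hsub
      exact (Point.some.inj hsub).1.symm
    rw [hxm] at hI2
    refine ⟨xp, yp, hp, by rw [h2Q, hadd], ?_⟩
    -- the right hand side is a unit
    have hsum : v (xd + x) ≤ 1 := v.map_add_le hvxd.le hvx.le
    have hR : v (2 * (xd + x) * (xd * x) + W.b₂ * (xd * x) + W.b₄ * (xd + x) + W.b₆) = 1 := by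
      rw [hb₆, add_zero]
      have hmain : v (W.b₂ * (xd * x)) = 1 := by
        rw [map_mul, map_mul, hvb₂, hvxd, hvx, one_mul, one_mul]
      have hs1 : v (2 * (xd + x) * (xd * x)) < 1 := by
        rw [mul_assoc]
        apply hmul2
        rw [map_mul, map_mul, hvxd, hvx, mul_one, mul_one]
        exact hsum
      have hs2 : v (W.b₄ * (xd + x)) < 1 := by
        rw [hb₄, mul_assoc]
        apply hmul2
        rw [map_mul]
        exact mul_le_one' hva₄.le hsum
      have h12 : v (2 * (xd + x) * (xd * x) + W.b₂ * (xd * x)) = 1 := by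
        rw [v.map_add_eq_of_lt_right (by rw [hmain]; exact hs1), hmain]
      rw [v.map_add_eq_of_lt_left (by rw [h12]; exact hs2), h12]
    by_contra hcon
    push Not at hcon
    have h3 := congrArg v hI2
    rw [hR, map_mul, map_pow] at h3
    have h4 : v (xp + x) ≤ 1 := v.map_add_le hcon hvx.le
    have h5 : v (xd - x) ^ 2 < 1 := by
      calc v (xd - x) ^ 2 = v (xd - x) * v (xd - x) := pow_two _
        _ ≤ v (xd - x) * 1 := mul_le_mul' le_rfl hxdx.le
        _ = v (xd - x) := mul_one _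
        _ < 1 := hxdx
    have h6 : v (xp + x) * v (xd - x) ^ 2 < 1 := by
      calc v (xp + x) * v (xd - x) ^ 2 ≤ 1 * v (xd - x) ^ 2 := mul_le_mul' h4 le_rfl
        _ = v (xd - x) ^ 2 := one_mul _
        _ < 1 := h5
    rw [h3] at h6
    exact lt_irrefl _ h6

end abstract

/-! ### Rational numbers at a place over `2` -/

section rat

variable (A : ValuationSubring Qbar)

theorem R1_algebraMap_eq (r : ℚ) :
    algebraMap ℚ Qbar r = ((r.num : ℤ) : Qbar) / (((r.den : ℕ) : ℤ) : Qbar) := by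
  conv_lhs => rw [← Rat.num_div_den r]
  rw [map_div₀]
  simp

theorem R1_den_ne_zero (r : ℚ) : (((r.den : ℕ) : ℤ) : Qbar) ≠ 0 := by
  have := r.den_ne_zero
  exact_mod_cast this

variable {A}

/-- The valuation of a nonzero rational number is an integral power of `v 2`. -/
theorem R1_val_rat (hA2 : ((2 : ℕ) : Qbar) ∈ A.nonunits) {r : ℚ} (hr : r ≠ 0) :
    ∃ k : ℤ, A.valuation (algebraMap ℚ Qbar r) = A.valuation ((2 : ℕ) : Qbar) ^ k := by
  have hnum : r.num ≠ 0 := Rat.num_ne_zero.mpr hr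
  have hden : ((r.den : ℕ) : ℤ) ≠ 0 := by exact_mod_cast r.den_ne_zero
  obtain ⟨a, ha⟩ := RO.val_intCast_eq_pow Nat.prime_two hA2 hnum
  obtain ⟨b, hb⟩ := RO.val_intCast_eq_pow Nat.prime_two hA2 hden
  have hτ0 : A.valuation ((2 : ℕ) : Qbar) ≠ 0 := by
    rw [(A.valuation).ne_zero_iff]
    exact_mod_cast (two_ne_zero : (2 : Qbar) ≠ 0)
  refine ⟨a - b, ?_⟩
  rw [R1_algebraMap_eq, map_div₀, ha, hb, zpow_sub₀ hτ0, zpow_natCast, zpow_natCast]

/-- A rational number which is a unit at `2` is congruent to `1` modulo the maximal ideal. -/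
theorem R1_val_sub_one (hA2 : ((2 : ℕ) : Qbar) ∈ A.nonunits) {r : ℚ}
    (h : A.valuation (algebraMap ℚ Qbar r) = 1) :
    A.valuation (algebraMap ℚ Qbar r - 1) < 1 := by
  have hden0 := R1_den_ne_zero r
  have hvden0 : A.valuation (((r.den : ℕ) : ℤ) : Qbar) ≠ 0 := (A.valuation).ne_zero_iff.mpr hden0
  have hdiv : A.valuation ((r.num : ℤ) : Qbar) = A.valuation (((r.den : ℕ) : ℤ) : Qbar) := by
    rw [R1_algebraMap_eq, map_div₀, div_eq_one_iff_eq hvden0] at h
    exact h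
  -- the denominator is odd
  have hdenodd : ¬ (2 : ℤ) ∣ ((r.den : ℕ) : ℤ) := by
    intro h2
    have hnumodd : ¬ (2 : ℤ) ∣ r.num := by
      intro h3
      have h4 : (2 : ℕ) ∣ r.num.natAbs := by
        have := Int.natAbs_dvd_natAbs.mpr h3
        simpa using this
      have h5 : (2 : ℕ) ∣ r.den := by exact_mod_cast h2
      have h6 := Nat.dvd_gcd h4 h5
      rw [r.reduced] at h6
      omega
    have h7 : A.valuation ((r.num : ℤ) : Qbar) = 1 :=
      intCast_isUnitOf_of_not_dvd Nat.prime_two hA2 (by exact_mod_cast hnumodd)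
    have h8 : A.valuation (((r.den : ℕ) : ℤ) : Qbar) < 1 :=
      A.mem_nonunits_iff.mp (intCast_nonunit_of_dvd hA2 (by exact_mod_cast h2))
    rw [← hdiv, h7] at h8
    exact lt_irrefl _ h8
  have hvden : A.valuation (((r.den : ℕ) : ℤ) : Qbar) = 1 :=
    intCast_isUnitOf_of_not_dvd Nat.prime_two hA2 (by exact_mod_cast hdenodd)
  have hnumodd : ¬ (2 : ℤ) ∣ r.num := by
    intro h3
    have h8 : A.valuation ((r.num : ℤ) : Qbar) < 1 :=
      A.mem_nonunits_iff.mp (intCast_nonunit_of_dvd hA2 (by exact_mod_cast h3))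
    rw [hdiv, hvden] at h8
    exact lt_irrefl _ h8
  have heven : (2 : ℤ) ∣ r.num - ((r.den : ℕ) : ℤ) := by
    have h1 : r.num % 2 = 1 := by omega
    have h2 : ((r.den : ℕ) : ℤ) % 2 = 1 := by omega
    omega
  have h9 : A.valuation (((r.num - ((r.den : ℕ) : ℤ) : ℤ)) : Qbar) < 1 :=
    A.mem_nonunits_iff.mp (intCast_nonunit_of_dvd hA2 (by exact_mod_cast heven))
  have h10 : algebraMap ℚ Qbar r - 1 =
      (((r.num - ((r.den : ℕ) : ℤ) : ℤ)) : Qbar) / (((r.den : ℕ) : ℤ) : Qbar) := by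
    rw [R1_algebraMap_eq]
    field_simp
    push_cast
    ring
  rw [h10, map_div₀, hvden, div_one]
  exact h9

end rat

/-! ### Galois-fixed elements are rational -/

theorem R1_rational_of_fixed (x : Qbar) (h : ∀ σ : Qbar ≃ₐ[ℚ] Qbar, σ x = x) :
    ∃ r : ℚ, algebraMap ℚ Qbar r = x :=
  haveI : IsAlgClosure ℚ Qbar := ⟨inferInstance, AlgebraicClosure.isAlgebraic ℚ⟩
  haveI : IsGalois ℚ Qbar := IsAlgClosure.isGalois ℚ Qbar
  (InfiniteGalois.mem_range_algebraMap_iff_fixed (k := ℚ) (K := Qbar) x).mpr h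

/-! ### The Frey curve at `2` -/

section frey

variable (P : FreyPackage) (A : ValuationSubring Qbar)

/-- `v₂(a₄) = p · v₂(b) - 4` is prime to `p`. -/
theorem R1_frey_val_a₄ (hA : A.LiesOverPrime 2) :
    ∃ ω : ℕ, A.valuation (P.freyCurve⁄Qbar).a₄ = A.valuation ((2 : ℕ) : Qbar) ^ ω ∧
      Nat.Coprime P.p (2 * ω) := by
  have hA2 : ((2 : ℕ) : Qbar) ∈ A.nonunits := hA
  obtain ⟨n₄, hn₄, -, hn₄0, h16⟩ := frey_a₄_int P
  have e₄ := frey_baseChange_a₄ P hn₄
  set τ := A.valuation ((2 : ℕ) : Qbar) with hτ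
  have hτ0 : τ ≠ 0 := by
    rw [hτ, (A.valuation).ne_zero_iff]
    exact_mod_cast (two_ne_zero : (2 : Qbar) ≠ 0)
  have hτ1 : τ < 1 := A.mem_nonunits_iff.mp hA2
  have hτp : 0 < τ := zero_lt_iff.mpr hτ0
  obtain ⟨ω, hω⟩ := RO.val_intCast_eq_pow Nat.prime_two hA2 hn₄0
  obtain ⟨β, hβ⟩ := RO.val_intCast_eq_pow Nat.prime_two hA2 P.hb0
  have hva : A.valuation ((P.a : ℤ) : Qbar) = 1 :=
    intCast_isUnitOf_of_not_dvd Nat.prime_two hA2 (by exact_mod_cast frey_not_two_dvd_a P)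
  refine ⟨ω, by rw [e₄]; exact hω, ?_⟩
  -- `4 + ω = β p`
  have h1 : ((16 : ℤ) : Qbar) * ((n₄ : ℤ) : Qbar) =
      -(((P.a : ℤ) : Qbar) ^ P.p * ((P.b : ℤ) : Qbar) ^ P.p) := by
    exact_mod_cast congrArg (fun z : ℤ => (z : Qbar)) h16
  have h2 := congrArg A.valuation h1
  have h16v : A.valuation ((16 : ℤ) : Qbar) = τ ^ 4 := by
    have : ((16 : ℤ) : Qbar) = ((2 : ℕ) : Qbar) ^ 4 := by norm_num
    rw [this, map_pow]
  rw [map_mul, Valuation.map_neg, map_mul, map_pow, map_pow, h16v, hω, hva, hβ, one_pow,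
    one_mul, ← pow_add, ← pow_mul] at h2
  have h3 : 4 + ω = β * P.p := by
    by_contra hne
    rcases Nat.lt_or_gt_of_ne hne with hlt | hgt
    · have := pow_lt_pow_right_of_lt_one₀ hτp hτ1 hlt
      rw [h2] at this
      exact lt_irrefl _ this
    · have := pow_lt_pow_right_of_lt_one₀ hτp hτ1 hgt
      rw [h2] at this
      exact lt_irrefl _ this
  have hp5 := P.hp5
  have hpp := P.pp
  rw [Nat.Prime.coprime_iff_not_dvd hpp]
  intro hdvd
  rcases (Nat.Prime.dvd_mul hpp).mp hdvd with h | h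
  · have := Nat.le_of_dvd (by norm_num) h
    omega
  · have h4 : P.p ∣ 4 + ω := by rw [h3]; exact dvd_mul_left _ _
    have h5 : P.p ∣ 4 := (Nat.dvd_add_left h).mp h4
    have := Nat.le_of_dvd (by norm_num) h5
    omega

/-- The `2`-adic core: a `p`-torsion point of the Frey curve with rational coordinates is `0`. -/
theorem R1_core (hA : A.LiesOverPrime 2) {x₀ y₀ : ℚ}
    (h : (P.freyCurve⁄Qbar).toAffine.Nonsingular (algebraMap ℚ Qbar x₀) (algebraMap ℚ Qbar y₀))
    (hQ : P.p • (Point.some _ _ h : (P.freyCurve⁄Qbar).toAffine.Point) = 0) : False := by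
  have hA2 : ((2 : ℕ) : Qbar) ∈ A.nonunits := hA
  obtain ⟨r₁, r₂, hV⟩ := frey_nodalVal_two P A hA
  obtain ⟨n₂, hn₂, -⟩ := frey_a₂_int P
  obtain ⟨n₄, hn₄, -, -, -⟩ := frey_a₄_int P
  have e₁ := frey_baseChange_a₁ P
  have e₂ := frey_baseChange_a₂ P hn₂
  have e₃ := frey_baseChange_a₃ P
  have e₄ := frey_baseChange_a₄ P hn₄
  have e₆ := frey_baseChange_a₆ P
  have hτ0 : A.valuation ((2 : ℕ) : Qbar) ≠ 0 := by
    rw [(A.valuation).ne_zero_iff]
    exact_mod_cast (two_ne_zero : (2 : Qbar) ≠ 0)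
  have hτ1 : A.valuation ((2 : ℕ) : Qbar) < 1 := A.mem_nonunits_iff.mp hA2
  have hv2 : A.valuation (2 : Qbar) < 1 := by
    have : ((2 : ℕ) : Qbar) = 2 := by norm_num
    rw [← this]; exact hτ1
  have hpunit := frey_p_unit_two P A hA
  -- coefficients are integral
  have ha₁ : (P.freyCurve⁄Qbar).a₁ ∈ A := by rw [e₁]; exact one_mem A
  have ha₂ : (P.freyCurve⁄Qbar).a₂ ∈ A := by rw [e₂]; exact S05.intCast_mem A n₂
  have ha₃ : (P.freyCurve⁄Qbar).a₃ ∈ A := by rw [e₃]; exact zero_mem A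
  have ha₄ : (P.freyCurve⁄Qbar).a₄ ∈ A := by rw [e₄]; exact S05.intCast_mem A n₄
  have ha₆ : (P.freyCurve⁄Qbar).a₆ ∈ A := by rw [e₆]; exact zero_mem A
  have hva₂ : A.valuation (P.freyCurve⁄Qbar).a₂ ≤ 1 := (A.valuation_le_one_iff _).mpr ha₂
  -- Step 1: `1 ≤ v x`
  obtain ⟨ω, hω, hcop⟩ := R1_frey_val_a₄ P A hA
  have h1 : 1 ≤ A.valuation (algebraMap ℚ Qbar x₀) := by
    refine R1_one_le_vx hV hτ0 hτ1 hω hcop h hQ (fun hlt => ?_)
    have hx0 : x₀ ≠ 0 := by
      rintro rfl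
      rw [map_zero, map_zero] at hlt
      exact not_lt_zero hlt
    exact R1_val_rat hA2 hx0
  -- Step 2: `x ∈ A`
  have h2 : A.valuation (algebraMap ℚ Qbar x₀) ≤ 1 := by
    by_contra hcon
    have hxA : algebraMap ℚ Qbar x₀ ∉ A :=
      fun hmem => hcon ((A.valuation_le_one_iff _).mpr hmem)
    have := kernelTorsionFree A ha₁ ha₂ ha₃ ha₄ ha₆ hpunit (Point.some _ _ h)
      (Or.inr ⟨_, _, h, rfl, hxA⟩) hQ
    exact Point.some_ne_zero h this
  have hvx : A.valuation (algebraMap ℚ Qbar x₀) = 1 := le_antisymm h2 h1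
  have hvy : A.valuation (algebraMap ℚ Qbar y₀) ≤ 1 := v_y_le_one hV h.1 hvx
  have hx1 : A.valuation (algebraMap ℚ Qbar x₀ - 1) < 1 := R1_val_sub_one hA2 hvx
  -- Steps 3 and 4
  have hcop3 : Nat.Coprime 3 P.p := by
    rw [Nat.coprime_comm, Nat.Prime.coprime_iff_not_dvd P.pp]
    intro hdvd
    have := Nat.le_of_dvd (by norm_num) hdvd
    have := P.hp5
    omega
  rcases R1_triple e₁ e₃ e₆ hva₂ hV.hw hv2 h hvx hvy hx1 with h3 | ⟨xp, yp, hp, h3, hxp⟩
  · exact Point.some_ne_zero h (R1_eq_zero_of_three hcop3 hQ h3)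
  · have h3Q : P.p • ((Point.some _ _ h : (P.freyCurve⁄Qbar).toAffine.Point) +
        Point.some _ _ h + Point.some _ _ h) = 0 := by
      rw [nsmul_add, nsmul_add, hQ, add_zero, add_zero]
    rw [h3] at h3Q
    have hxpA : xp ∉ A := fun hmem =>
      absurd ((A.valuation_le_one_iff _).mpr hmem) (not_le.mpr hxp)
    have := kernelTorsionFree A ha₁ ha₂ ha₃ ha₄ ha₆ hpunit (Point.some _ _ hp)
      (Or.inr ⟨xp, yp, hp, rfl, hxpA⟩) h3Q
    exact Point.some_ne_zero hp this

/-- **WP-R**: the Frey curve has no nonzero Galois-fixed `p`-torsion point. -/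
theorem ifR : IfR P := by
  intro Q hQ hfix
  obtain ⟨A, hA⟩ := Fermat.Agent.S54.exists_liesOverPrime Nat.prime_two
  rcases Q with _ | ⟨x, y, h⟩
  · rfl
  · exfalso
    have hxy : ∀ σ : Qbar ≃ₐ[ℚ] Qbar, σ x = x ∧ σ y = y := by
      intro σ
      obtain ⟨h', hσ⟩ := L2.smul_some (S := ℚ) P.freyCurve σ h
      have h1 := hfix σ
      rw [hσ] at h1
      have := Point.some.inj h1
      exact this
    obtain ⟨x₀, hx₀⟩ := R1_rational_of_fixed x fun σ => (hxy σ).1
    obtain ⟨y₀, hy₀⟩ := R1_rational_of_fixed y fun σ => (hxy σ).2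
    subst hx₀ hy₀
    have hQ' : P.p • (Point.some _ _ h : (P.freyCurve⁄Qbar).toAffine.Point) = 0 := by
      rw [← natCast_zsmul]; exact hQ
    exact R1_core P A hA h hQ'

end frey

end Fermat.Agent.S13
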