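import Fermat.Agent.S13.Skeleton
import Fermat.Agent.S13.LadderDiv
import Fermat.Agent.S13.BigRoot

/-!
# S13, module (SS) (helper97): exclusion of the "supersingular-like" case

`theorem ifaceSS : IfaceSS`: for an integral model over `ℚ` and an odd prime `p`, if every
`p`-torsion point lies in the kernel of reduction at a valuation subring `A` over `p`, then
`E[p]` has no proper nonzero Galois-stable submodule.

Proof: the division polynomial `D` (leading coefficient `p`, coefficients in `A`) vanishes at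
the `x`-coordinates of all nonzero `p`-torsion points.  The set `X(N)` of `x`-coordinates of the
nonzero points of a stable submodule `N` is Galois stable, hence has rational product `π ∉ A`,
so `v(p) v(π) ≥ 1`.  For `Q ∉ N`, the big-root bound applied to `X(N) ∪ {x(Q)}` gives
`v(p) v(π) v(x(Q)) ≤ 1`, contradicting `v(x(Q)) > 1`.
-/

set_option autoImplicit false
set_option linter.style.haveILetI false

namespace Fermat.Agent.S13

open WeierstrassCurve WeierstrassCurve.Affine Polynomial
open Fermat.Agent.S51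

section Val

variable {K : Type*} [Field K]

/-- An integer prime to `p` is a unit at a valuation subring over `p`. -/
lemma SS97_val_int_eq_one (A : ValuationSubring K) {p : ℕ} (hp : p.Prime)
    (hA : (p : K) ∈ A.nonunits) (z : ℤ) (hz : ¬ (p : ℤ) ∣ z) : A.valuation (z : K) = 1 := by
  have hle : A.valuation (z : K) ≤ 1 := (A.valuation_le_one_iff _).mpr (intCast_mem A z)
  refine le_antisymm hle (not_lt.mp fun hlt => ?_)
  have hcop : IsCoprime (p : ℤ) z :=
    (Nat.prime_iff_prime_int.mp hp).coprime_iff_not_dvd.mpr hz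
  obtain ⟨a, b, hab⟩ := hcop
  have hpv : A.valuation (p : K) < 1 := A.mem_nonunits_iff.mp hA
  have h1 : A.valuation ((a : K) * (p : K)) < 1 := by
    rw [map_mul]
    calc A.valuation (a : K) * A.valuation (p : K) ≤ 1 * A.valuation (p : K) := by
          gcongr
          exact (A.valuation_le_one_iff _).mpr (intCast_mem A a)
      _ < 1 := by rw [one_mul]; exact hpv
  have h2 : A.valuation ((b : K) * (z : K)) < 1 := by
    rw [map_mul]
    calc A.valuation (b : K) * A.valuation (z : K) ≤ 1 * A.valuation (z : K) := by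
          gcongr
          exact (A.valuation_le_one_iff _).mpr (intCast_mem A b)
      _ < 1 := by rw [one_mul]; exact hlt
  have h3 : ((a : K) * (p : K)) + ((b : K) * (z : K)) = 1 := by
    have := congrArg (fun t : ℤ => (t : K)) hab
    simpa using this
  have h4 := Valuation.map_add_lt A.valuation h1 h2
  rw [h3, map_one] at h4
  exact lt_irrefl _ h4

end Val

end Fermat.Agent.S13

namespace Fermat.Agent.S13

open WeierstrassCurve WeierstrassCurve.Affine Polynomial
open Fermat.Agent.S51

section Val2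

variable {K : Type*} [Field K] [Algebra ℚ K]

/-- A rational number outside a valuation subring over `p` has `v(p) · v(r) ≥ 1`. -/
lemma SS97_one_le_val_mul (A : ValuationSubring K) {p : ℕ} (hp : p.Prime)
    (hA : (p : K) ∈ A.nonunits) (r : ℚ) (hr : algebraMap ℚ K r ∉ A) :
    1 ≤ A.valuation (p : K) * A.valuation (algebraMap ℚ K r) := by
  have hd0 : (r.den : ℚ) ≠ 0 := Nat.cast_ne_zero.mpr r.den_nz
  -- r * den = num in K
  have hrd : algebraMap ℚ K r * ((r.den : ℤ) : K) = ((r.num : ℤ) : K) := by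
    have h1 : r * (r.den : ℚ) = (r.num : ℚ) := Rat.mul_den_eq_num r
    have h2 := congrArg (algebraMap ℚ K) h1
    rw [map_mul] at h2
    simpa using h2
  have hv : A.valuation (algebraMap ℚ K r) * A.valuation ((r.den : ℤ) : K)
      = A.valuation ((r.num : ℤ) : K) := by
    rw [← map_mul, hrd]
  have hnum_le : A.valuation ((r.num : ℤ) : K) ≤ 1 :=
    (A.valuation_le_one_iff _).mpr (intCast_mem A _)
  have hr1 : 1 < A.valuation (algebraMap ℚ K r) :=
    not_le.mp fun h => hr ((A.valuation_le_one_iff _).mp h)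
  by_cases hpd : (p : ℤ) ∣ (r.den : ℤ)
  · -- then p ∤ num
    have hpn : ¬ (p : ℤ) ∣ r.num := by
      intro hpn
      have hcop : Nat.Coprime r.num.natAbs r.den := r.reduced
      have h1 : p ∣ r.num.natAbs := Int.natCast_dvd.mp hpn
      have h2 : p ∣ r.den := Int.natCast_dvd_natCast.mp hpd
      have := Nat.dvd_gcd h1 h2
      rw [hcop] at this
      exact hp.one_lt.ne' (Nat.dvd_one.mp this)
    have hnum : A.valuation ((r.num : ℤ) : K) = 1 := SS97_val_int_eq_one A hp hA _ hpn
    obtain ⟨d', hd'⟩ := hpd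
    have hden : A.valuation ((r.den : ℤ) : K) = A.valuation (p : K) * A.valuation ((d' : ℤ) : K) := by
      rw [hd']
      push_cast
      rw [map_mul]
    have hd'le : A.valuation ((d' : ℤ) : K) ≤ 1 :=
      (A.valuation_le_one_iff _).mpr (intCast_mem A _)
    rw [hden, hnum] at hv
    -- (v r * v p) * v d' = 1, v d' ≤ 1
    by_contra hlt
    rw [not_le] at hlt
    have : A.valuation (algebraMap ℚ K r) * (A.valuation (p : K) * A.valuation ((d' : ℤ) : K)) < 1 := by
      calc A.valuation (algebraMap ℚ K r) * (A.valuation (p : K) * A.valuation ((d' : ℤ) : K))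
          = (A.valuation (p : K) * A.valuation (algebraMap ℚ K r)) * A.valuation ((d' : ℤ) : K) := by
            rw [mul_comm (A.valuation (p : K)) (A.valuation (algebraMap ℚ K r)), mul_assoc]
        _ ≤ (A.valuation (p : K) * A.valuation (algebraMap ℚ K r)) * 1 := by gcongr
        _ < 1 := by rw [mul_one]; exact hlt
    rw [hv] at this
    exact lt_irrefl _ this
  · exfalso
    have hden : A.valuation ((r.den : ℤ) : K) = 1 := SS97_val_int_eq_one A hp hA _ hpd
    rw [hden, mul_one] at hv
    rw [hv] at hr1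
    exact not_lt.mpr hnum_le hr1

end Val2

end Fermat.Agent.S13

namespace Fermat.Agent.S13

open WeierstrassCurve WeierstrassCurve.Affine Polynomial
open Fermat.Agent.S51

section Main

/-- A finite product of valuations `> 1` over a nonempty set is `> 1`. -/
lemma SS97_one_lt_prod {K : Type*} [Field K] (A : ValuationSubring K) (s : Finset K)
    (hs : s.Nonempty) (h : ∀ x ∈ s, 1 < A.valuation x) : 1 < ∏ x ∈ s, A.valuation x := by
  classical
  induction s using Finset.induction_on with
  | empty => exact absurd hs Finset.not_nonempty_empty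
  | insert a t hat ih =>
    rw [Finset.prod_insert hat]
    have ha : 1 < A.valuation a := h a (Finset.mem_insert_self a t)
    rcases t.eq_empty_or_nonempty with rfl | ht
    · simpa using ha
    · have := ih ht (fun x hx => h x (Finset.mem_insert_of_mem hx))
      calc (1 : A.ValueGroup) < A.valuation a := ha
        _ = A.valuation a * 1 := (mul_one _).symm
        _ ≤ A.valuation a * ∏ x ∈ t, A.valuation x := by gcongr

/-- A Galois-stable finite set has rational product. -/
lemma SS97_prod_rational (s : Finset (AlgebraicClosure ℚ))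
    (hs : ∀ σ : AlgebraicClosure ℚ ≃ₐ[ℚ] AlgebraicClosure ℚ, ∀ x ∈ s, σ x ∈ s) :
    ∃ r : ℚ, algebraMap ℚ (AlgebraicClosure ℚ) r = ∏ x ∈ s, x := by
  classical
  apply A_rational_of_fixed
  intro σ
  have himg : s.image σ = s := by
    apply Finset.eq_of_subset_of_card_le
    · intro y hy
      obtain ⟨x, hx, rfl⟩ := Finset.mem_image.mp hy
      exact hs σ x hx
    · rw [Finset.card_image_of_injective _ σ.injective]
  rw [map_prod]
  conv_rhs => rw [← himg]
  rw [Finset.prod_image]
  intro a _ b _ hab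
  exact σ.injective hab

/-- **(SS)**: if all of `E[p]` lies in the kernel of reduction at a valuation subring over `p`
(`p` odd, integral model), then `E[p]` has no proper nonzero Galois-stable submodule. -/
theorem ifaceSS : IfaceSS := by
  intro p hp hp2 W hW hΔ A hA hE1 N hN hbot htop
  classical
  obtain ⟨a₁, a₂, a₃, a₄, a₆, hW⟩ := hW
  have hΔ' : (W⁄(AlgebraicClosure ℚ)).Δ ≠ 0 := A_baseChange_Δ_ne_zero W hΔ
  obtain ⟨D, hD0, -, hlc, hcoef, hroot, hfin, -⟩ :=
    T_exists_divPoly (E := (W⁄(AlgebraicClosure ℚ))) hΔ' p hp hp2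
  -- integrality of the coefficients
  have hint : ∀ z : ℤ, algebraMap ℚ (AlgebraicClosure ℚ) (z : ℚ) ∈ A.toSubring := by
    intro z
    rw [map_intCast]
    exact intCast_mem A z
  have hb2 : (W⁄(AlgebraicClosure ℚ)).b₂ ∈ A.toSubring := by
    have h : (W⁄(AlgebraicClosure ℚ)).b₂ = algebraMap ℚ (AlgebraicClosure ℚ) W.b₂ :=
      WeierstrassCurve.map_b₂ W _
    have h' : W.b₂ = ((a₁ ^ 2 + 4 * a₂ : ℤ) : ℚ) := by
      subst hW
      simp only [WeierstrassCurve.b₂]
      push_cast
      ring
    rw [h, h']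
    exact hint _
  have hb4 : (W⁄(AlgebraicClosure ℚ)).b₄ ∈ A.toSubring := by
    have h : (W⁄(AlgebraicClosure ℚ)).b₄ = algebraMap ℚ (AlgebraicClosure ℚ) W.b₄ :=
      WeierstrassCurve.map_b₄ W _
    have h' : W.b₄ = ((2 * a₄ + a₁ * a₃ : ℤ) : ℚ) := by
      subst hW
      simp only [WeierstrassCurve.b₄]
      push_cast
      ring
    rw [h, h']
    exact hint _
  have hb6 : (W⁄(AlgebraicClosure ℚ)).b₆ ∈ A.toSubring := by
    have h : (W⁄(AlgebraicClosure ℚ)).b₆ = algebraMap ℚ (AlgebraicClosure ℚ) W.b₆ :=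
      WeierstrassCurve.map_b₆ W _
    have h' : W.b₆ = ((a₃ ^ 2 + 4 * a₆ : ℤ) : ℚ) := by
      subst hW
      simp only [WeierstrassCurve.b₆]
      push_cast
      ring
    rw [h, h']
    exact hint _
  have hb8 : (W⁄(AlgebraicClosure ℚ)).b₈ ∈ A.toSubring := by
    have h : (W⁄(AlgebraicClosure ℚ)).b₈ = algebraMap ℚ (AlgebraicClosure ℚ) W.b₈ :=
      WeierstrassCurve.map_b₈ W _
    have h' : W.b₈ = ((a₁ ^ 2 * a₆ + 4 * a₂ * a₆ - a₁ * a₃ * a₄ + a₂ * a₃ ^ 2 - a₄ ^ 2 : ℤ) : ℚ) := by
      subst hW
      simp only [WeierstrassCurve.b₈]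
      push_cast
      ring
    rw [h, h']
    exact hint _
  have hDA : ∀ i, D.coeff i ∈ A := fun i => hcoef A.toSubring hb2 hb4 hb6 hb8 i
  -- facts about torsion points
  have hpt : ∀ t : Tors W p, (p : ℤ) • (t : (W⁄(AlgebraicClosure ℚ)).Point) = 0 := by
    intro t
    exact (Submodule.mem_torsionBy_iff _ _).mp t.2
  have hne : ∀ t : Tors W p, t ≠ 0 → (t : (W⁄(AlgebraicClosure ℚ)).Point) ≠ 0 := by
    intro t ht h
    exact ht (Subtype.ext h)
  have hxroot : ∀ t : Tors W p, t ≠ 0 →
      D.IsRoot (A_x (t : (W⁄(AlgebraicClosure ℚ)).Point)) ∧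
        A_x (t : (W⁄(AlgebraicClosure ℚ)).Point) ∉ A := by
    intro t ht
    have h1 := hpt t
    refine ⟨?_, ?_⟩
    · rw [IsRoot.def]
      apply (hroot _ (hne t ht)).mp
      rw [← natCast_zsmul]
      exact h1
    · rcases hE1 _ h1 with h0 | ⟨x, y, h, he, hx⟩
      · exact absurd h0 (hne t ht)
      · rw [he]
        exact hx
  -- the finite set of x-coordinates of N \ 0
  have hfin' : Finite (Tors W p) := hfin
  let _ : Fintype (Tors W p) := Fintype.ofFinite _
  set sN : Finset (AlgebraicClosure ℚ) :=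
    Finset.image (fun t : Tors W p => A_x (t : (W⁄(AlgebraicClosure ℚ)).Point))
      (Finset.filter (fun t : Tors W p => t ∈ N ∧ t ≠ 0) Finset.univ) with hsN
  have hmem : ∀ x, x ∈ sN ↔ ∃ t : Tors W p, t ∈ N ∧ t ≠ 0 ∧
      A_x (t : (W⁄(AlgebraicClosure ℚ)).Point) = x := by
    intro x
    rw [hsN, Finset.mem_image]
    constructor
    · rintro ⟨t, ht, rfl⟩
      rw [Finset.mem_filter] at ht
      exact ⟨t, ht.2.1, ht.2.2, rfl⟩
    · rintro ⟨t, h1, h2, rfl⟩
      exact ⟨t, Finset.mem_filter.mpr ⟨Finset.mem_univ _, h1, h2⟩, rfl⟩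
  -- nonempty
  obtain ⟨t₀, ht₀N, ht₀⟩ := (Submodule.ne_bot_iff N).mp hbot
  have hsne : sN.Nonempty := ⟨_, (hmem _).mpr ⟨t₀, ht₀N, ht₀, rfl⟩⟩
  -- Galois stable
  have hstab : ∀ σ : AlgebraicClosure ℚ ≃ₐ[ℚ] AlgebraicClosure ℚ, ∀ x ∈ sN, σ x ∈ sN := by
    intro σ x hx
    obtain ⟨t, htN, ht0, rfl⟩ := (hmem x).mp hx
    refine (hmem _).mpr ⟨σ • t, hN σ t htN, ?_, ?_⟩
    · intro h
      apply ht0
      have h' : σ • (t : (W⁄(AlgebraicClosure ℚ)).Point) = 0 := congrArg Subtype.val h
      exact Subtype.ext ((smul_eq_zero_iff_eq σ).mp h')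
    · exact A_x_smul W σ _
  obtain ⟨r, hr⟩ := SS97_prod_rational sN hstab
  -- a point outside N
  obtain ⟨q, hq⟩ : ∃ q : Tors W p, q ∉ N := by
    by_contra h
    push Not at h
    exact htop ((Submodule.eq_top_iff').mpr h)
  have hq0 : q ≠ 0 := fun h => hq (h ▸ N.zero_mem)
  have hqs : A_x (q : (W⁄(AlgebraicClosure ℚ)).Point) ∉ sN := by
    intro h
    obtain ⟨t, htN, ht0, hx⟩ := (hmem _).mp h
    rcases (A_x_eq_iff _ (hne t ht0) (hne q hq0)).mp hx with h1 | h1
    · have : t = q := Subtype.ext h1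
      exact hq (this ▸ htN)
    · have : t = -q := Subtype.ext h1
      have h2 : q = -t := by rw [this, neg_neg]
      exact hq (h2 ▸ N.neg_mem htN)
  -- the big-root bound
  have hbound := bigRoot_bound A D hD0 hDA (insert (A_x (q : (W⁄(AlgebraicClosure ℚ)).Point)) sN)
    (by
      intro x hx
      rcases Finset.mem_insert.mp hx with rfl | hx
      · exact hxroot q hq0
      · obtain ⟨t, -, ht0, rfl⟩ := (hmem x).mp hx
        exact hxroot t ht0)
  rw [Finset.prod_insert hqs, hlc] at hbound
  have hgt : ∀ x ∈ sN, 1 < A.valuation x := by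
    intro x hx
    obtain ⟨t, -, ht0, rfl⟩ := (hmem x).mp hx
    exact not_le.mp fun h => (hxroot t ht0).2 ((A.valuation_le_one_iff _).mp h)
  have hprod : 1 < ∏ x ∈ sN, A.valuation x := SS97_one_lt_prod A sN hsne hgt
  have hprod' : ∏ x ∈ sN, A.valuation x = A.valuation (algebraMap ℚ (AlgebraicClosure ℚ) r) := by
    rw [hr, map_prod]
  have hrA : algebraMap ℚ (AlgebraicClosure ℚ) r ∉ A := by
    intro h
    have := (A.valuation_le_one_iff _).mpr h
    rw [← hprod'] at this
    exact not_lt.mpr this hprod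
  have h1 := SS97_one_le_val_mul A hp hA r hrA
  have hq1 : 1 < A.valuation (A_x (q : (W⁄(AlgebraicClosure ℚ)).Point)) :=
    not_le.mp fun h => (hxroot q hq0).2 ((A.valuation_le_one_iff _).mp h)
  rw [hprod'] at hbound
  have : (1 : A.ValueGroup) < 1 := by
    calc (1 : A.ValueGroup) < A.valuation (A_x (q : (W⁄(AlgebraicClosure ℚ)).Point)) := hq1
      _ = A.valuation (A_x (q : (W⁄(AlgebraicClosure ℚ)).Point)) * 1 := (mul_one _).symm
      _ ≤ A.valuation (A_x (q : (W⁄(AlgebraicClosure ℚ)).Point)) *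
            (A.valuation (p : AlgebraicClosure ℚ) *
              A.valuation (algebraMap ℚ (AlgebraicClosure ℚ) r)) := by gcongr
      _ = A.valuation (p : AlgebraicClosure ℚ) *
            (A.valuation (A_x (q : (W⁄(AlgebraicClosure ℚ)).Point)) *
              A.valuation (algebraMap ℚ (AlgebraicClosure ℚ) r)) := by
            rw [← mul_assoc, ← mul_assoc,
              mul_comm (A.valuation (A_x (q : (W⁄(AlgebraicClosure ℚ)).Point)))]
      _ ≤ 1 := hbound
  exact lt_irrefl _ this

end Main

end Fermat.Agent.S13
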